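/-
PROGRAMME MW (S17), block CHOW+UD (helper8).  `LinAlg8`: linear algebra used by the Chow determinant.

* `det_eq_prod_of_triangular` : an endomorphism which is triangular w.r.t. a basis indexed by a
  linear order (`T (b j) - c j • b j ∈ span {b i | j < i}`) has determinant `∏ c j`;
* `vecMul_adjugate_of_vecMul_eq` : Cramer's rule in the form used for the division by the incidence
  form: `u ᵥ* M = s • w → det M • u = s • (w ᵥ* adjugate M)`.
-/
import Mathlib

set_option autoImplicit false
set_option linter.unusedSectionVars false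

namespace Fermat.Agent.MW.CHOW.LinAlg8

open Matrix

section Triangular

variable {K V ι : Type*} [Field K] [AddCommGroup V] [Module K V]
  [Fintype ι] [DecidableEq ι] [LinearOrder ι]

/-- coordinates of a vector of `span {b i | j < i}` vanish at indices `≤ j`. -/
theorem repr_eq_zero_of_mem_span (b : Module.Basis ι K V) (j : ι) {x : V}
    (hx : x ∈ Submodule.span K (b '' {i | j < i})) {i : ι} (hi : i ≤ j) : b.repr x i = 0 := by
  induction hx using Submodule.span_induction with
  | mem y hy =>
    obtain ⟨i', hi', rfl⟩ := hy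
    rw [b.repr_self, Finsupp.single_apply, if_neg]
    intro h
    subst h
    exact absurd (lt_of_lt_of_le hi' hi) (lt_irrefl _)
  | zero => simp
  | add y z _ _ hy hz => simp [hy, hz]
  | smul a y _ hy => simp [hy]

/-- An endomorphism which is lower triangular w.r.t. the basis `b` with diagonal `c` has determinant
`∏ c`. -/
theorem det_eq_prod_of_triangular (b : Module.Basis ι K V) (T : V →ₗ[K] V) (c : ι → K)
    (h : ∀ j, T (b j) - c j • b j ∈ Submodule.span K (b '' {i | j < i})) :
    LinearMap.det T = ∏ j, c j := by
  rw [← LinearMap.det_toMatrix b T]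
  have hentry : ∀ i j, i ≤ j → LinearMap.toMatrix b b T i j = if i = j then c j else 0 := by
    intro i j hij
    rw [LinearMap.toMatrix_apply]
    have h1 := repr_eq_zero_of_mem_span b j (h j) hij
    rw [map_sub, Finsupp.sub_apply, sub_eq_zero, map_smul, b.repr_self, Finsupp.smul_apply,
      Finsupp.single_apply, smul_eq_mul] at h1
    rw [h1]
    by_cases hij' : j = i
    · subst hij'; simp
    · rw [if_neg hij', if_neg (Ne.symm hij'), mul_zero]
  have htri : (LinearMap.toMatrix b b T).BlockTriangular OrderDual.toDual := by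
    intro i j hij
    have hij' : i < j := hij
    rw [hentry i j hij'.le, if_neg hij'.ne]
  rw [Matrix.det_of_isLowerTriangular _ htri]
  refine Finset.prod_congr rfl fun j _ => ?_
  rw [hentry j j le_rfl, if_pos rfl]

end Triangular

section Cramer

variable {R ι : Type*} [CommRing R] [Fintype ι] [DecidableEq ι]

/-- Cramer's rule: if `u ᵥ* M = s • w` then `det M • u = s • (w ᵥ* adjugate M)`. -/
theorem vecMul_adjugate_of_vecMul_eq (M : Matrix ι ι R) (u w : ι → R) (s : R)
    (h : u ᵥ* M = s • w) : M.det • u = s • (w ᵥ* M.adjugate) := by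
  have h1 : (u ᵥ* M) ᵥ* M.adjugate = M.det • u := by
    rw [Matrix.vecMul_vecMul, Matrix.mul_adjugate, Matrix.vecMul_smul, Matrix.vecMul_one]
  rw [← h1, h, Matrix.smul_vecMul]

theorem mul_det_eq_of_vecMul_eq (M : Matrix ι ι R) (u w : ι → R) (s : R)
    (h : u ᵥ* M = s • w) (r : ι) : u r * M.det = s * ∑ p, w p * M.adjugate p r := by
  have := congrFun (vecMul_adjugate_of_vecMul_eq M u w s h) r
  simp only [Pi.smul_apply, smul_eq_mul, Matrix.vecMul, dotProduct] at this
  rw [mul_comm, this]

end Cramer

end Fermat.Agent.MW.CHOW.LinAlg8
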