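/-
PROGRAMME MW (S17), block CHOW+UD (helper8).  `ChowAlg8`: the CHOW DETERMINANT as pure algebra over a
commutative ring.

Data: structure constants `g i q r` (`b_i * β_q = ∑ r, g i q r • τ_r` for bases `b` of `S_1`, `β` of
`S_2`, `τ` of `S_3`), an identification `e : I2 ⊕ E ≃ I3` of index sets and a selection
`sel : E → I2`.

* `chowMat g e sel c c'` : the matrix of `(a, λ) ↦ l_c · a + l_c' · ∑ j, λ j • β (sel j)`,
  `chowVal` its determinant; naturality under ring homomorphisms (`map_chowVal`);
* `iotaW Y W` : the linear form `x ↦ ∑ (k,i), W (k,i) * (Y k * x i - Y i * x k)` (contraction of the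
  2-form `W` with `Y`); `iotaW_dot`, `iotaW_dot_self`;
* `dVal` : the Cramer quotient; `mul_chowVal_eq` : `u r * chowVal = (c · Y) * dVal r` for a "point"
  `(u, w, Y)` of the table (`∑ r, u r * g i q r = Y i * w q`);
* `chowVal_eq_zero_of_mulVec` : a kernel vector kills the determinant;
* `det_graded` : determinants of matrices whose columns are homogeneous (for an abstract grading
  predicate), `adjugate_apply_col`, `adjugate_graded`.
-/
import Mathlib
import Fermat.Agent.MW.CHOW.LinAlg8

set_option autoImplicit false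
set_option linter.unusedSectionVars false

namespace Fermat.Agent.MW.CHOW.ChowAlg8

open Matrix Fermat.Agent.MW.CHOW.LinAlg8

section Defs

variable {A B : Type*} [CommRing A] [CommRing B]
variable {n : ℕ} {I2 I3 E : Type*}

/-- the matrix of `(a, λ) ↦ l_c · a + l_c' · ∑ j, λ j • β (sel j)` w.r.t. the bases `β ⊕ std` and
`τ ∘ e`. -/
def chowMat (g : Fin n → I2 → I3 → A) (e : I2 ⊕ E ≃ I3) (sel : E → I2) (c c' : Fin n → A) :
    Matrix (I2 ⊕ E) (I2 ⊕ E) A :=
  Matrix.of fun p col =>
    Sum.elim (fun q => ∑ i, c i * g i q (e p)) (fun j => ∑ i, c' i * g i (sel j) (e p)) col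

theorem chowMat_inl (g : Fin n → I2 → I3 → A) (e : I2 ⊕ E ≃ I3) (sel : E → I2) (c c' : Fin n → A)
    (p : I2 ⊕ E) (q : I2) : chowMat g e sel c c' p (Sum.inl q) = ∑ i, c i * g i q (e p) := rfl

theorem chowMat_inr (g : Fin n → I2 → I3 → A) (e : I2 ⊕ E ≃ I3) (sel : E → I2) (c c' : Fin n → A)
    (p : I2 ⊕ E) (j : E) : chowMat g e sel c c' p (Sum.inr j) = ∑ i, c' i * g i (sel j) (e p) := rfl

theorem map_chowMat (φ : A →+* B) (g : Fin n → I2 → I3 → A) (e : I2 ⊕ E ≃ I3) (sel : E → I2)
    (c c' : Fin n → A) :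
    (chowMat g e sel c c').map φ =
      chowMat (fun i q r => φ (g i q r)) e sel (fun i => φ (c i)) (fun i => φ (c' i)) := by
  ext p col
  rcases col with q | j
  · simp [chowMat_inl, map_sum]
  · simp [chowMat_inr, map_sum]

variable [Fintype I2] [Fintype E] [DecidableEq I2] [DecidableEq E]

/-- the Chow determinant. -/
def chowVal (g : Fin n → I2 → I3 → A) (e : I2 ⊕ E ≃ I3) (sel : E → I2) (c c' : Fin n → A) : A :=
  (chowMat g e sel c c').det

theorem map_chowVal (φ : A →+* B) (g : Fin n → I2 → I3 → A) (e : I2 ⊕ E ≃ I3) (sel : E → I2)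
    (c c' : Fin n → A) :
    φ (chowVal g e sel c c') =
      chowVal (fun i q r => φ (g i q r)) e sel (fun i => φ (c i)) (fun i => φ (c' i)) := by
  rw [chowVal, chowVal, RingHom.map_det, ← map_chowMat]
  rfl

/-- contraction of the 2-form `W` with the vector `Y`. -/
def iotaW (Y : Fin n → A) (W : Fin n × Fin n → A) : Fin n → A :=
  fun i => ∑ k, (W (k, i) - W (i, k)) * Y k

theorem map_iotaW (φ : A →+* B) (Y : Fin n → A) (W : Fin n × Fin n → A) (i : Fin n) :
    φ (iotaW Y W i) = iotaW (fun k => φ (Y k)) (fun a => φ (W a)) i := by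
  simp [iotaW, map_sum]

theorem iotaW_dot (Y x : Fin n → A) (W : Fin n × Fin n → A) :
    ∑ i, iotaW Y W i * x i = ∑ a : Fin n × Fin n, W a * (Y a.1 * x a.2 - Y a.2 * x a.1) := by
  simp only [iotaW, Finset.sum_mul, Fintype.sum_prod_type, sub_mul, mul_sub,
    Finset.sum_sub_distrib]
  congr 1
  · rw [Finset.sum_comm]
    refine Finset.sum_congr rfl fun k _ => Finset.sum_congr rfl fun i _ => ?_
    ring
  · refine Finset.sum_congr rfl fun k _ => Finset.sum_congr rfl fun i _ => ?_
    ring

theorem iotaW_dot_self (Y : Fin n → A) (W : Fin n × Fin n → A) :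
    ∑ i, iotaW Y W i * Y i = 0 := by
  rw [iotaW_dot]
  refine Finset.sum_eq_zero fun a _ => ?_
  ring

/-- the Cramer quotient of the Chow determinant by the incidence form. -/
def dVal (g : Fin n → I2 → I3 → A) (e : I2 ⊕ E ≃ I3) (sel : E → I2) (w : I2 → A) (r : I3)
    (c Y : Fin n → A) (W : Fin n × Fin n → A) : A :=
  ∑ q, w q * (chowMat g e sel c (iotaW Y W)).adjugate (Sum.inl q) (e.symm r)

theorem map_dVal (φ : A →+* B) (g : Fin n → I2 → I3 → A) (e : I2 ⊕ E ≃ I3) (sel : E → I2)
    (w : I2 → A) (r : I3) (c Y : Fin n → A) (W : Fin n × Fin n → A) :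
    φ (dVal g e sel w r c Y W) =
      dVal (fun i q r => φ (g i q r)) e sel (fun q => φ (w q)) r (fun i => φ (c i))
        (fun i => φ (Y i)) (fun a => φ (W a)) := by
  rw [dVal, dVal, map_sum]
  refine Finset.sum_congr rfl fun q _ => ?_
  rw [map_mul]
  congr 1
  have h1 := RingHom.map_adjugate φ (chowMat g e sel c (iotaW Y W))
  have h2 := congrFun (congrFun h1 (Sum.inl q)) (e.symm r)
  rw [RingHom.mapMatrix_apply, RingHom.mapMatrix_apply, Matrix.map_apply, map_chowMat] at h2
  rw [h2]
  congr 3
  funext i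
  exact map_iotaW φ Y W i

variable [Fintype I3]

/-- **Cramer identity**: at a point `(u, w, Y)` of the table, the Chow determinant of `(c, ι_Y W)`
times `u r` is the incidence form `c · Y` times the quotient `dVal`. -/
theorem mul_chowVal_eq (g : Fin n → I2 → I3 → A) (e : I2 ⊕ E ≃ I3) (sel : E → I2)
    (u : I3 → A) (w : I2 → A) (Y : Fin n → A)
    (hmul : ∀ i q, ∑ r, u r * g i q r = Y i * w q)
    (c : Fin n → A) (W : Fin n × Fin n → A) (r : I3) :
    u r * chowVal g e sel c (iotaW Y W) = (∑ i, c i * Y i) * dVal g e sel w r c Y W := by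
  have hvec : (fun p => u (e p)) ᵥ* chowMat g e sel c (iotaW Y W) =
      (∑ i, c i * Y i) • (Sum.elim w (fun _ => 0) : I2 ⊕ E → A) := by
    funext col
    rcases col with q | j
    · simp only [Matrix.vecMul, dotProduct, chowMat_inl, Pi.smul_apply, Sum.elim_inl, smul_eq_mul]
      rw [e.sum_comp (fun r => u r * ∑ i, c i * g i q r)]
      simp only [Finset.mul_sum]
      rw [Finset.sum_comm, Finset.sum_mul]
      refine Finset.sum_congr rfl fun i _ => ?_
      have := hmul i q
      calc ∑ r, u r * (c i * g i q r) = c i * ∑ r, u r * g i q r := by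
            rw [Finset.mul_sum]; refine Finset.sum_congr rfl fun r _ => ?_; ring
        _ = c i * Y i * w q := by rw [this]; ring
    · simp only [Matrix.vecMul, dotProduct, chowMat_inr, Pi.smul_apply, Sum.elim_inr, smul_eq_mul,
        mul_zero]
      rw [e.sum_comp (fun r => u r * ∑ i, iotaW Y W i * g i (sel j) r)]
      simp only [Finset.mul_sum]
      rw [Finset.sum_comm]
      have : ∀ i, ∑ r, u r * (iotaW Y W i * g i (sel j) r) = iotaW Y W i * Y i * w (sel j) := by
        intro i
        calc ∑ r, u r * (iotaW Y W i * g i (sel j) r)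
            = iotaW Y W i * ∑ r, u r * g i (sel j) r := by
              rw [Finset.mul_sum]; refine Finset.sum_congr rfl fun r _ => ?_; ring
          _ = _ := by rw [hmul i (sel j)]; ring
      rw [Finset.sum_congr rfl fun i _ => this i, ← Finset.sum_mul, iotaW_dot_self, zero_mul]
  have h := mul_det_eq_of_vecMul_eq _ _ _ _ hvec (e.symm r)
  rw [Equiv.apply_symm_apply] at h
  rw [chowVal, h, dVal]
  congr 1
  rw [Fintype.sum_sum_type]
  simp

end Defs

section Field

variable {K : Type*} [Field K] {n : ℕ} {I2 I3 E : Type*} [Fintype I2] [Fintype E] [DecidableEq I2]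
  [DecidableEq E]

/-- a kernel vector kills the Chow determinant. -/
theorem chowVal_eq_zero_of_mulVec (g : Fin n → I2 → I3 → K) (e : I2 ⊕ E ≃ I3) (sel : E → I2)
    (c c' : Fin n → K) (x : I2 ⊕ E → K) (hx : x ≠ 0) (h : chowMat g e sel c c' *ᵥ x = 0) :
    chowVal g e sel c c' = 0 := by
  rw [chowVal]
  exact Matrix.exists_mulVec_eq_zero_iff.mp ⟨x, hx, h⟩

end Field

section Graded

variable {A : Type*} [CommRing A] {Mo : Type*} [AddCommMonoid Mo]

/-- determinants of matrices with homogeneous columns, for an abstract grading predicate `P`. -/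
theorem det_graded (P : Mo → A → Prop) (hzero : ∀ m, P m 0) (hone : P 0 1)
    (hadd : ∀ m a b, P m a → P m b → P m (a + b)) (hneg : ∀ m a, P m a → P m (-a))
    (hmul : ∀ m m' a b, P m a → P m' b → P (m + m') (a * b))
    {ι : Type*} [Fintype ι] [DecidableEq ι] (M : Matrix ι ι A) (δ : ι → Mo)
    (h : ∀ p col, P (δ col) (M p col)) : P (∑ col, δ col) M.det := by
  classical
  have hsum : ∀ (m : Mo) (s : Finset (Equiv.Perm ι)) (f : Equiv.Perm ι → A),
      (∀ k ∈ s, P m (f k)) → P m (∑ k ∈ s, f k) := by
    intro m s f hf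
    induction s using Finset.induction_on with
    | empty => simpa using hzero m
    | insert a s ha ih =>
      rw [Finset.sum_insert ha]
      exact hadd _ _ _ (hf a (Finset.mem_insert_self a s))
        (ih fun k hk => hf k (Finset.mem_insert_of_mem hk))
  have hprod : ∀ (s : Finset ι) (f : ι → A), (∀ k ∈ s, P (δ k) (f k)) →
      P (∑ k ∈ s, δ k) (∏ k ∈ s, f k) := by
    intro s f hf
    induction s using Finset.induction_on with
    | empty => simpa using hone
    | insert a s ha ih =>
      rw [Finset.sum_insert ha, Finset.prod_insert ha]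
      exact hmul _ _ _ _ (hf a (Finset.mem_insert_self a s))
        (ih fun k hk => hf k (Finset.mem_insert_of_mem hk))
  rw [Matrix.det_apply]
  refine hsum _ _ _ fun σ _ => ?_
  have hp := hprod Finset.univ (fun i => M (σ i) i) fun k _ => h (σ k) k
  rcases Int.units_eq_one_or (Equiv.Perm.sign σ) with hs | hs
  · rw [hs, one_smul]; exact hp
  · rw [hs, Units.neg_smul, one_smul]; exact hneg _ _ hp

theorem adjugate_apply_col {ι : Type*} [Fintype ι] [DecidableEq ι] (M : Matrix ι ι A) (i j : ι) :
    M.adjugate i j = (M.updateCol i (Pi.single j 1)).det := by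
  have h := congrFun (congrFun (Matrix.adjugate_transpose M) j) i
  rw [Matrix.transpose_apply] at h
  rw [h, Matrix.adjugate_apply, ← Matrix.det_transpose, Matrix.updateRow_transpose,
    Matrix.transpose_transpose]

/-- entries of the adjugate of a matrix with homogeneous columns. -/
theorem adjugate_graded (P : Mo → A → Prop) (hzero : ∀ m, P m 0) (hone : P 0 1)
    (hadd : ∀ m a b, P m a → P m b → P m (a + b)) (hneg : ∀ m a, P m a → P m (-a))
    (hmul : ∀ m m' a b, P m a → P m' b → P (m + m') (a * b))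
    {ι : Type*} [Fintype ι] [DecidableEq ι] (M : Matrix ι ι A) (δ : ι → Mo)
    (h : ∀ p col, P (δ col) (M p col)) (i j : ι) :
    P (∑ col, if col = i then 0 else δ col) (M.adjugate i j) := by
  rw [adjugate_apply_col]
  refine det_graded P hzero hone hadd hneg hmul _ _ fun p col => ?_
  by_cases hc : col = i
  · subst hc
    rw [if_pos rfl, Matrix.updateCol_self]
    by_cases hp : p = j
    · subst hp; rw [Pi.single_eq_same]; exact hone
    · rw [Pi.single_eq_of_ne hp]; exact hzero _
  · rw [if_neg hc, Matrix.updateCol_ne hc]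
    exact h p col

end Graded

end Fermat.Agent.MW.CHOW.ChowAlg8
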