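/-
PROGRAMME MW (S17), block CHOW+UD (helper8).  `FlagDet8`: the determinant of an endomorphism that is
"triangular" with respect to a descending chain of subspaces.

* `det_eq_mul_det_restrict` : `U ⊂ V` of codimension one with `(T - φ) V ⊆ U`:
  `det T = φ * det (T|_U)`;
* `det_eq_prod_of_chain` : `V = W 0 ⊇ W 1 ⊇ … ⊇ W d`, `codim W j = j`, `(T - φ j) (W j) ⊆ W (j+1)`,
  `T = id` on `W d`:  `det T = ∏ j < d, φ j`.
-/
import Mathlib

set_option autoImplicit false
set_option linter.unusedSectionVars false

namespace Fermat.Agent.MW.CHOW.FlagDet8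

variable {K : Type*} [Field K]

theorem det_eq_mul_det_restrict {V : Type*} [AddCommGroup V] [Module K V] [FiniteDimensional K V]
    (T : V →ₗ[K] V) (U : Submodule K V) (φ : K)
    (hU : Module.finrank K U + 1 = Module.finrank K V) (hT : ∀ f, T f - φ • f ∈ U) :
    ∃ hTU : U ≤ U.comap T, LinearMap.det T = φ * LinearMap.det (T.restrict hTU) := by
  have hTU : U ≤ U.comap T := by
    intro f hf
    rw [Submodule.mem_comap]
    have h2 : T f = (T f - φ • f) + φ • f := by abel
    rw [h2]
    exact U.add_mem (hT f) (U.smul_mem _ hf)
  refine ⟨hTU, ?_⟩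
  rw [LinearMap.det_eq_det_mul_det U T hTU, mul_comm]
  congr 1
  have hq : U.mapQ U T hTU = φ • LinearMap.id := by
    apply LinearMap.ext
    intro x
    induction x using Submodule.Quotient.induction_on with
    | H f =>
      rw [Submodule.mapQ_apply, LinearMap.smul_apply, LinearMap.id_apply,
        ← Submodule.Quotient.mk_smul, Submodule.Quotient.eq]
      exact hT f
  have hfr : Module.finrank K (V ⧸ U) = 1 := by
    have := Submodule.finrank_quotient_add_finrank U
    omega
  rw [hq, LinearMap.det_smul, LinearMap.det_id, mul_one, hfr, pow_one]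

theorem det_eq_prod_of_chain (d : ℕ) : ∀ {V : Type*} [AddCommGroup V] [Module K V]
    [FiniteDimensional K V] (T : V →ₗ[K] V) (W : ℕ → Submodule K V) (φ : ℕ → K),
    W 0 = ⊤ → (∀ j < d, W (j + 1) ≤ W j) →
    (∀ j ≤ d, Module.finrank K (W j) + j = Module.finrank K V) →
    (∀ j < d, ∀ f ∈ W j, T f - φ j • f ∈ W (j + 1)) → (∀ f ∈ W d, T f = f) →
    LinearMap.det T = ∏ j ∈ Finset.range d, φ j := by
  induction d with
  | zero =>
    intro V _ _ _ T W φ h0 _ _ _ hid
    have : T = LinearMap.id := by
      apply LinearMap.ext
      intro f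
      exact hid f (by rw [h0]; trivial)
    rw [this, LinearMap.det_id, Finset.prod_range_zero]
  | succ d ih =>
    intro V _ _ _ T W φ h0 hle hrank hT hid
    have hanti : ∀ j, W (j + 1) ≤ W 1 ∨ d + 1 < j + 1 := by
      intro j
      induction j with
      | zero => exact Or.inl le_rfl
      | succ j ihj =>
        by_cases hj : j + 1 + 1 ≤ d + 1
        · rcases ihj with h | h
          · exact Or.inl ((hle (j + 1) (by omega)).trans h)
          · omega
        · exact Or.inr (by omega)
    obtain ⟨hTU, hdet⟩ := det_eq_mul_det_restrict T (W 1) (φ 0)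
      (by have := hrank 1 (by omega); omega)
      (fun f => by
        have := hT 0 (by omega) f (by rw [h0]; trivial)
        simpa using this)
    rw [hdet, Finset.prod_range_succ', mul_comm]
    congr 1
    refine ih (T.restrict hTU) (fun j => (W (j + 1)).comap (W 1).subtype) (fun j => φ (j + 1))
      ?_ ?_ ?_ ?_ ?_
    · exact Submodule.comap_subtype_self _
    · intro j hj
      exact Submodule.comap_mono (hle (j + 1) (by omega))
    · intro j hj
      have hle1 : W (j + 1) ≤ W 1 := by
        rcases hanti j with h | h
        · exact h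
        · omega
      have e := (Submodule.comapSubtypeEquivOfLe hle1).finrank_eq
      have h1 := hrank (j + 1) (by omega)
      have h2 := hrank 1 (by omega)
      omega
    · intro j hj f hf
      rw [Submodule.mem_comap] at hf ⊢
      have := hT (j + 1) (by omega) _ hf
      simpa using this
    · intro f hf
      rw [Submodule.mem_comap] at hf
      apply Subtype.ext
      have := hid _ hf
      simpa using this

end Fermat.Agent.MW.CHOW.FlagDet8
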