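/-
PROGRAMME MW (S17), block CHOW+UD (helper8).  `Sec8`: calculus of SECTIONS of `O(m·P0)`
(elements of `Lm P0 m`, all `m` at once) on top of EMB's `Coord6`:

* `triv_add`, `ordSec_mul` (orders of vanishing add up), `ordSec_smul`;
* `mem_Lsub_iff` : `f ∈ L(m·P0 - G) ↔ ∀ v, G v ≤ ordSec m v f`;
* `zdiv` (divisor of zeros of a section), `zdiv_apply`, `zdiv_nonneg`, `degree_zdiv`;
* `ev_mul` (values multiply), `ev_ne_zero_iff`.
-/
import Mathlib
import Fermat.Agent.MW.EMB.Coord6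

set_option autoImplicit false
set_option linter.unusedSectionVars false

open AlgebraicCurve

namespace Fermat.Agent.MW.CHOW.Sec8

open Fermat.Agent.X0.FF Fermat.Agent.RR.LSpace Fermat.Agent.RR.LHypGen
open Fermat.Agent.MW.EMB.Value6 Fermat.Agent.MW.EMB.OnePoint6 Fermat.Agent.MW.EMB.Coord6

variable {K F : Type*} [Field K] [Field F] [Algebra K F]
variable (H : LHyp K F) (P0 : Place K F) {t0 : F} (ht0 : P0.ord t0 = 1)

theorem triv_add (m m' : ℕ) (v : Place K F) :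
    triv P0 (m + m') t0 v = triv P0 m t0 v * triv P0 m' t0 v := by
  by_cases hv : v = P0
  · subst hv; simp only [triv_self]; rw [pow_add]
  · simp only [triv_of_ne P0 _ t0 hv, mul_one]

include ht0 in
theorem ordSec_mul (m m' : ℕ) (v : Place K F) {f f' : F} (hf : f ≠ 0) (hf' : f' ≠ 0) :
    ordSec P0 (m + m') t0 v (f * f') = ordSec P0 m t0 v f + ordSec P0 m' t0 v f' := by
  rw [ordSec_eq P0 _ ht0 v (mul_ne_zero hf hf'), ordSec_eq P0 _ ht0 v hf, ordSec_eq P0 _ ht0 v hf',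
    v.ord_mul hf hf', mP_add, Finsupp.add_apply]
  ring

include ht0 in
theorem ordSec_smul (m : ℕ) (v : Place K F) {c : K} (hc : c ≠ 0) {f : F} (hf : f ≠ 0) :
    ordSec P0 m t0 v (c • f) = ordSec P0 m t0 v f := by
  have hc' : algebraMap K F c ≠ 0 := by
    rwa [Ne, map_eq_zero_iff _ (algebraMap K F).injective]
  rw [Algebra.smul_def, ordSec_eq P0 _ ht0 v (mul_ne_zero hc' hf), ordSec_eq P0 _ ht0 v hf,
    v.ord_mul hc' hf, ffp_ord_algebraMap, zero_add]

include ht0 in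
/-- `f ∈ L(m·P0 - G)` iff the section `f` of `O(m·P0)` vanishes to order `≥ G v` at every `v`. -/
theorem mem_Lsub_iff (m : ℕ) (G : Divisor K F) {f : F} (hf : f ≠ 0) :
    f ∈ riemannRochSpace (mP P0 m - G) ↔ ∀ v, G v ≤ ordSec P0 m t0 v f := by
  rw [mem_L_iff hf]
  refine forall_congr' fun v => ?_
  rw [ordSec_eq P0 _ ht0 v hf, Finsupp.sub_apply]
  constructor <;> intro h <;> omega

/-- The divisor of zeros of the section `f` of `O(m·P0)`. -/
noncomputable def zdiv (m : ℕ) {f : F} (hf : f ≠ 0) : Divisor K F := divOf H hf + mP P0 m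

include ht0 in
theorem zdiv_apply (m : ℕ) {f : F} (hf : f ≠ 0) (v : Place K F) :
    zdiv H P0 m hf v = ordSec P0 m t0 v f := by
  rw [zdiv, Finsupp.add_apply, divOf_apply, ordSec_eq P0 m ht0 v hf]
  ring

include ht0 in
theorem zdiv_nonneg (m : ℕ) {f : F} (hf : f ≠ 0) (hfm : f ∈ Lm P0 m) : 0 ≤ zdiv H P0 m hf := by
  intro v
  rw [zdiv_apply H P0 ht0 m hf v]
  exact ordSec_nonneg P0 ht0 v hfm

theorem degree_zdiv (m : ℕ) {f : F} (hf : f ≠ 0) : Divisor.degree (zdiv H P0 m hf) = m := by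
  rw [zdiv, map_add, degree_divOf, zero_add, degree_mP H]

/-- values of sections multiply. -/
theorem ev_mul (m m' : ℕ) (v : Place K F) (f : Lm P0 m) (f' : Lm P0 m') :
    ev H P0 (m + m') ht0 v ⟨(f : F) * (f' : F), mul_mem_Lm P0 f.2 f'.2⟩ =
      ev H P0 m ht0 v f * ev H P0 m' ht0 v f' := by
  rw [ev_apply, ev_apply, ev_apply, triv_add,
    ← valF_mul H v (triv_mul_mem P0 ht0 v f.2) (triv_mul_mem P0 ht0 v f'.2)]
  congr 1
  ring

theorem ev_ne_zero_iff (m : ℕ) (v : Place K F) (f : Lm P0 m) :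
    ev H P0 m ht0 v f ≠ 0 ↔ (f : F) ≠ 0 ∧ ordSec P0 m t0 v (f : F) = 0 := by
  rw [Ne, ev_eq_zero_iff, not_or]
  have := ordSec_nonneg P0 ht0 v f.2
  constructor
  · rintro ⟨h1, h2⟩; exact ⟨h1, by omega⟩
  · rintro ⟨h1, h2⟩; exact ⟨h1, by omega⟩

include ht0 in
/-- products of sections vanishing on `G₁`, `G₂` vanish on `G₁ + G₂`. -/
theorem mul_mem_Lsub (a m : ℕ) (G₁ G₂ : Divisor K F) {f f' : F}
    (hf : f ∈ riemannRochSpace (mP P0 a - G₁)) (hf' : f' ∈ riemannRochSpace (mP P0 m - G₂)) :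
    f * f' ∈ riemannRochSpace (mP P0 (a + m) - (G₁ + G₂)) := by
  rcases eq_or_ne f 0 with rfl | h0
  · rw [zero_mul]; exact zero_mem _
  rcases eq_or_ne f' 0 with rfl | h0'
  · rw [mul_zero]; exact zero_mem _
  rw [mem_Lsub_iff P0 ht0 _ _ (mul_ne_zero h0 h0')]
  intro v
  have h1 := (mem_Lsub_iff P0 ht0 _ _ h0).mp hf v
  have h2 := (mem_Lsub_iff P0 ht0 _ _ h0').mp hf' v
  rw [ordSec_mul P0 ht0 a m v h0 h0', Finsupp.add_apply]
  omega

include ht0 in
/-- cancelling a factor which is a unit along `G`. -/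
theorem mem_Lsub_of_mul_mem (a m : ℕ) (G : Divisor K F) {l e : F} (hl : l ≠ 0)
    (he : e ∈ Lm P0 m) (hunit : ∀ v, 0 < G v → ordSec P0 a t0 v l = 0)
    (h : l * e ∈ riemannRochSpace (mP P0 (a + m) - G)) :
    e ∈ riemannRochSpace (mP P0 m - G) := by
  rcases eq_or_ne e 0 with rfl | h0
  · exact zero_mem _
  rw [mem_Lsub_iff P0 ht0 _ _ h0]
  intro v
  by_cases hv : 0 < G v
  · have h1 := (mem_Lsub_iff P0 ht0 _ _ (mul_ne_zero hl h0)).mp h v
    rw [ordSec_mul P0 ht0 a m v hl h0, hunit v hv, zero_add] at h1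
    exact h1
  · have := ordSec_nonneg P0 ht0 v he
    omega

include ht0 in
/-- a section vanishing on the zero divisor of `s` is divisible by `s`. -/
theorem div_mem_Lm (a m : ℕ) (Z : Divisor K F) {s f : F} (hs : s ≠ 0)
    (hZ : ∀ v, Z v = ordSec P0 a t0 v s)
    (hf : f ∈ riemannRochSpace (mP P0 (a + m) - Z)) : f / s ∈ Lm P0 m := by
  rcases eq_or_ne f 0 with rfl | h0
  · rw [zero_div]; exact zero_mem _
  rw [Lm, mem_L_iff (div_ne_zero h0 hs)]
  intro v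
  have h1 := (mem_Lsub_iff P0 ht0 _ _ h0).mp hf v
  rw [hZ v, ordSec_eq P0 _ ht0 v hs, ordSec_eq P0 _ ht0 v h0, mP_add, Finsupp.add_apply] at h1
  rw [div_eq_mul_inv, v.ord_mul h0 (inv_ne_zero hs), v.ord_inv]
  omega

include ht0 in
/-- a nonzero section lies in `L(a·P0 - Z)` for its zero divisor `Z`. -/
theorem mem_Lsub_self (a : ℕ) (Z : Divisor K F) {s : F} (hs : s ≠ 0)
    (hZ : ∀ v, Z v = ordSec P0 a t0 v s) : s ∈ riemannRochSpace (mP P0 a - Z) := by
  rw [mem_Lsub_iff P0 ht0 _ _ hs]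
  intro v
  rw [hZ v]

theorem Lm_eq_Lsub_zero (m : ℕ) : Lm P0 m = riemannRochSpace (mP P0 m - 0) := by
  rw [sub_zero]

end Fermat.Agent.MW.CHOW.Sec8
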