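/-
PROGRAMME MW (S17), block CHOW+UD (helper8).  `ChowPF8`: the PRODUCT FORMULA for the Chow determinant
of the curve embedded by `|d·P0|`.

Setting: `S_1 = Lm P0 d` (basis `b`), `S_2 = Lm P0 (d+d)` (basis `β`), `S_3 = Lm P0 (d+(d+d))`
(basis `τ`), `gTab` the structure constants, `sel : Fin d → I2`, `e : I2 ⊕ Fin d ≃ I3`.
For `c ≠ 0` and an enumeration `z : Fin d → Place` of the hyperplane section `hyp c`:

  `chowVal gTab e sel c c' = ε * ∏ j, (∑ i, c' i * pt (z j) i)`   for all `c'`,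

with `ε ≠ 0` as soon as `(a, λ) ↦ l_c · a + ∑ j, λ j • β (sel j)` is injective on `S_1 × K^d`.
-/
import Mathlib
import Fermat.Agent.MW.EMB.Cert6
import Fermat.Agent.MW.CHOW.Sec8
import Fermat.Agent.MW.CHOW.FlagDet8
import Fermat.Agent.MW.CHOW.ChowAlg8

set_option autoImplicit false
set_option linter.unusedSectionVars false

open AlgebraicCurve

namespace Fermat.Agent.MW.CHOW.ChowPF8

open Fermat.Agent.X0.FF Fermat.Agent.RR.LSpace Fermat.Agent.RR.LHypGen
open Fermat.Agent.MW.EMB.Value6 Fermat.Agent.MW.EMB.OnePoint6 Fermat.Agent.MW.EMB.Coord6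
open Fermat.Agent.MW.EMB.Proj6
open Fermat.Agent.MW.CHOW.Sec8 Fermat.Agent.MW.CHOW.ChowAlg8

variable {K F : Type*} [Field K] [Field F] [Algebra K F]

/-! ### Partial sums of an enumerated divisor -/

section Enum

variable {d : ℕ} (z : Fin d → Place K F)

/-- `∑ j < k, z j`. -/
noncomputable def partDiv (k : ℕ) : Divisor K F :=
  ∑ j ∈ Finset.univ.filter (fun j : Fin d => j.val < k), Finsupp.single (z j) 1

theorem partDiv_zero : partDiv z 0 = 0 := by
  simp [partDiv]

theorem partDiv_of_le {k : ℕ} (hk : d ≤ k) : partDiv z k = ∑ j, Finsupp.single (z j) 1 := by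
  rw [partDiv]
  congr 1
  ext j
  simp only [Finset.mem_filter, Finset.mem_univ, true_and, iff_true]
  exact lt_of_lt_of_le j.2 hk

theorem partDiv_succ {k : ℕ} (hk : k < d) :
    partDiv z (k + 1) = partDiv z k + Finsupp.single (z ⟨k, hk⟩) 1 := by
  classical
  have h1 : Finset.univ.filter (fun j : Fin d => j.val < k + 1) =
      insert ⟨k, hk⟩ (Finset.univ.filter (fun j : Fin d => j.val < k)) := by
    ext j
    simp only [Finset.mem_filter, Finset.mem_univ, true_and, Finset.mem_insert, Fin.ext_iff]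
    omega
  rw [partDiv, h1, Finset.sum_insert (by simp), partDiv, add_comm]

theorem partDiv_apply_nonneg (k : ℕ) (v : Place K F) : 0 ≤ partDiv z k v := by
  classical
  rw [partDiv, Finsupp.finsetSum_apply]
  refine Finset.sum_nonneg fun j _ => ?_
  rw [Finsupp.single_apply]
  split_ifs <;> norm_num

theorem partDiv_nonneg (k : ℕ) : 0 ≤ partDiv z k := fun v => partDiv_apply_nonneg z k v

theorem partDiv_apply_mono {k k' : ℕ} (h : k ≤ k') (v : Place K F) :
    partDiv z k v ≤ partDiv z k' v := by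
  classical
  rw [partDiv, partDiv, Finsupp.finsetSum_apply, Finsupp.finsetSum_apply]
  refine Finset.sum_le_sum_of_subset_of_nonneg ?_ fun j _ _ => ?_
  · intro j hj
    simp only [Finset.mem_filter, Finset.mem_univ, true_and] at hj ⊢
    omega
  · rw [Finsupp.single_apply]
    split_ifs <;> norm_num

theorem partDiv_mono {k k' : ℕ} (h : k ≤ k') : partDiv z k ≤ partDiv z k' :=
  fun v => partDiv_apply_mono z h v

theorem degree_partDiv (H : LHyp K F) {k : ℕ} (hk : k ≤ d) :
    Divisor.degree (partDiv z k) = k := by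
  induction k with
  | zero => rw [partDiv_zero]; simp
  | succ k ih =>
    rw [partDiv_succ z (by omega : k < d), map_add, ih (by omega), degree_single H]
    push_cast; ring

end Enum

/-! ### Multiplication of sections -/

section Mul

variable (P0 : Place K F)

/-- multiplication `Lm a × Lm m → Lm (a + m)`. -/
noncomputable def mulB (a m : ℕ) : Lm P0 a →ₗ[K] Lm P0 m →ₗ[K] Lm P0 (a + m) :=
  LinearMap.mk₂ K (fun s f => ⟨(s : F) * (f : F), mul_mem_Lm P0 s.2 f.2⟩)
    (fun s s' f => by apply Subtype.ext; simp [add_mul])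
    (fun c s f => by apply Subtype.ext; simp)
    (fun s f f' => by apply Subtype.ext; simp [mul_add])
    (fun c s f => by apply Subtype.ext; simp)

@[simp] theorem mulB_apply (a m : ℕ) (s : Lm P0 a) (f : Lm P0 m) :
    ((mulB P0 a m s f : Lm P0 (a + m)) : F) = (s : F) * (f : F) := rfl

end Mul

/-! ### The linear map and its matrix -/

section Phi

variable (P0 : Place K F) {d n : ℕ} (b : Module.Basis (Fin n) K (Lm P0 d))
  {I2 I3 E : Type*} [Fintype I2] [Fintype I3] [Fintype E] [DecidableEq I2] [DecidableEq I3]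
  [DecidableEq E]
  (β : Module.Basis I2 K (Lm P0 (d + d))) (τ : Module.Basis I3 K (Lm P0 (d + (d + d))))

/-- the structure constants `b i * β q = ∑ r, gTab i q r • τ r`. -/
noncomputable def gTab (i : Fin n) (q : I2) (r : I3) : K :=
  τ.repr (mulB P0 d (d + d) (b i) (β q)) r

/-- `(a, λ) ↦ l_c · a + l_c' · ∑ j, λ j • β (sel j)`. -/
noncomputable def Phi (sel : E → I2) (c c' : Fin n → K) :
    Lm P0 (d + d) × (E → K) →ₗ[K] Lm P0 (d + (d + d)) :=
  (mulB P0 d (d + d) (lin P0 d b c)).coprod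
    ((mulB P0 d (d + d) (lin P0 d b c')).comp (Fintype.linearCombination K fun j => β (sel j)))

theorem Phi_apply (sel : E → I2) (c c' : Fin n → K) (a : Lm P0 (d + d)) (l : E → K) :
    Phi P0 b β sel c c' (a, l) = mulB P0 d (d + d) (lin P0 d b c) a +
      mulB P0 d (d + d) (lin P0 d b c') (∑ j, l j • β (sel j)) := by
  simp [Phi, Fintype.linearCombination_apply]

theorem repr_mulB_lin (c : Fin n → K) (q : I2) (r : I3) :
    τ.repr (mulB P0 d (d + d) (lin P0 d b c) (β q)) r = ∑ i, c i * gTab P0 b β τ i q r := by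
  rw [lin, map_sum, LinearMap.sum_apply, map_sum, Finsupp.finsetSum_apply]
  refine Finset.sum_congr rfl fun i _ => ?_
  rw [map_smul, LinearMap.smul_apply, map_smul, Finsupp.smul_apply, smul_eq_mul, gTab]

theorem toMatrix_Phi (e : I2 ⊕ E ≃ I3) (sel : E → I2) (c c' : Fin n → K) :
    LinearMap.toMatrix (β.prod (Pi.basisFun K E)) (τ.reindex e.symm) (Phi P0 b β sel c c') =
      chowMat (gTab P0 b β τ) e sel c c' := by
  ext p col
  rw [LinearMap.toMatrix_apply, Module.Basis.repr_reindex_apply, Equiv.symm_symm]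
  rcases col with q | j
  · rw [chowMat_inl]
    have h1 : (β.prod (Pi.basisFun K E)) (Sum.inl q) = (β q, 0) := by
      ext <;> simp
    rw [h1, Phi_apply]
    simp [repr_mulB_lin]
  · rw [chowMat_inr]
    have h1 : (β.prod (Pi.basisFun K E)) (Sum.inr j) = (0, Pi.single j 1) := by
      ext <;> simp
    rw [h1, Phi_apply]
    have h2 : (∑ j', (Pi.single j (1 : K) : E → K) j' • β (sel j')) = β (sel j) := by
      rw [Finset.sum_eq_single j]
      · simp
      · intro j' _ hne; simp [Pi.single_eq_of_ne hne]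
      · intro h; exact absurd (Finset.mem_univ j) h
    rw [h2]
    simp [repr_mulB_lin]

end Phi

/-! ### The product formula -/

section Lin

variable (P0 : Place K F) {d n : ℕ} (b : Module.Basis (Fin n) K (Lm P0 d))

theorem lin_sub_smul (c c' : Fin n → K) (φ : K) :
    lin P0 d b (c - φ • c') = lin P0 d b c - φ • lin P0 d b c' := by
  simp only [lin, Pi.sub_apply, Pi.smul_apply, smul_eq_mul]
  rw [Finset.smul_sum, ← Finset.sum_sub_distrib]
  refine Finset.sum_congr rfl fun i _ => ?_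
  module

end Lin

section EnumHyp

variable {d : ℕ} (z : Fin d → Place K F)

theorem sum_single_apply_pos (j : Fin d) :
    0 < (∑ j', Finsupp.single (z j') (1 : ℤ) : Divisor K F) (z j) := by
  classical
  rw [Finsupp.finsetSum_apply]
  have h1 : (Finsupp.single (z j) (1 : ℤ)) (z j) ≤
      ∑ j', (Finsupp.single (z j') (1 : ℤ)) (z j) :=
    Finset.single_le_sum (f := fun j' => (Finsupp.single (z j') (1 : ℤ)) (z j))
      (fun j' _ => by
        show 0 ≤ (Finsupp.single (z j') (1 : ℤ)) (z j)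
        rw [Finsupp.single_apply]; split_ifs <;> norm_num) (Finset.mem_univ j)
  rw [Finsupp.single_eq_same] at h1
  omega

theorem exists_of_sum_single_pos {v : Place K F}
    (h : 0 < (∑ j', Finsupp.single (z j') (1 : ℤ) : Divisor K F) v) : ∃ j, z j = v := by
  classical
  by_contra hcon
  push Not at hcon
  rw [Finsupp.finsetSum_apply] at h
  have : ∑ j', (Finsupp.single (z j') (1 : ℤ)) v = 0 :=
    Finset.sum_eq_zero fun j' _ => by
      rw [Finsupp.single_apply, if_neg (hcon j')]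
  omega

end EnumHyp

section Psi

variable (P0 : Place K F) {d n : ℕ} (b : Module.Basis (Fin n) K (Lm P0 d))
  {I2 E : Type*} [Fintype E] (β : Module.Basis I2 K (Lm P0 (d + d)))

/-- `(a', λ) ↦ l_c · a' + ∑ j, λ j • β (sel j)` on `S_1 × K^E`. -/
noncomputable def Psi (sel : E → I2) (c : Fin n → K) :
    Lm P0 d × (E → K) →ₗ[K] Lm P0 (d + d) :=
  (mulB P0 d d (lin P0 d b c)).coprod (Fintype.linearCombination K fun j => β (sel j))

theorem Psi_apply (sel : E → I2) (c : Fin n → K) (a : Lm P0 d) (l : E → K) :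
    Psi P0 b β sel c (a, l) = mulB P0 d d (lin P0 d b c) a + ∑ j, l j • β (sel j) := by
  simp [Psi, Fintype.linearCombination_apply]

end Psi

section RR

variable [IsAlgClosed K] [CharZero K] {x : F} [HasCanonicalDivisor (K := K) (F := F)]
variable (hx : IsGen K x) (P0 : Place K F) {d : ℕ} {t0 : F} (ht0 : P0.ord t0 = 1) {n : ℕ}
  (b : Module.Basis (Fin n) K (Lm P0 d))
  {I2 I3 : Type*} [Fintype I2] [Fintype I3] [DecidableEq I2] [DecidableEq I3]
  (β : Module.Basis I2 K (Lm P0 (d + d))) (τ : Module.Basis I3 K (Lm P0 (d + (d + d))))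

/-- a linear form not vanishing at the points of the enumerated hyperplane section is a unit
along it. -/
theorem ordSec_lin_eq_zero {c : Fin n → K} (hc : c ≠ 0) (z : Fin d → Place K F)
    (hz : hyp (lHyp_of_isGen hx) P0 d b hc = ∑ j, Finsupp.single (z j) 1)
    (c'' : Fin n → K)
    (hgen : ∀ j, ∑ i, c'' i * pt (lHyp_of_isGen hx) P0 d ht0 b (z j) i ≠ 0)
    {G : Divisor K F} (hG : G ≤ hyp (lHyp_of_isGen hx) P0 d b hc) (v : Place K F)
    (hv : 0 < G v) : ordSec P0 d t0 v ((lin P0 d b c'' : Lm P0 d) : F) = 0 := by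
  have h1 : 0 < hyp (lHyp_of_isGen hx) P0 d b hc v := lt_of_lt_of_le hv (hG v)
  rw [hz] at h1
  obtain ⟨j, rfl⟩ := exists_of_sum_single_pos z h1
  have h2 := hgen j
  rw [← ev_lin] at h2
  exact ((Sec8.ev_ne_zero_iff (lHyp_of_isGen hx) P0 ht0 d (z j) _).mp h2).2

theorem lin_ne_zero_of_gen (hd0 : 0 < d) (z : Fin d → Place K F) (c'' : Fin n → K)
    (hgen : ∀ j, ∑ i, c'' i * pt (lHyp_of_isGen hx) P0 d ht0 b (z j) i ≠ 0) :
    ((lin P0 d b c'' : Lm P0 d) : F) ≠ 0 := by
  have h2 := hgen ⟨0, hd0⟩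
  rw [← ev_lin] at h2
  exact ((Sec8.ev_ne_zero_iff (lHyp_of_isGen hx) P0 ht0 d _ _).mp h2).1

include ht0 in
/-- the section `l_c · a` vanishes on the hyperplane section of `c`. -/
theorem lin_mul_mem {c : Fin n → K} (hc : c ≠ 0) (m : ℕ) (a : Lm P0 m) :
    ((lin P0 d b c : Lm P0 d) : F) * (a : F) ∈
      riemannRochSpace (mP P0 (d + m) - hyp (lHyp_of_isGen hx) P0 d b hc) := by
  have h1 := mem_Lsub_self P0 ht0 d (hyp (lHyp_of_isGen hx) P0 d b hc)
    (lin_ne_zero P0 d b hc) (hyp_apply (lHyp_of_isGen hx) P0 d ht0 b hc)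
  have h2 : (a : F) ∈ riemannRochSpace (mP P0 m - 0) := by rw [sub_zero]; exact a.2
  have := mul_mem_Lsub P0 ht0 d m _ _ h1 h2
  rwa [add_zero] at this

include ht0 in
/-- **pencil trick**: for `c''` generic the map `Phi c c''` is injective as soon as `Psi c` is. -/
theorem Phi_injective (hd0 : 0 < d) {c : Fin n → K} (hc : c ≠ 0) (z : Fin d → Place K F)
    (hz : hyp (lHyp_of_isGen hx) P0 d b hc = ∑ j, Finsupp.single (z j) 1) (sel : Fin d → I2)
    (c'' : Fin n → K)
    (hgen : ∀ j, ∑ i, c'' i * pt (lHyp_of_isGen hx) P0 d ht0 b (z j) i ≠ 0)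
    (hPsi : Function.Injective (Psi P0 b β sel c)) :
    Function.Injective (Phi P0 b β sel c c'') := by
  rw [injective_iff_map_eq_zero]
  rintro ⟨a, l⟩ h0
  have hs0 : ((lin P0 d b c : Lm P0 d) : F) ≠ 0 := lin_ne_zero P0 d b hc
  have hl0 : ((lin P0 d b c'' : Lm P0 d) : F) ≠ 0 :=
    lin_ne_zero_of_gen hx P0 ht0 b hd0 z c'' hgen
  set e : Lm P0 (d + d) := ∑ j, l j • β (sel j) with he
  have h1 : ((lin P0 d b c : Lm P0 d) : F) * (a : F) +
      ((lin P0 d b c'' : Lm P0 d) : F) * (e : F) = 0 := by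
    have := congrArg (fun y : Lm P0 (d + (d + d)) => (y : F)) h0
    rw [Phi_apply, ← he] at this
    simpa only [Submodule.coe_add, mulB_apply, ZeroMemClass.coe_zero] using this
  by_cases he0 : (e : F) = 0
  · rw [he0, mul_zero, add_zero] at h1
    have ha : (a : F) = 0 := (mul_eq_zero.mp h1).resolve_left hs0
    have ha' : a = 0 := Subtype.ext ha
    have hl : l = 0 := by
      have h2 : Psi P0 b β sel c (0, l) = 0 := by
        rw [Psi_apply, map_zero, zero_add]
        exact Subtype.ext he0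
      have := hPsi (h2.trans (map_zero _).symm)
      exact (Prod.mk.inj this).2
    rw [ha', hl]
    rfl
  · exfalso
    have hle : ((lin P0 d b c'' : Lm P0 d) : F) * (e : F) ∈
        riemannRochSpace (mP P0 (d + (d + d)) - hyp (lHyp_of_isGen hx) P0 d b hc) := by
      have h2 := lin_mul_mem hx P0 ht0 b hc (d + d) a
      have h3 : ((lin P0 d b c'' : Lm P0 d) : F) * (e : F) =
          -(((lin P0 d b c : Lm P0 d) : F) * (a : F)) := by linear_combination h1
      rw [h3]
      exact neg_mem h2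
    have hemem := mem_Lsub_of_mul_mem P0 ht0 d (d + d) (hyp (lHyp_of_isGen hx) P0 d b hc) hl0 e.2
      (fun v hv => ordSec_lin_eq_zero hx P0 ht0 b hc z hz c'' hgen le_rfl v hv) hle
    have ha' := div_mem_Lm P0 ht0 d d (hyp (lHyp_of_isGen hx) P0 d b hc) hs0
      (hyp_apply (lHyp_of_isGen hx) P0 d ht0 b hc) hemem
    have h2 : Psi P0 b β sel c
        (-(⟨(e : F) / ((lin P0 d b c : Lm P0 d) : F), ha'⟩ : Lm P0 d), l) = 0 := by
      rw [Psi_apply]
      apply Subtype.ext
      rw [Submodule.coe_add, mulB_apply, ← he]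
      simp only [Submodule.coe_neg, ZeroMemClass.coe_zero]
      field_simp
      ring
    have := hPsi (h2.trans (map_zero _).symm)
    have hl : l = 0 := (Prod.mk.inj this).2
    apply he0
    rw [he, hl]
    simp

theorem partDiv_le_hyp {c : Fin n → K} (hc : c ≠ 0) (z : Fin d → Place K F)
    (hz : hyp (lHyp_of_isGen hx) P0 d b hc = ∑ j, Finsupp.single (z j) 1) (k : ℕ) :
    partDiv z k ≤ hyp (lHyp_of_isGen hx) P0 d b hc := by
  rw [hz, ← partDiv_of_le z (le_max_right k d)]
  exact partDiv_mono z (le_max_left k d)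

theorem coe_Phi (sel : Fin d → I2) (c c' : Fin n → K) (a : Lm P0 (d + d)) (l : Fin d → K) :
    ((Phi P0 b β sel c c' (a, l) : Lm P0 (d + (d + d))) : F) =
      ((lin P0 d b c : Lm P0 d) : F) * (a : F) +
        ((lin P0 d b c' : Lm P0 d) : F) * ((∑ j, l j • β (sel j) : Lm P0 (d + d)) : F) := by
  rw [Phi_apply]
  simp only [Submodule.coe_add, mulB_apply]

include ht0 in
/-- the flag step: `(T - φ_k) W_k ⊆ W_(k+1)`. -/
theorem step_mem {c : Fin n → K} (hc : c ≠ 0) (z : Fin d → Place K F)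
    (hz : hyp (lHyp_of_isGen hx) P0 d b hc = ∑ j, Finsupp.single (z j) 1) (sel : Fin d → I2)
    (c' c'' : Fin n → K)
    (hgen : ∀ j, ∑ i, c'' i * pt (lHyp_of_isGen hx) P0 d ht0 b (z j) i ≠ 0)
    {k : ℕ} (hk : k < d) (a : Lm P0 (d + d)) (l : Fin d → K)
    (hf : ((Phi P0 b β sel c c'' (a, l) : Lm P0 (d + (d + d))) : F) ∈
      riemannRochSpace (mP P0 (d + (d + d)) - partDiv z k)) :
    ((Phi P0 b β sel c c' (a, l) : Lm P0 (d + (d + d))) : F) -
      ((∑ i, c' i * pt (lHyp_of_isGen hx) P0 d ht0 b (z ⟨k, hk⟩) i) /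
        (∑ i, c'' i * pt (lHyp_of_isGen hx) P0 d ht0 b (z ⟨k, hk⟩) i)) •
        ((Phi P0 b β sel c c'' (a, l) : Lm P0 (d + (d + d))) : F) ∈
      riemannRochSpace (mP P0 (d + (d + d)) - partDiv z (k + 1)) := by
  set φ : K := (∑ i, c' i * pt (lHyp_of_isGen hx) P0 d ht0 b (z ⟨k, hk⟩) i) /
    (∑ i, c'' i * pt (lHyp_of_isGen hx) P0 d ht0 b (z ⟨k, hk⟩) i) with hφ
  set e : Lm P0 (d + d) := ∑ j, l j • β (sel j) with he
  have hd0 : 0 < d := by omega
  have hl0 : ((lin P0 d b c'' : Lm P0 d) : F) ≠ 0 :=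
    lin_ne_zero_of_gen hx P0 ht0 b hd0 z c'' hgen
  have hsa := lin_mul_mem hx P0 ht0 b hc (d + d) a
  have hsa_k : ∀ k', ((lin P0 d b c : Lm P0 d) : F) * (a : F) ∈
      riemannRochSpace (mP P0 (d + (d + d)) - partDiv z k') := fun k' =>
    L_mono (sub_le_sub_left (partDiv_le_hyp hx P0 b hc z hz k') _) hsa
  rw [coe_Phi, ← he] at hf ⊢
  rw [coe_Phi, ← he]
  have hle : ((lin P0 d b c'' : Lm P0 d) : F) * (e : F) ∈
      riemannRochSpace (mP P0 (d + (d + d)) - partDiv z k) := by
    have := sub_mem hf (hsa_k k)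
    rwa [add_sub_cancel_left] at this
  have hemem := mem_Lsub_of_mul_mem P0 ht0 d (d + d) (partDiv z k) hl0 e.2
    (fun v hv => ordSec_lin_eq_zero hx P0 ht0 b hc z hz c'' hgen
      (partDiv_le_hyp hx P0 b hc z hz k) v hv) hle
  -- the linear form `l' - φ l''` vanishes at `z k`
  have hev : ev (lHyp_of_isGen hx) P0 d ht0 (z ⟨k, hk⟩) (lin P0 d b (c' - φ • c'')) = 0 := by
    rw [ev_lin]
    simp only [Pi.sub_apply, Pi.smul_apply, smul_eq_mul, sub_mul, Finset.sum_sub_distrib,
      mul_assoc, ← Finset.mul_sum]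
    rw [hφ, div_mul_cancel₀ _ (hgen ⟨k, hk⟩), sub_self]
  have hlt := (ev_eq_zero_iff_mem (lHyp_of_isGen hx) P0 d ht0 (z ⟨k, hk⟩) _).mp hev
  have hprod := mul_mem_Lsub P0 ht0 d (d + d) _ _ hlt hemem
  rw [add_comm (Finsupp.single (z ⟨k, hk⟩) (1 : ℤ)), ← partDiv_succ z hk] at hprod
  have hcoe : ((lin P0 d b (c' - φ • c'') : Lm P0 d) : F) =
      ((lin P0 d b c' : Lm P0 d) : F) - φ • ((lin P0 d b c'' : Lm P0 d) : F) := by
    rw [lin_sub_smul]
    simp
  rw [hcoe] at hprod
  have hfin : ((lin P0 d b c : Lm P0 d) : F) * (a : F) +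
      ((lin P0 d b c' : Lm P0 d) : F) * (e : F) -
      φ • (((lin P0 d b c : Lm P0 d) : F) * (a : F) +
        ((lin P0 d b c'' : Lm P0 d) : F) * (e : F)) =
      (1 - φ) • (((lin P0 d b c : Lm P0 d) : F) * (a : F)) +
        (((lin P0 d b c' : Lm P0 d) : F) - φ • ((lin P0 d b c'' : Lm P0 d) : F)) * (e : F) := by
    simp only [Algebra.smul_def, map_sub, map_one]
    ring
  rw [hfin]
  exact add_mem (Submodule.smul_mem _ _ (hsa_k (k + 1))) hprod

include ht0 in
/-- **PRODUCT FORMULA** for the Chow determinant. -/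
theorem chowVal_eq (hd : 2 * (genus K F : ℤ) ≤ d) (hd0 : 0 < d) (e : I2 ⊕ Fin d ≃ I3)
    (sel : Fin d → I2) {c : Fin n → K} (hc : c ≠ 0) (z : Fin d → Place K F)
    (hz : hyp (lHyp_of_isGen hx) P0 d b hc = ∑ j, Finsupp.single (z j) 1) :
    ∃ ε : K, (Function.Injective (Psi P0 b β sel c) → ε ≠ 0) ∧
      ∀ c' : Fin n → K, chowVal (gTab P0 b β τ) e sel c c' =
        ε * ∏ j, ∑ i, c' i * pt (lHyp_of_isGen hx) P0 d ht0 b (z j) i := by
  classical
  have H := lHyp_of_isGen hx
  have hg0 : (0 : ℤ) ≤ genus K F := by positivity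
  set v₁ := β.prod (Pi.basisFun K (Fin d)) with hv₁
  set v₂ := τ.reindex e.symm with hv₂
  by_cases hPsi : Function.Injective (Psi P0 b β sel c)
  · -- a generic linear form
    obtain ⟨c'', hc''⟩ := Fermat.Agent.MW.EMB.Cert6.exists_generic (K := K) (Set.range z)
      (Set.finite_range z) (fun v i => pt (lHyp_of_isGen hx) P0 d ht0 b v i)
      (fun v _ => pt_ne_zero hx P0 ht0 b hd v)
    have hgen : ∀ j, ∑ i, c'' i * pt (lHyp_of_isGen hx) P0 d ht0 b (z j) i ≠ 0 :=
      fun j => hc'' (z j) ⟨j, rfl⟩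
    have hinj := Phi_injective hx P0 ht0 b β hd0 hc z hz sel c'' hgen hPsi
    have := Fermat.Agent.RR.RRMain.finiteDimensional_L hx (mP P0 (d + d))
    have := Fermat.Agent.RR.RRMain.finiteDimensional_L hx (mP P0 (d + (d + d)))
    have hf2 := finrank_Lm hx P0 (m := d + d) (by push_cast; omega)
    have hf3 := finrank_Lm hx P0 (m := d + (d + d)) (by push_cast; omega)
    have hfr : Module.finrank K (Lm P0 (d + d) × (Fin d → K)) =
        Module.finrank K (Lm P0 (d + (d + d))) := by
      rw [Module.finrank_prod, Module.finrank_fin_fun]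
      push_cast at hf2 hf3
      omega
    have hbij : Function.Bijective (Phi P0 b β sel c c'') :=
      ⟨hinj, (LinearMap.injective_iff_surjective_of_finrank_eq_finrank hfr).mp hinj⟩
    set Φe := LinearEquiv.ofBijective (Phi P0 b β sel c c'') hbij with hΦe
    have hΦe_apply : ∀ p, Φe p = Phi P0 b β sel c c'' p := fun p => rfl
    have hdet'' : chowVal (gTab P0 b β τ) e sel c c'' ≠ 0 := by
      rw [chowVal, ← toMatrix_Phi]
      exact (LinearEquiv.isUnit_det Φe v₁ v₂).ne_zero
    have hprod'' : ∏ j, ∑ i, c'' i * pt (lHyp_of_isGen hx) P0 d ht0 b (z j) i ≠ 0 :=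
      Finset.prod_ne_zero_iff.mpr fun j _ => hgen j
    refine ⟨chowVal (gTab P0 b β τ) e sel c c'' /
      ∏ j, ∑ i, c'' i * pt (lHyp_of_isGen hx) P0 d ht0 b (z j) i,
      fun _ => div_ne_zero hdet'' hprod'', fun c' => ?_⟩
    set T : Lm P0 (d + (d + d)) →ₗ[K] Lm P0 (d + (d + d)) :=
      (Phi P0 b β sel c c').comp Φe.symm.toLinearMap with hT
    have hTΦ : Phi P0 b β sel c c' = T.comp (Phi P0 b β sel c c'') := by
      apply LinearMap.ext
      intro p
      rw [hT, LinearMap.comp_apply, LinearMap.comp_apply, ← hΦe_apply]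
      simp
    have h1 : chowVal (gTab P0 b β τ) e sel c c' =
        LinearMap.det T * chowVal (gTab P0 b β τ) e sel c c'' := by
      rw [chowVal, chowVal, ← toMatrix_Phi, ← toMatrix_Phi, ← LinearMap.det_toMatrix v₂ T,
        ← Matrix.det_mul, ← LinearMap.toMatrix_comp v₁ v₂ v₂, ← hTΦ]
    -- the chain
    have hs0 : ((lin P0 d b c : Lm P0 d) : F) ≠ 0 := lin_ne_zero P0 d b hc
    set W : ℕ → Submodule K (Lm P0 (d + (d + d))) := fun k =>
      (riemannRochSpace (mP P0 (d + (d + d)) - partDiv z k)).comap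
        (Lm P0 (d + (d + d))).subtype with hW
    set φ : ℕ → K := fun k => if hk : k < d then
      (∑ i, c' i * pt (lHyp_of_isGen hx) P0 d ht0 b (z ⟨k, hk⟩) i) /
        (∑ i, c'' i * pt (lHyp_of_isGen hx) P0 d ht0 b (z ⟨k, hk⟩) i) else 1 with hφ
    have hTapply : ∀ p, T (Phi P0 b β sel c c'' p) = Phi P0 b β sel c c' p := by
      intro p
      rw [hTΦ]
      rfl
    have h2 : LinearMap.det T = ∏ k ∈ Finset.range d, φ k := by
      refine Fermat.Agent.MW.CHOW.FlagDet8.det_eq_prod_of_chain d T W φ ?_ ?_ ?_ ?_ ?_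
      · rw [hW]
        simp only [partDiv_zero, sub_zero]
        exact Submodule.comap_subtype_self _
      · intro k _
        exact Submodule.comap_mono (L_mono (sub_le_sub_left (partDiv_mono z (Nat.le_succ k)) _))
      · intro k hk
        have hle : riemannRochSpace (mP P0 (d + (d + d)) - partDiv z k) ≤ Lm P0 (d + (d + d)) :=
          L_sub_le_Lm P0 _ (partDiv_nonneg z k)
        have e1 := (Submodule.comapSubtypeEquivOfLe hle).finrank_eq
        have e2 := finrank_L_sub hx P0 (d + (d + d)) (partDiv z k)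
          (by rw [degree_partDiv z H hk]; push_cast; omega)
        rw [degree_partDiv z H hk] at e2
        have e3 : Module.finrank K (W k) =
            Module.finrank K (riemannRochSpace (mP P0 (d + (d + d)) - partDiv z k)) := e1
        push_cast at e2 hf3
        omega
      · intro k hk f hf
        obtain ⟨p, rfl⟩ := hbij.2 f
        obtain ⟨a, l⟩ := p
        rw [hTapply]
        rw [hW, Submodule.mem_comap] at hf ⊢
        have := step_mem hx P0 ht0 b β hc z hz sel c' c'' hgen hk a l hf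
        simpa [hφ, hk] using this
      · intro f hf
        rw [hW, Submodule.mem_comap, partDiv_of_le z le_rfl, ← hz] at hf
        have ha := div_mem_Lm P0 ht0 d (d + d) (hyp (lHyp_of_isGen hx) P0 d b hc) hs0
          (hyp_apply (lHyp_of_isGen hx) P0 d ht0 b hc) hf
        have hf1 : ∀ c₁ : Fin n → K, Phi P0 b β sel c c₁
            ((⟨((f : Lm P0 (d + (d + d))) : F) / ((lin P0 d b c : Lm P0 d) : F), ha⟩ :
              Lm P0 (d + d)), 0) = f := by
          intro c₁
          apply Subtype.ext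
          rw [coe_Phi]
          simp only [Pi.zero_apply, zero_smul, Finset.sum_const_zero, ZeroMemClass.coe_zero,
            mul_zero, add_zero]
          field_simp
        rw [← hf1 c'', hTapply, hf1 c', hf1 c'']
    rw [h1, h2, Finset.prod_range]
    have h3 : ∀ j : Fin d, φ j = (∑ i, c' i * pt (lHyp_of_isGen hx) P0 d ht0 b (z j) i) /
        (∑ i, c'' i * pt (lHyp_of_isGen hx) P0 d ht0 b (z j) i) := by
      intro j
      simp [hφ, j.2]
    rw [Finset.prod_congr rfl fun j _ => h3 j, Finset.prod_div_distrib]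
    field_simp
  · refine ⟨0, fun h => absurd h hPsi, fun c' => ?_⟩
    rw [zero_mul]
    have hPsi' := hPsi
    rw [injective_iff_map_eq_zero] at hPsi'
    push Not at hPsi'
    obtain ⟨⟨a', l⟩, hp0, hpne⟩ := hPsi'
    have hs0 : ((lin P0 d b c : Lm P0 d) : F) ≠ 0 := lin_ne_zero P0 d b hc
    have hp0' : ((lin P0 d b c : Lm P0 d) : F) * (a' : F) +
        ((∑ j, l j • β (sel j) : Lm P0 (d + d)) : F) = 0 := by
      have := congrArg (fun y : Lm P0 (d + d) => (y : F)) hp0
      rw [Psi_apply] at this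
      simpa only [Submodule.coe_add, mulB_apply, ZeroMemClass.coe_zero] using this
    have hker : Phi P0 b β sel c c' (mulB P0 d d (lin P0 d b c') a', l) = 0 := by
      apply Subtype.ext
      rw [coe_Phi]
      simp only [mulB_apply, ZeroMemClass.coe_zero]
      linear_combination ((lin P0 d b c' : Lm P0 d) : F) * hp0'
    have hne : (mulB P0 d d (lin P0 d b c') a', l) ≠ (0 : Lm P0 (d + d) × (Fin d → K)) := by
      intro h0
      have hl : l = 0 := (Prod.mk.inj h0).2
      apply hpne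
      rw [hl] at hp0' ⊢
      simp only [Pi.zero_apply, zero_smul, Finset.sum_const_zero, ZeroMemClass.coe_zero,
        add_zero] at hp0'
      have : a' = 0 := Subtype.ext ((mul_eq_zero.mp hp0').resolve_left hs0)
      rw [this]
      rfl
    rw [chowVal, ← toMatrix_Phi]
    refine Matrix.exists_mulVec_eq_zero_iff.mp
      ⟨⇑(v₁.repr (mulB P0 d d (lin P0 d b c') a', l)), ?_, ?_⟩
    · intro h0
      apply hne
      have : v₁.repr (mulB P0 d d (lin P0 d b c') a', l) = 0 := DFunLike.coe_injective h0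
      exact (LinearEquiv.map_eq_zero_iff _).mp this
    · rw [LinearMap.toMatrix_mulVec_repr, hker, map_zero]
      rfl

end RR


end Fermat.Agent.MW.CHOW.ChowPF8
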