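/-
PROGRAMME MW (S17), block CHOW+UD (helper6).  `JetMul6`: the CAUCHY PRODUCT for the Taylor
coefficients of `POS/Jet9`.

* `exists_unif`, `unif v`, `ord_unif` : a chosen uniformizer at every place;
* `rem_shift`, `tc_shift` : `tc g (j+1) = tc (rem g 1) j`;
* `rem_one_mul` : `rem (g g') 1 = g(v) • rem g' 1 + rem g 1 * g'`;
* `tc_mul` : `tc (g g') m = ∑_{i+j=m} tc g i * tc g' j` (for `g, g'` regular at `v`);
* `jev_mul` : the same for sections, `jev (a+b) v m (f f') = ∑_{i+j=m} jev a v i f * jev b v j f'`.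
-/
import Mathlib
import Fermat.Agent.MW.POS.Jet9
import Fermat.Agent.MW.EMB.Lead6

set_option autoImplicit false
set_option linter.unusedSectionVars false

open AlgebraicCurve

namespace Fermat.Agent.MW.CHOW.JetMul6

open Fermat.Agent.X0.FF Fermat.Agent.RR.LSpace
open Fermat.Agent.MW.EMB.Value6 Fermat.Agent.MW.EMB.OnePoint6 Fermat.Agent.MW.EMB.Coord6
open Fermat.Agent.MW.EMB.Tangent6 Fermat.Agent.MW.EMB.Lead6 Fermat.Agent.MW.POS.Jet9

variable {K F : Type*} [Field K] [Field F] [Algebra K F]

theorem exists_unif (v : Place K F) : ∃ t : F, v.ord t = 1 := by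
  obtain ⟨π, hπ⟩ := ffp_exists_irreducible v
  exact ⟨(π : F), v.ord_coe_irreducible hπ⟩

/-- A chosen uniformizer at `v`. -/
noncomputable def unif (v : Place K F) : F := (exists_unif v).choose

theorem ord_unif (v : Place K F) : v.ord (unif v) = 1 := (exists_unif v).choose_spec

theorem smul_mem_val (v : Place K F) (c : K) {f : F} (hf : f ∈ v.toValuationSubring) :
    c • f ∈ v.toValuationSubring := by
  rw [Algebra.smul_def]; exact mul_mem (v.algebraMap_mem' c) hf

theorem rem_shift (H : LHyp K F) (v : Place K F) (t g : F) (j : ℕ) :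
    rem H v t g (j + 1) = rem H v t (rem H v t g 1) j := by
  induction j with
  | zero => rfl
  | succ j ih => rw [rem_succ, ih, ← rem_succ]

theorem tc_shift (H : LHyp K F) (v : Place K F) (t g : F) (j : ℕ) :
    tc H v t g (j + 1) = tc H v t (rem H v t g 1) j := by
  rw [tc, tc, rem_shift]

theorem rem_one_mul (H : LHyp K F) (v : Place K F) {t : F} (ht : v.ord t = 1) {g g' : F}
    (hg : g ∈ v.toValuationSubring) (hg' : g' ∈ v.toValuationSubring) :
    rem H v t (g * g') 1 = valF H v g • rem H v t g' 1 + rem H v t g 1 * g' := by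
  have ht0 : t ≠ 0 := ne_zero_of_ord_eq_one ht
  rw [rem_succ, rem_succ, rem_succ, rem_zero, rem_zero, rem_zero, valF_mul H v hg hg', map_mul,
    Algebra.smul_def]
  field_simp
  ring

/-- **Cauchy product** for Taylor coefficients. -/
theorem tc_mul (H : LHyp K F) (v : Place K F) {t : F} (ht : v.ord t = 1) (m : ℕ) :
    ∀ {g g' : F}, g ∈ v.toValuationSubring → g' ∈ v.toValuationSubring →
      tc H v t (g * g') m =
        ∑ p ∈ Finset.HasAntidiagonal.antidiagonal m, tc H v t g p.1 * tc H v t g' p.2 := by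
  induction m with
  | zero =>
    intro g g' hg hg'
    simp [tc_zero, valF_mul H v hg hg']
  | succ m ih =>
    intro g g' hg hg'
    have hr : rem H v t g 1 ∈ v.toValuationSubring := rem_mem H v ht hg 1
    have hr' : rem H v t g' 1 ∈ v.toValuationSubring := rem_mem H v ht hg' 1
    rw [tc_shift, rem_one_mul H v ht hg hg',
      tc_add H v ht (smul_mem_val v _ hr') (mul_mem hr hg'), tc_smul H v ht _ hr',
      ih hr hg', Finset.Nat.sum_antidiagonal_succ, ← tc_shift, tc_zero]
    congr 1
    refine Finset.sum_congr rfl fun p _ => ?_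
    rw [tc_shift]

/-- **Cauchy product** for the jets of sections. -/
theorem jev_mul (H : LHyp K F) (P0 : Place K F) (a b : ℕ) {t0 : F} (ht0 : P0.ord t0 = 1)
    (v : Place K F) {t : F} (ht : v.ord t = 1) (m : ℕ) (f : Lm P0 a) (f' : Lm P0 b)
    (ff' : Lm P0 (a + b)) (hff' : (ff' : F) = (f : F) * (f' : F)) :
    jev H P0 (a + b) ht0 v ht m ff' =
      ∑ p ∈ Finset.HasAntidiagonal.antidiagonal m, jev H P0 a ht0 v ht p.1 f * jev H P0 b ht0 v ht p.2 f' := by
  simp only [jev_apply]
  rw [hff', triv_add,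
    show triv P0 a t0 v * triv P0 b t0 v * ((f : F) * (f' : F)) =
      (triv P0 a t0 v * (f : F)) * (triv P0 b t0 v * (f' : F)) by ring]
  exact tc_mul H v ht m (triv_mul_mem P0 ht0 v f.2) (triv_mul_mem P0 ht0 v f'.2)

end Fermat.Agent.MW.CHOW.JetMul6
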