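/-
PROGRAMME MW (S17), block CHOW+UD (helper6).  `LeadProd6`: Taylor coefficients of PRODUCTS with
prescribed vanishing — the algebra behind the adjunction identity (value of the Cramer quotient on
the incidence locus, with multiplicities; no limits).

For `g, g', h, …` regular at the place `v`, `t` a uniformizer at `v` (`tc` of `POS/Jet9`):

* `tc_mul_vanish` : `(∀ j < m, tc g j = 0) → ∀ j < m, tc (g * g') j = 0`;
* `tc_mul_lead`   : `(∀ j < m, tc g j = 0) → tc (g * g') m = tc g m * tc g' 0`;
* `tc_pow_vanish`, `tc_pow_lead` : if `tc h 0 = 0` then `h ^ m` has vanishing coefficients below `m`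
  and `tc (h ^ m) m = (tc h 1) ^ m`;
* `tc_zero_prod`  : `tc (∏ i ∈ s, g i) 0 = ∏ i ∈ s, tc (g i) 0`;
* `lead_identity` : from `L * D = T * (h ^ m * G)` with `L` vanishing to order `≥ m` and `tc h 0 = 0`:
  `tc L m * tc D 0 = tc T 0 * ((tc h 1) ^ m * tc G 0)`.
-/
import Mathlib
import Fermat.Agent.MW.CHOW.JetMul6

set_option autoImplicit false
set_option linter.unusedSectionVars false

open AlgebraicCurve

namespace Fermat.Agent.MW.CHOW.LeadProd6

open Fermat.Agent.X0.FF Fermat.Agent.RR.LSpace
open Fermat.Agent.MW.EMB.Value6 Fermat.Agent.MW.POS.Jet9 Fermat.Agent.MW.CHOW.JetMul6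

variable {K F : Type*} [Field K] [Field F] [Algebra K F]

theorem tc_mul_vanish (H : LHyp K F) (v : Place K F) {t : F} (ht : v.ord t = 1) {g g' : F}
    (hg : g ∈ v.toValuationSubring) (hg' : g' ∈ v.toValuationSubring) {m : ℕ}
    (h : ∀ j < m, tc H v t g j = 0) : ∀ j < m, tc H v t (g * g') j = 0 := by
  intro j hj
  rw [tc_mul H v ht j hg hg']
  refine Finset.sum_eq_zero fun p hp => ?_
  have hp1 : p.1 ≤ j := by
    have := Finset.HasAntidiagonal.mem_antidiagonal.mp hp
    omega
  rw [h p.1 (by omega), zero_mul]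

theorem tc_mul_lead (H : LHyp K F) (v : Place K F) {t : F} (ht : v.ord t = 1) {g g' : F}
    (hg : g ∈ v.toValuationSubring) (hg' : g' ∈ v.toValuationSubring) {m : ℕ}
    (h : ∀ j < m, tc H v t g j = 0) :
    tc H v t (g * g') m = tc H v t g m * tc H v t g' 0 := by
  rw [tc_mul H v ht m hg hg']
  rw [Finset.sum_eq_single (m, 0)]
  · intro p hp hne
    have hsum := Finset.HasAntidiagonal.mem_antidiagonal.mp hp
    have hp1 : p.1 < m := by
      rcases Nat.lt_or_ge p.1 m with h1 | h1
      · exact h1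
      · exfalso
        apply hne
        ext <;> simp <;> omega
    rw [h p.1 hp1, zero_mul]
  · intro hnot
    exact absurd (Finset.HasAntidiagonal.mem_antidiagonal.mpr (by simp)) hnot

theorem tc_pow_vanish_lead (H : LHyp K F) (v : Place K F) {t : F} (ht : v.ord t = 1) {h : F}
    (hh : h ∈ v.toValuationSubring) (h0 : tc H v t h 0 = 0) (m : ℕ) :
    (∀ j < m, tc H v t (h ^ m) j = 0) ∧ tc H v t (h ^ m) m = (tc H v t h 1) ^ m := by
  induction m with
  | zero =>
    refine ⟨fun j hj => absurd hj (Nat.not_lt_zero j), ?_⟩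
    rw [pow_zero, pow_zero, tc_zero, valF_one]
  | succ m ih =>
    obtain ⟨ih1, ih2⟩ := ih
    have hpm : h ^ m ∈ v.toValuationSubring := pow_mem hh m
    have hvan : ∀ j < m + 1, tc H v t (h ^ m * h) j = 0 := by
      intro j hj
      rw [tc_mul H v ht j hpm hh]
      refine Finset.sum_eq_zero fun p hp => ?_
      have hsum := Finset.HasAntidiagonal.mem_antidiagonal.mp hp
      rcases Nat.lt_or_ge p.1 m with h1 | h1
      · rw [ih1 p.1 h1, zero_mul]
      · have hp2 : p.2 = 0 := by omega
        rw [hp2, h0, mul_zero]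
    refine ⟨by rw [pow_succ]; exact hvan, ?_⟩
    rw [pow_succ, tc_mul H v ht (m + 1) hpm hh, Finset.sum_eq_single (m, 1)]
    · rw [ih2, pow_succ]
    · intro p hp hne
      have hsum := Finset.HasAntidiagonal.mem_antidiagonal.mp hp
      rcases Nat.lt_or_ge p.1 m with h1 | h1
      · rw [ih1 p.1 h1, zero_mul]
      · have hp1 : p.1 = m + 1 := by
          rcases Nat.eq_or_lt_of_le h1 with h2 | h2
          · exfalso
            apply hne
            ext <;> simp <;> omega
          · omega
        have hp2 : p.2 = 0 := by omega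
        rw [hp2, h0, mul_zero]
    · intro hnot
      exact absurd (Finset.HasAntidiagonal.mem_antidiagonal.mpr (by simp)) hnot

theorem tc_pow_vanish (H : LHyp K F) (v : Place K F) {t : F} (ht : v.ord t = 1) {h : F}
    (hh : h ∈ v.toValuationSubring) (h0 : tc H v t h 0 = 0) (m : ℕ) :
    ∀ j < m, tc H v t (h ^ m) j = 0 :=
  (tc_pow_vanish_lead H v ht hh h0 m).1

theorem tc_pow_lead (H : LHyp K F) (v : Place K F) {t : F} (ht : v.ord t = 1) {h : F}
    (hh : h ∈ v.toValuationSubring) (h0 : tc H v t h 0 = 0) (m : ℕ) :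
    tc H v t (h ^ m) m = (tc H v t h 1) ^ m :=
  (tc_pow_vanish_lead H v ht hh h0 m).2

theorem tc_zero_mul (H : LHyp K F) (v : Place K F) (t : F) {g g' : F}
    (hg : g ∈ v.toValuationSubring) (hg' : g' ∈ v.toValuationSubring) :
    tc H v t (g * g') 0 = tc H v t g 0 * tc H v t g' 0 := by
  rw [tc_zero, tc_zero, tc_zero, valF_mul H v hg hg']

theorem tc_zero_pow (H : LHyp K F) (v : Place K F) (t : F) {g : F}
    (hg : g ∈ v.toValuationSubring) (n : ℕ) :
    tc H v t (g ^ n) 0 = (tc H v t g 0) ^ n := by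
  rw [tc_zero, tc_zero, valF_pow H v hg]

theorem tc_zero_prod (H : LHyp K F) (v : Place K F) (t : F) {ι : Type*} (s : Finset ι)
    (g : ι → F) (hg : ∀ i ∈ s, g i ∈ v.toValuationSubring) :
    tc H v t (∏ i ∈ s, g i) 0 = ∏ i ∈ s, tc H v t (g i) 0 := by
  classical
  induction s using Finset.induction_on with
  | empty => simp [tc_zero]
  | insert i s hi ih =>
    rw [Finset.prod_insert hi, Finset.prod_insert hi,
      tc_zero_mul H v t (hg i (Finset.mem_insert_self i s))
        (Subring.prod_mem _ fun j hj => hg j (Finset.mem_insert_of_mem hj)),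
      ih fun j hj => hg j (Finset.mem_insert_of_mem hj)]

/-- **The leading-coefficient identity** behind the adjunction formula. -/
theorem lead_identity (H : LHyp K F) (v : Place K F) {t : F} (ht : v.ord t = 1)
    {L D T h G : F} (hL : L ∈ v.toValuationSubring) (hD : D ∈ v.toValuationSubring)
    (hT : T ∈ v.toValuationSubring) (hh : h ∈ v.toValuationSubring)
    (hG : G ∈ v.toValuationSubring) {m : ℕ}
    (hLv : ∀ j < m, tc H v t L j = 0) (h0 : tc H v t h 0 = 0)
    (hid : L * D = T * (h ^ m * G)) :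
    tc H v t L m * tc H v t D 0 = tc H v t T 0 * ((tc H v t h 1) ^ m * tc H v t G 0) := by
  have hpm : h ^ m ∈ v.toValuationSubring := pow_mem hh m
  have h1 := tc_mul_lead H v ht hL hD hLv
  have h2 : tc H v t (T * (h ^ m * G)) m = tc H v t T 0 * ((tc H v t h 1) ^ m * tc H v t G 0) := by
    have h3 : T * (h ^ m * G) = h ^ m * (T * G) := by ring
    rw [h3, tc_mul_lead H v ht hpm (mul_mem hT hG) (tc_pow_vanish H v ht hh h0 m),
      tc_pow_lead H v ht hh h0 m, tc_zero_mul H v t hT hG]
    ring
  rw [← h1, hid, h2]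

end Fermat.Agent.MW.CHOW.LeadProd6
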