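/-
PROGRAMME MW (S17), block CHOW+UD (helper6).  `ChowAdj6`: the ADJUNCTION IDENTITY for the Cramer
quotient `dVal` of the Chow determinant (setting of `ChowPF8`).

* `chowVal_extend` : a product formula `chowVal g e sel c c' = ε * ∏ j, ∑ i, c' i * pz j i` valid for
  all `c' ∈ K^n` (`K` infinite) stays valid for `c'` with entries in any commutative `K`-algebra;
* `iotaW_dot_swap` : antisymmetry of the contraction;
* `mul_eq_sum_gTab` : `b i * β q = ∑ r, gTab i q r * τ r` in the function field;
* `cramer_fn` : the Cramer identity in the function field, for the locally trivialised sections;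
* `adj_identity` : the value of `dVal` at a point `pt y` of the hyperplane section of `c`
  (any multiplicity) in terms of the leading coefficient of `l_c` at `y`, the tangent vector
  `dpt y` and the other points of the section.
-/
import Mathlib
import Fermat.Agent.MW.EMB.Form6
import Fermat.Agent.MW.CHOW.LeadProd6
import Fermat.Agent.MW.CHOW.ChowPF8

set_option autoImplicit false
set_option linter.unusedSectionVars false

open AlgebraicCurve

namespace Fermat.Agent.MW.CHOW.ChowAdj6

open Fermat.Agent.X0.FF Fermat.Agent.RR.LSpace Fermat.Agent.RR.LHypGen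
open Fermat.Agent.MW.EMB.Value6 Fermat.Agent.MW.EMB.OnePoint6 Fermat.Agent.MW.EMB.Coord6
open Fermat.Agent.MW.EMB.Tangent6 Fermat.Agent.MW.EMB.Proj6 Fermat.Agent.MW.EMB.Lead6
open Fermat.Agent.MW.EMB.Form6
open Fermat.Agent.MW.POS.Jet9 Fermat.Agent.MW.CHOW.JetMul6 Fermat.Agent.MW.CHOW.LeadProd6
open Fermat.Agent.MW.CHOW.ChowAlg8 Fermat.Agent.MW.CHOW.ChowPF8

/-! ### Pure algebra -/

section Alg

variable {K : Type*} [Field K] [Infinite K] {n : ℕ} {I2 I3 E : Type*} [Fintype I2] [Fintype E]
  [DecidableEq I2] [DecidableEq E]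

/-- a product formula for `chowVal` valid for all `c' ∈ K^n` extends to every `K`-algebra. -/
theorem chowVal_extend {A : Type*} [CommRing A] [Algebra K A] {J : Type*} [Fintype J]
    (g : Fin n → I2 → I3 → K) (e : I2 ⊕ E ≃ I3) (sel : E → I2) (c : Fin n → K)
    (pz : J → Fin n → K) (eps : K)
    (heps : ∀ c' : Fin n → K, chowVal g e sel c c' = eps * ∏ j, ∑ i, c' i * pz j i)
    (c' : Fin n → A) :
    chowVal (fun i q r => algebraMap K A (g i q r)) e sel (fun i => algebraMap K A (c i)) c' =
      algebraMap K A eps * ∏ j, ∑ i, c' i * algebraMap K A (pz j i) := by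
  classical
  have hPQ : chowVal (fun i q r => (MvPolynomial.C (g i q r) : MvPolynomial (Fin n) K)) e sel
      (fun i => MvPolynomial.C (c i)) MvPolynomial.X =
      MvPolynomial.C eps * ∏ j, ∑ i, MvPolynomial.X i * MvPolynomial.C (pz j i) := by
    apply MvPolynomial.funext
    intro x
    rw [map_chowVal (MvPolynomial.eval x)]
    simp only [MvPolynomial.eval_C, MvPolynomial.eval_X, map_mul, map_prod, map_sum]
    exact heps x
  have h1 := congrArg (MvPolynomial.aeval c' : MvPolynomial (Fin n) K →ₐ[K] A) hPQ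
  have h2 := map_chowVal ((MvPolynomial.aeval c' : MvPolynomial (Fin n) K →ₐ[K] A) :
      MvPolynomial (Fin n) K →+* A) (fun i q r => MvPolynomial.C (g i q r)) e sel
      (fun i => MvPolynomial.C (c i)) MvPolynomial.X
  simp only [RingHom.coe_coe, MvPolynomial.aeval_C, MvPolynomial.aeval_X] at h2
  rw [← h2, h1]
  simp only [map_mul, map_prod, map_sum, MvPolynomial.aeval_C, MvPolynomial.aeval_X]

theorem iotaW_dot_swap {A : Type*} [CommRing A] (Y x : Fin n → A) (W : Fin n × Fin n → A) :
    ∑ i, iotaW Y W i * x i = -∑ i, iotaW x W i * Y i := by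
  rw [iotaW_dot, iotaW_dot, ← Finset.sum_neg_distrib]
  refine Finset.sum_congr rfl fun a _ => ?_
  ring

end Alg

/-! ### The curve -/

section Curve

variable {K F : Type*} [Field K] [Field F] [Algebra K F]
variable (H : LHyp K F) (P0 : Place K F) {d : ℕ} {t0 : F} (ht0 : P0.ord t0 = 1) {n : ℕ}
  (b : Module.Basis (Fin n) K (Lm P0 d))
  {I2 I3 : Type*} [Fintype I2] [Fintype I3] [DecidableEq I2] [DecidableEq I3]
  (β : Module.Basis I2 K (Lm P0 (d + d))) (τ : Module.Basis I3 K (Lm P0 (d + (d + d))))

/-- the structure constants in the function field. -/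
theorem mul_eq_sum_gTab (i : Fin n) (q : I2) :
    ((b i : Lm P0 d) : F) * ((β q : Lm P0 (d + d)) : F) =
      ∑ r, algebraMap K F (gTab P0 b β τ i q r) * ((τ r : Lm P0 (d + (d + d))) : F) := by
  have h1 := τ.sum_repr (mulB P0 d (d + d) (b i) (β q))
  have h2 := congrArg (fun f : Lm P0 (d + (d + d)) => (f : F)) h1
  simp only [mulB_apply] at h2
  rw [← h2]
  simp only [AddSubmonoidClass.coe_finsetSum, Submodule.coe_smul, Algebra.smul_def, gTab]

/-- the table relation for the locally trivialised sections. -/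
theorem hmul_triv (y : Place K F) (i : Fin n) (q : I2) :
    ∑ r, (triv P0 (d + (d + d)) t0 y * ((τ r : Lm P0 (d + (d + d))) : F)) *
        algebraMap K F (gTab P0 b β τ i q r) =
      (triv P0 d t0 y * ((b i : Lm P0 d) : F)) *
        (triv P0 (d + d) t0 y * ((β q : Lm P0 (d + d)) : F)) := by
  rw [Fermat.Agent.MW.EMB.Lead6.triv_add P0 d (d + d) t0 y]
  have h := mul_eq_sum_gTab P0 b β τ i q
  calc ∑ r, (triv P0 d t0 y * triv P0 (d + d) t0 y * ((τ r : Lm P0 (d + (d + d))) : F)) *
        algebraMap K F (gTab P0 b β τ i q r)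
      = triv P0 d t0 y * triv P0 (d + d) t0 y *
          ∑ r, algebraMap K F (gTab P0 b β τ i q r) * ((τ r : Lm P0 (d + (d + d))) : F) := by
        rw [Finset.mul_sum]
        refine Finset.sum_congr rfl fun r _ => ?_
        ring
    _ = _ := by rw [← h]; ring

theorem coe_lin (c : Fin n → K) :
    ((lin P0 d b c : Lm P0 d) : F) = ∑ i, algebraMap K F (c i) * ((b i : Lm P0 d) : F) := by
  simp only [lin, AddSubmonoidClass.coe_finsetSum, Submodule.coe_smul, Algebra.smul_def]

theorem triv_mul_lin (y : Place K F) (c : Fin n → K) :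
    triv P0 d t0 y * ((lin P0 d b c : Lm P0 d) : F) =
      ∑ i, algebraMap K F (c i) * (triv P0 d t0 y * ((b i : Lm P0 d) : F)) := by
  rw [coe_lin, Finset.mul_sum]
  refine Finset.sum_congr rfl fun i _ => ?_
  ring

/-- **Cramer identity in the function field**, for the locally trivialised sections at `y`,
combined with a product formula for the Chow determinant. -/
theorem cramer_fn [Infinite K] {E : Type*} [Fintype E] [DecidableEq E] (e : I2 ⊕ E ≃ I3)
    (sel : E → I2) (c : Fin n → K) {J : Type*} [Fintype J] (pz : J → Fin n → K) (eps : K)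
    (heps : ∀ c' : Fin n → K,
      chowVal (gTab P0 b β τ) e sel c c' = eps * ∏ j, ∑ i, c' i * pz j i)
    (y : Place K F) (r : I3) (W : Fin n × Fin n → K) :
    (triv P0 (d + (d + d)) t0 y * ((τ r : Lm P0 (d + (d + d))) : F)) *
        (algebraMap K F eps * ∏ j, (triv P0 d t0 y *
          ((lin P0 d b (fun i => -iotaW (pz j) W i) : Lm P0 d) : F))) =
      (triv P0 d t0 y * ((lin P0 d b c : Lm P0 d) : F)) *
        dVal (fun i q r => algebraMap K F (gTab P0 b β τ i q r)) e sel
          (fun q => triv P0 (d + d) t0 y * ((β q : Lm P0 (d + d)) : F)) r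
          (fun i => algebraMap K F (c i)) (fun i => triv P0 d t0 y * ((b i : Lm P0 d) : F))
          (fun a => algebraMap K F (W a)) := by
  have h1 := mul_chowVal_eq (fun i q r => algebraMap K F (gTab P0 b β τ i q r)) e sel
    (fun r => triv P0 (d + (d + d)) t0 y * ((τ r : Lm P0 (d + (d + d))) : F))
    (fun q => triv P0 (d + d) t0 y * ((β q : Lm P0 (d + d)) : F))
    (fun i => triv P0 d t0 y * ((b i : Lm P0 d) : F))
    (fun i q => hmul_triv P0 b β τ y i q)
    (fun i => algebraMap K F (c i)) (fun a => algebraMap K F (W a)) r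
  have h2 := chowVal_extend (A := F) (gTab P0 b β τ) e sel c pz eps heps
    (iotaW (fun i => triv P0 d t0 y * ((b i : Lm P0 d) : F)) (fun a => algebraMap K F (W a)))
  rw [h2] at h1
  rw [triv_mul_lin P0 b y c, ← h1]
  congr 2
  refine Finset.prod_congr rfl fun j _ => ?_
  rw [iotaW_dot_swap, triv_mul_lin, ← Finset.sum_neg_distrib]
  refine Finset.sum_congr rfl fun i _ => ?_
  rw [map_neg, map_iotaW (algebraMap K F), neg_mul]

/-- the Cramer quotient of the locally trivialised sections is regular at `y`, and its value is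
the Cramer quotient of the values. -/
theorem dVal_triv_mem_and_valF {E : Type*} [Fintype E] [DecidableEq E] (e : I2 ⊕ E ≃ I3)
    (sel : E → I2) (c : Fin n → K) (y : Place K F) (r : I3) (W : Fin n × Fin n → K) :
    dVal (fun i q r => algebraMap K F (gTab P0 b β τ i q r)) e sel
        (fun q => triv P0 (d + d) t0 y * ((β q : Lm P0 (d + d)) : F)) r
        (fun i => algebraMap K F (c i)) (fun i => triv P0 d t0 y * ((b i : Lm P0 d) : F))
        (fun a => algebraMap K F (W a)) ∈ y.toValuationSubring ∧
    valF H y (dVal (fun i q r => algebraMap K F (gTab P0 b β τ i q r)) e sel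
        (fun q => triv P0 (d + d) t0 y * ((β q : Lm P0 (d + d)) : F)) r
        (fun i => algebraMap K F (c i)) (fun i => triv P0 d t0 y * ((b i : Lm P0 d) : F))
        (fun a => algebraMap K F (W a))) =
      dVal (gTab P0 b β τ) e sel (fun q => ev H P0 (d + d) ht0 y (β q)) r c
        (pt H P0 d ht0 b y) W := by
  set Yo : Fin n → y.toValuationSubring :=
    fun i => ⟨triv P0 d t0 y * ((b i : Lm P0 d) : F), triv_mul_mem P0 ht0 y (b i).2⟩ with hYo
  set wo : I2 → y.toValuationSubring :=
    fun q => ⟨triv P0 (d + d) t0 y * ((β q : Lm P0 (d + d)) : F),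
      triv_mul_mem P0 ht0 y (β q).2⟩ with hwo
  set Do : y.toValuationSubring :=
    dVal (fun i q r => algebraMap K y.toValuationSubring (gTab P0 b β τ i q r)) e sel wo r
      (fun i => algebraMap K y.toValuationSubring (c i)) Yo
      (fun a => algebraMap K y.toValuationSubring (W a)) with hDo
  have hcoe : ((Do : y.toValuationSubring) : F) =
      dVal (fun i q r => algebraMap K F (gTab P0 b β τ i q r)) e sel
        (fun q => triv P0 (d + d) t0 y * ((β q : Lm P0 (d + d)) : F)) r
        (fun i => algebraMap K F (c i)) (fun i => triv P0 d t0 y * ((b i : Lm P0 d) : F))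
        (fun a => algebraMap K F (W a)) := by
    have h := map_dVal (algebraMap y.toValuationSubring F)
      (fun i q r => algebraMap K y.toValuationSubring (gTab P0 b β τ i q r)) e sel wo r
      (fun i => algebraMap K y.toValuationSubring (c i)) Yo
      (fun a => algebraMap K y.toValuationSubring (W a))
    simp only [← IsScalarTower.algebraMap_apply K y.toValuationSubring F] at h
    exact h
  have hval : val H y Do = dVal (gTab P0 b β τ) e sel (fun q => ev H P0 (d + d) ht0 y (β q)) r c
      (pt H P0 d ht0 b y) W := by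
    have h := map_dVal (val H y)
      (fun i q r => algebraMap K y.toValuationSubring (gTab P0 b β τ i q r)) e sel wo r
      (fun i => algebraMap K y.toValuationSubring (c i)) Yo
      (fun a => algebraMap K y.toValuationSubring (W a))
    simp only [val_algebraMap] at h
    rw [h]
    have h1 : (fun q => val H y (wo q)) = fun q => ev H P0 (d + d) ht0 y (β q) := by
      funext q
      rw [ev_apply, valF_of_mem H y (triv_mul_mem P0 ht0 y (β q).2)]
    have h2 : (fun i => val H y (Yo i)) = pt H P0 d ht0 b y := by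
      funext i
      rw [pt, ev_apply, valF_of_mem H y (triv_mul_mem P0 ht0 y (b i).2)]
    rw [h1, h2]
  refine ⟨?_, ?_⟩
  · rw [← hcoe]; exact Do.2
  · rw [← hcoe, valF_of_mem H y Do.2]
    exact hval

/-- the value of a form of degree `e` at `pt y` is the value of the corresponding section of
`O(m·P0)`, `m = e * d`. -/
theorem eval_pt_cast {p : MvPolynomial (Fin n) K} {e m : ℕ} (hp : p.IsHomogeneous e)
    (hm : e * d = m) (s : Lm P0 m) (hs : formFn P0 d b p = (s : F)) (y : Place K F) :
    MvPolynomial.eval (pt H P0 d ht0 b y) p = ev H P0 m ht0 y s := by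
  subst hm
  rw [eval_pt H P0 d ht0 b hp y]
  congr 1
  exact Subtype.ext hs

/-- Taylor coefficients of a locally trivialised linear section. -/
theorem tc_triv_lin (y : Place K F) {t : F} (ht : y.ord t = 1) (c : Fin n → K) (j : ℕ) :
    tc H y t (triv P0 d t0 y * ((lin P0 d b c : Lm P0 d) : F)) j =
      ∑ i, c i * jet H P0 d ht0 b y ht j i := by
  rw [← jev_lin]
  rfl

/-- Taylor coefficients of the contraction `x ↦ W(x ∧ p)` along the curve. -/
theorem tc_contr (y : Place K F) {t : F} (ht : y.ord t = 1) (p : Fin n → K)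
    (W : Fin n × Fin n → K) (j : ℕ) :
    tc H y t (triv P0 d t0 y * ((lin P0 d b (fun i => -iotaW p W i) : Lm P0 d) : F)) j =
      ∑ a : Fin n × Fin n, W a * (jet H P0 d ht0 b y ht j a.1 * p a.2 -
        jet H P0 d ht0 b y ht j a.2 * p a.1) := by
  rw [tc_triv_lin H P0 ht0 b y ht]
  have h := iotaW_dot p (jet H P0 d ht0 b y ht j) W
  calc ∑ i, -iotaW p W i * jet H P0 d ht0 b y ht j i
      = -∑ i, iotaW p W i * jet H P0 d ht0 b y ht j i := by
        rw [← Finset.sum_neg_distrib]
        refine Finset.sum_congr rfl fun i _ => ?_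
        ring
    _ = _ := by
        rw [h, ← Finset.sum_neg_distrib]
        refine Finset.sum_congr rfl fun a _ => ?_
        ring

/-- the multiplicity of `y` in an enumerated divisor. -/
theorem sum_single_apply_eq_card [DecidableEq (Place K F)] (z : Fin d → Place K F)
    (y : Place K F) :
    (∑ j, Finsupp.single (z j) (1 : ℤ) : Divisor K F) y =
      ((Finset.univ.filter fun j => z j = y).card : ℤ) := by
  rw [Finsupp.finsetSum_apply]
  simp only [Finsupp.single_apply]
  rw [Finset.sum_boole]

/-- **ADJUNCTION IDENTITY.**  At a point `y` of the hyperplane section of `c` (of any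
multiplicity `m`), the leading coefficient of `l_c` at `y` times the Cramer quotient `dVal` of the
Chow determinant at `(c, pt y, W)` equals `τ_r(pt y) · ε` times the product over the section of the
values `W(pt y ∧ pt z_j)` (`z_j ≠ y`) and of the tangent values `W(dpt y ∧ pt y)` (`z_j = y`). -/
theorem adj_identity [Infinite K] [DecidableEq (Place K F)] (e : I2 ⊕ Fin d ≃ I3)
    (sel : Fin d → I2)
    (beta2 : I2 → MvPolynomial (Fin n) K) (hb2 : ∀ q, (beta2 q).IsHomogeneous 2)
    (hb2' : ∀ q, formFn P0 d b (beta2 q) = ((β q : Lm P0 (d + d)) : F))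
    (tau3 : I3 → MvPolynomial (Fin n) K) (ht3 : ∀ r, (tau3 r).IsHomogeneous 3)
    (ht3' : ∀ r, formFn P0 d b (tau3 r) = ((τ r : Lm P0 (d + (d + d))) : F))
    {c : Fin n → K} (hc : c ≠ 0) (z : Fin d → Place K F)
    (hz : hyp H P0 d b hc = ∑ j, Finsupp.single (z j) 1) (eps : K)
    (heps : ∀ c' : Fin n → K, chowVal (gTab P0 b β τ) e sel c c' =
      eps * ∏ j, ∑ i, c' i * pt H P0 d ht0 b (z j) i)
    (y : Place K F) {t : F} (ht : y.ord t = 1) (r : I3) (W : Fin n × Fin n → K) :
    lcSec H P0 d t0 y t ((lin P0 d b c : Lm P0 d) : F) *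
        dVal (gTab P0 b β τ) e sel
          (fun q => MvPolynomial.eval (pt H P0 d ht0 b y) (beta2 q)) r c
          (pt H P0 d ht0 b y) W =
      MvPolynomial.eval (pt H P0 d ht0 b y) (tau3 r) * eps *
        ∏ j, (if z j = y then
            ∑ a : Fin n × Fin n, W a * (dpt H P0 d ht0 b y ht a.1 * pt H P0 d ht0 b y a.2 -
              dpt H P0 d ht0 b y ht a.2 * pt H P0 d ht0 b y a.1)
          else
            ∑ a : Fin n × Fin n, W a * (pt H P0 d ht0 b y a.1 * pt H P0 d ht0 b (z j) a.2 -
              pt H P0 d ht0 b y a.2 * pt H P0 d ht0 b (z j) a.1)) := by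
  set m : ℕ := (Finset.univ.filter fun j => z j = y).card with hm
  have hmul : hyp H P0 d b hc y = m := by rw [hz, sum_single_apply_eq_card]
  have hlin0 := lin_ne_zero P0 d b hc
  have hord : ordSec P0 d t0 y ((lin P0 d b c : Lm P0 d) : F) = m := by
    rw [← hyp_apply H P0 d ht0 b hc y, hmul]
  have hLv : ∀ j < m, tc H y t (triv P0 d t0 y * ((lin P0 d b c : Lm P0 d) : F)) j = 0 := by
    intro j hj
    exact (le_ordSec_iff H P0 d ht0 y ht (lin P0 d b c) hlin0 m).mp (by rw [hord]) j hj
  have hLm : tc H y t (triv P0 d t0 y * ((lin P0 d b c : Lm P0 d) : F)) m =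
      lcSec H P0 d t0 y t ((lin P0 d b c : Lm P0 d) : F) := by
    rw [lcSec_eq_valF H P0 d t0 y t _ hord]
    exact jev_eq_valF_div H P0 d ht0 y ht (lin P0 d b c) m hLv
  set Lf : (Fin n → K) → F := fun p =>
    triv P0 d t0 y * ((lin P0 d b (fun i => -iotaW p W i) : Lm P0 d) : F) with hLf
  have hLfmem : ∀ p, Lf p ∈ y.toValuationSubring :=
    fun p => triv_mul_mem P0 ht0 y (lin P0 d b _).2
  obtain ⟨hDmem, hDval⟩ := dVal_triv_mem_and_valF H P0 ht0 b β τ e sel c y r W
  have hcr := cramer_fn P0 (t0 := t0) b β τ e sel c (fun j => pt H P0 d ht0 b (z j)) eps heps y r W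
  have hsplit : ∏ j, Lf (pt H P0 d ht0 b (z j)) = Lf (pt H P0 d ht0 b y) ^ m *
      ∏ j ∈ Finset.univ.filter (fun j => ¬ z j = y), Lf (pt H P0 d ht0 b (z j)) := by
    rw [← Finset.prod_filter_mul_prod_filter_not Finset.univ (fun j => z j = y)]
    congr 1
    rw [hm, ← Finset.prod_const]
    refine Finset.prod_congr rfl fun j hj => ?_
    rw [(Finset.mem_filter.mp hj).2]
  have hPmem : ∏ j ∈ Finset.univ.filter (fun j => ¬ z j = y), Lf (pt H P0 d ht0 b (z j)) ∈
      y.toValuationSubring := prod_mem fun j _ => hLfmem _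
  have hGmem : eps • ∏ j ∈ Finset.univ.filter (fun j => ¬ z j = y),
      Lf (pt H P0 d ht0 b (z j)) ∈ y.toValuationSubring := smul_mem_val y eps hPmem
  have hid : (triv P0 d t0 y * ((lin P0 d b c : Lm P0 d) : F)) *
      dVal (fun i q r => algebraMap K F (gTab P0 b β τ i q r)) e sel
        (fun q => triv P0 (d + d) t0 y * ((β q : Lm P0 (d + d)) : F)) r
        (fun i => algebraMap K F (c i)) (fun i => triv P0 d t0 y * ((b i : Lm P0 d) : F))
        (fun a => algebraMap K F (W a)) =
      (triv P0 (d + (d + d)) t0 y * ((τ r : Lm P0 (d + (d + d))) : F)) *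
        (Lf (pt H P0 d ht0 b y) ^ m * (eps • ∏ j ∈ Finset.univ.filter (fun j => ¬ z j = y),
          Lf (pt H P0 d ht0 b (z j)))) := by
    rw [← hcr, hsplit, Algebra.smul_def]
    ring
  have h0 : tc H y t (Lf (pt H P0 d ht0 b y)) 0 = 0 := by
    rw [hLf, tc_contr H P0 ht0 b y ht, jet_zero]
    refine Finset.sum_eq_zero fun a _ => ?_
    ring
  have key := lead_identity H y ht (triv_mul_mem P0 ht0 y (lin P0 d b c).2) hDmem
    (triv_mul_mem P0 ht0 y (τ r).2) (hLfmem _) hGmem hLv h0 hid
  rw [hLm, tc_zero, hDval] at key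
  have hβ : (fun q => ev H P0 (d + d) ht0 y (β q)) =
      fun q => MvPolynomial.eval (pt H P0 d ht0 b y) (beta2 q) := by
    funext q
    exact (eval_pt_cast H P0 ht0 b (hb2 q) (by ring) (β q) (hb2' q) y).symm
  have hτ : tc H y t (triv P0 (d + (d + d)) t0 y * ((τ r : Lm P0 (d + (d + d))) : F)) 0 =
      MvPolynomial.eval (pt H P0 d ht0 b y) (tau3 r) := by
    rw [tc_zero, ← ev_apply]
    exact (eval_pt_cast H P0 ht0 b (ht3 r) (by ring) (τ r) (ht3' r) y).symm
  have hG0 : tc H y t (eps • ∏ j ∈ Finset.univ.filter (fun j => ¬ z j = y),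
      Lf (pt H P0 d ht0 b (z j))) 0 =
      eps * ∏ j ∈ Finset.univ.filter (fun j => ¬ z j = y),
        ∑ a : Fin n × Fin n, W a * (pt H P0 d ht0 b y a.1 * pt H P0 d ht0 b (z j) a.2 -
          pt H P0 d ht0 b y a.2 * pt H P0 d ht0 b (z j) a.1) := by
    rw [tc_smul H y ht eps hPmem, tc_zero_prod H y t _ _ fun j _ => hLfmem _]
    congr 1
    refine Finset.prod_congr rfl fun j _ => ?_
    rw [hLf, tc_contr H P0 ht0 b y ht, jet_zero]
  have h1 : tc H y t (Lf (pt H P0 d ht0 b y)) 1 =
      ∑ a : Fin n × Fin n, W a * (dpt H P0 d ht0 b y ht a.1 * pt H P0 d ht0 b y a.2 -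
        dpt H P0 d ht0 b y ht a.2 * pt H P0 d ht0 b y a.1) := by
    rw [hLf, tc_contr H P0 ht0 b y ht, jet_one]
  rw [hβ, hτ, hG0, h1] at key
  rw [key, Finset.prod_ite, Finset.prod_const, ← hm]
  ring

end Curve

end Fermat.Agent.MW.CHOW.ChowAdj6
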