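/-
PROGRAMME MW (S17), block CHOW+UD (helper6).  `HypDiff6`: from the uniform decomposition of
HYPERPLANE SECTIONS to the uniform decomposition of PRINCIPAL divisors of bounded size.

* `two_mul_cdeg_sup_zero` : `2 * deg u⁺ = size u` for `deg u = 0`;
* `exists_hyp_sub_hyp` : a principal divisor `u` with `size u + 4g ≤ 2d` is a difference
  `hyp c - hyp c'` of two hyperplane sections of the curve embedded by `|d·P0|`;
* `ev_sum_single` : `ev lam (∑ j, single (z j) 1) y = ∑ j, lam (z j) y`;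
* `udle_of_ud_hyp` : if `ev lam (hyp c) y = A c + B y + O(1)` uniformly in `(c, y)`, then
  `UDle lam principal M` for `M + 4g ≤ 2d`.
-/
import Mathlib
import Fermat.Agent.MW.EMB.Proj6
import Fermat.Agent.MW.PAIR.PairingB4

set_option autoImplicit false
set_option linter.unusedSectionVars false

open AlgebraicCurve

namespace Fermat.Agent.MW.CHOW.HypDiff6

open Fermat.Agent.X0.FF Fermat.Agent.RR.LSpace Fermat.Agent.RR.LHypGen Fermat.Agent.RR.RRMain
open Fermat.Agent.MW.EMB.Value6 Fermat.Agent.MW.EMB.OnePoint6 Fermat.Agent.MW.EMB.Coord6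
open Fermat.Agent.MW.EMB.Proj6
open Fermat.Agent.MW.PAIR.Pairing4 Fermat.Agent.MW.PAIR.PairingB4

/-! ### Positive parts -/

section Pos

variable {Pt : Type*}

theorem two_mul_cdeg_sup_zero (u : Pt →₀ ℤ) (hu : cdeg u = 0) :
    2 * cdeg (u ⊔ 0) = (size u : ℤ) := by
  classical
  have hsub : (u ⊔ 0).support ⊆ u.support := by
    intro z hz
    rw [Finsupp.mem_support_iff] at hz ⊢
    intro h0
    apply hz
    rw [Finsupp.sup_apply, h0]
    simp
  have h1 : cdeg (u ⊔ 0) = ∑ z ∈ u.support, max (u z) 0 := by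
    rw [cdeg_apply, Finsupp.sum_of_support_subset _ hsub _ (fun _ _ => rfl)]
    refine Finset.sum_congr rfl fun z _ => ?_
    rw [Finsupp.sup_apply]
    rfl
  have h2 : cdeg u = ∑ z ∈ u.support, u z := by
    rw [cdeg_apply]; rfl
  have h3 : (size u : ℤ) = ∑ z ∈ u.support, |u z| := by
    rw [size_eq_sum u u.support subset_rfl, Nat.cast_sum]
    refine Finset.sum_congr rfl fun z _ => ?_
    exact Int.natCast_natAbs (u z)
  rw [h3, h1, Finset.mul_sum]
  have h4 : ∑ z ∈ u.support, |u z| = ∑ z ∈ u.support, (2 * max (u z) 0 - u z) := by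
    refine Finset.sum_congr rfl fun z _ => ?_
    rcases le_total (u z) 0 with h | h
    · rw [abs_of_nonpos h, max_eq_right h]; ring
    · rw [abs_of_nonneg h, max_eq_left h]; ring
  rw [h4, Finset.sum_sub_distrib, ← h2, hu, sub_zero]

theorem ev_sum_single (lam : Pt → Pt → ℝ) {ι : Type*} (s : Finset ι) (z : ι → Pt) (y : Pt) :
    ev lam (∑ j ∈ s, Finsupp.single (z j) (1 : ℤ)) y = ∑ j ∈ s, lam (z j) y := by
  rw [ev_finset_sum]
  refine Finset.sum_congr rfl fun j _ => ?_
  rw [ev_single]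
  simp

end Pos

/-! ### Principal divisors as differences of hyperplane sections -/

section Curve

variable {K F : Type*} [Field K] [Field F] [Algebra K F] [IsAlgClosed K] [CharZero K] {x : F}
  [HasCanonicalDivisor (K := K) (F := F)]

theorem exists_hyp_sub_hyp (hx : IsGen K x) (P0 : Place K F) {d : ℕ} {n : ℕ} (b : Module.Basis (Fin n) K (Lm P0 d)) (u : Divisor K F)
    (hu : u ∈ Divisor.principal (K := K) (F := F))
    (hsize : (size u : ℤ) + 4 * (genus K F : ℤ) ≤ 2 * d) :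
    ∃ (c c' : Fin n → K) (hc : c ≠ 0) (hc' : c' ≠ 0),
      u = hyp (lHyp_of_isGen hx) P0 d b hc - hyp (lHyp_of_isGen hx) P0 d b hc' := by
  classical
  have H := lHyp_of_isGen hx
  obtain ⟨f, hf, huf⟩ := hu
  have hdeg0 : cdeg u = 0 := by
    have h1 : u = divOf H hf := by
      ext v; rw [huf v, divOf_apply]
    rw [Fermat.Agent.MW.PAIR.PicInst4.cdeg_eq_degree H.deg_eq_one, h1, degree_divOf]
  set E : Divisor K F := u ⊔ 0 with hE
  have hE0 : 0 ≤ E := le_sup_right
  have hEu : ∀ v, u v ≤ E v := fun v => by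
    rw [hE, Finsupp.sup_apply]; exact le_sup_left
  have hdegE : 2 * Divisor.degree E = (size u : ℤ) := by
    rw [← Fermat.Agent.MW.PAIR.PicInst4.cdeg_eq_degree H.deg_eq_one]
    exact two_mul_cdeg_sup_zero u hdeg0
  have hg0 : (0 : ℤ) ≤ genus K F := by positivity
  have hfr := finrank_L_sub hx P0 d E (by omega)
  have : FiniteDimensional K (riemannRochSpace (mP P0 d - E)) := finiteDimensional_L hx _
  have hpos : 0 < Module.finrank K (riemannRochSpace (mP P0 d - E)) := by
    have : (0 : ℤ) < Module.finrank K (riemannRochSpace (mP P0 d - E)) := by omega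
    exact_mod_cast this
  obtain ⟨s, hs⟩ := Module.finrank_pos_iff_exists_ne_zero.mp hpos
  have hs0 : (s : F) ≠ 0 := fun h => hs (Subtype.ext h)
  have hsL : (s : F) ∈ Lm P0 d := L_sub_le_Lm P0 d hE0 s.2
  have hsv := (mem_L_iff hs0).mp s.2
  -- the second section
  have hs'0 : (s : F) / f ≠ 0 := div_ne_zero hs0 hf
  have hs'L : (s : F) / f ∈ Lm P0 d := by
    rw [Lm, mem_L_iff hs'0]
    intro v
    have h1 := hsv v
    have h2 := hEu v
    rw [Finsupp.sub_apply] at h1
    rw [div_eq_mul_inv, v.ord_mul hs0 (inv_ne_zero hf), v.ord_inv, ← huf v]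
    omega
  obtain ⟨c, hcs⟩ := exists_lin_eq P0 d b ⟨(s : F), hsL⟩
  obtain ⟨c', hcs'⟩ := exists_lin_eq P0 d b ⟨(s : F) / f, hs'L⟩
  have hcF : ((lin P0 d b c : Lm P0 d) : F) = (s : F) := congrArg Subtype.val hcs
  have hc'F : ((lin P0 d b c' : Lm P0 d) : F) = (s : F) / f := congrArg Subtype.val hcs'
  have hc : c ≠ 0 := by
    rintro rfl
    apply hs0
    rw [← hcF, (lin_eq_zero_iff P0 d b 0).mpr rfl]
    rfl
  have hc' : c' ≠ 0 := by
    rintro rfl
    apply hs'0
    rw [← hc'F, (lin_eq_zero_iff P0 d b 0).mpr rfl]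
    rfl
  refine ⟨c, c', hc, hc', ?_⟩
  ext v
  rw [Finsupp.sub_apply, hyp, hyp, Finsupp.add_apply, Finsupp.add_apply, divOf_apply, divOf_apply,
    hcF, hc'F, huf v, div_eq_mul_inv, v.ord_mul hs0 (inv_ne_zero hf), v.ord_inv]
  ring

/-- **From hyperplane sections to principal divisors.** -/
theorem udle_of_ud_hyp (hx : IsGen K x) (P0 : Place K F) {d : ℕ} {n : ℕ} (b : Module.Basis (Fin n) K (Lm P0 d))
    (lam : Place K F → Place K F → ℝ) (A : (Fin n → K) → ℝ) (B : Place K F → ℝ)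
    (hud : ∃ C : ℝ, ∀ (c : Fin n → K) (hc : c ≠ 0) (y : Place K F),
      |ev lam (hyp (lHyp_of_isGen hx) P0 d b hc) y - (A c + B y)| ≤ C)
    {M : ℕ} (hM : (M : ℤ) + 4 * (genus K F : ℤ) ≤ 2 * d) :
    UDle lam (Divisor.principal (K := K) (F := F)) M := by
  obtain ⟨C, hC⟩ := hud
  refine ⟨2 * C, fun u hu hsz => ?_⟩
  have hsz' : (size u : ℤ) ≤ M := by exact_mod_cast hsz
  obtain ⟨c, c', hc, hc', rfl⟩ := exists_hyp_sub_hyp hx P0 b u hu (by omega)
  refine ⟨-(A c - A c'), fun y => ?_⟩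
  rw [ev_sub]
  have h1 := hC c hc y
  have h2 := hC c' hc' y
  rw [abs_le] at h1 h2 ⊢
  constructor <;> linarith [h1.1, h1.2, h2.1, h2.2]

end Curve

end Fermat.Agent.MW.CHOW.HypDiff6
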