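/-
PROGRAMME MW (S17), block CHOW+UD (helper8).  `UDglob8`: the GLOBAL UNIFORM DECOMPOSITION (I1) for the
curve embedded by `|d·P0|` over `Qbar`, by the global height route:

* `ht_coeffVec_rename`, `ht_gaussG` (Gauss lemma for heights, arbitrary finite index type),
  `ht_segre_coeff`, `prodLin_ne_zero` (pure height lemmas);
* `ht_famR` : `ht (Chow forms at c) = card I2 · ht c + O(1)` (certificate `cert_R`);
* `exists_eps`, `chowPolyAt_eq`, `ht_famR_eq` : the product formula as a polynomial identity and the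
  resulting height identity `ht (Chow forms at c) = ht ε + ht (coeffVec ∏_j lin (pt z_j))`;
* `wv`, `dPolyAt_eq`, `ht_famD_eq` : the adjunction identity as a polynomial identity and
  `ht (Cramer quotient forms at (c, pt y)) = ht ε + ht (τ3 (pt y)) + ht (coeffVec ∏_j lin (w_j))`;
* `ht_tau`, `ht_famD` : `ht (τ3 (pt y)) = 3 ht (pt y) + O(1)`,
  `ht (Cramer quotient forms) = (card I2 - 1) ht c + (d + 2) ht (pt y) + O(1)` (certificate `cert_D`
  and helper5's bihomogeneous engine `BiGlob5`);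
* **`ud_enum`** : `∑_j lamT tu (z_j) y = ht c + ht (pt y) + O(1)` for ALL `c ≠ 0`, all enumerations
  `z` of `hyp c` and ALL places `y` (on or off the hyperplane section);
* **`udle_lamT`** : `UDle (lamT tu) principal M` for `M + 4g ≤ 2d` (via helper6's `HypDiff6`).
-/
import Mathlib
import Fermat.Agent.MW.HT.Gauss3
import Fermat.Agent.MW.HT.GaussG3
import Fermat.Agent.MW.HT.Poly3
import Fermat.Agent.MW.HT.BiGlob5
import Fermat.Agent.MW.HT.GlobUD3
import Fermat.Agent.MW.CHOW.ChowCert8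
import Fermat.Agent.MW.CHOW.ChowAdj6
import Fermat.Agent.MW.CHOW.HypDiff6
import Fermat.Agent.MW.POS.HadGlob9

set_option autoImplicit false
set_option linter.unusedSectionVars false

open AlgebraicCurve

namespace Fermat.Agent.MW.CHOW.UDglob8

open MvPolynomial
open Fermat.Agent.X0.FF Fermat.Agent.RR.LSpace Fermat.Agent.RR.LHypGen
open Fermat.Agent.MW.EMB.Value6 Fermat.Agent.MW.EMB.OnePoint6 Fermat.Agent.MW.EMB.Coord6
open Fermat.Agent.MW.EMB.Proj6 Fermat.Agent.MW.EMB.Form6 Fermat.Agent.MW.EMB.Cone6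
open Fermat.Agent.MW.CHOW.Sec8 Fermat.Agent.MW.CHOW.ChowAlg8 Fermat.Agent.MW.CHOW.ChowPF8
open Fermat.Agent.MW.CHOW.ChowPoly8 Fermat.Agent.MW.CHOW.Null8 Fermat.Agent.MW.CHOW.ChowCert8
open Fermat.Agent.MW.HT.Place3 (Qbar GQ absV)
open Fermat.Agent.MW.HT.Ht3 Fermat.Agent.MW.HT.MvGauss3 Fermat.Agent.MW.HT.Gauss3
open Fermat.Agent.MW.HT.Poly3

/-- the height of the coefficient vector is invariant under renaming the variables. -/
theorem ht_coeffVec_rename {ι κ : Type*} (e : ι ≃ κ) (G : MvPolynomial ι Qbar) :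
    ht (coeffVec (rename e G)) = ht (coeffVec G) := by
  classical
  have h := ht_coeff_reindex (rename e G) (fun s : G.support => Finsupp.mapDomain e s.1)
    (fun s s' hss => Subtype.ext (Finsupp.mapDomain_injective e.injective hss))
    (fun s hs => by
      rw [support_rename_of_injective e.injective, Finset.mem_image] at hs
      obtain ⟨s0, hs0, rfl⟩ := hs
      exact ⟨⟨s0, hs0⟩, rfl⟩)
  rw [← h]
  congr 1
  funext s
  rw [coeff_rename_mapDomain e e.injective]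
  rfl

/-- **Gauss lemma for heights**, arbitrary finite index type. -/
theorem ht_gaussG (d : ℕ) (κ : Type*) [Fintype κ] : ∃ B : ℝ, ∀ w : Fin d → κ → Qbar,
    (∀ j, w j ≠ 0) → |ht (coeffVec (∏ j, ∑ i, C (w j i) * X i)) - ∑ j, ht (w j)| ≤ B := by
  classical
  set e : κ ≃ Fin (Fintype.card κ) := Fintype.equivFin κ with he
  obtain ⟨B, hB⟩ := ht_gauss d (Fintype.card κ)
  refine ⟨B, fun w hw => ?_⟩
  have h1 := hB (fun j => w j ∘ e.symm) (fun j h0 => hw j (by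
    funext i
    have := congrFun h0 (e i)
    simpa using this))
  have h2 : (∏ j, ∑ i', C ((w j ∘ e.symm) i') * X i' : MvPolynomial (Fin (Fintype.card κ)) Qbar) =
      rename e (∏ j, ∑ i, C (w j i) * X i) := by
    rw [map_prod]
    refine Finset.prod_congr rfl fun j _ => ?_
    rw [map_sum]
    rw [← Equiv.sum_comp e]
    refine Finset.sum_congr rfl fun i _ => ?_
    rw [map_mul, rename_C, rename_X]
    simp
  rw [h2, ht_coeffVec_rename] at h1
  have h3 : ∑ j, ht (w j ∘ e.symm) = ∑ j, ht (w j) :=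
    Finset.sum_congr rfl fun j _ => ht_comp_equiv e.symm (w j)
  rwa [h3] at h1

/-- the height of a family `ε_s · coeff_α G`. -/
theorem ht_segre_coeff {Sel κ : Type*} [Finite Sel] (S : Finset (κ →₀ ℕ)) {ε : Sel → Qbar}
    {G : MvPolynomial κ Qbar} (hε : ε ≠ 0) (hG : G ≠ 0) (hS : G.support ⊆ S) :
    ht (fun a : Sel × ↥S => ε a.1 * coeff a.2.1 G) = ht ε + ht (coeffVec G) := by
  have h2 : (fun α : ↥S => coeff α.1 G) ≠ 0 := by
    obtain ⟨s, hs⟩ := MvPolynomial.ne_zero_iff.mp hG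
    intro h0
    exact hs (congrFun h0 ⟨s, hS (mem_support_iff.mpr hs)⟩)
  rw [ht_fun_mul hε h2]
  congr 1
  exact ht_coeff_reindex G (fun α : ↥S => α.1) Subtype.val_injective
    (fun s hs => ⟨⟨s, hS hs⟩, rfl⟩)

/-- a product of nonzero linear forms is nonzero. -/
theorem prodLin_ne_zero {κ : Type*} [Fintype κ] {d : ℕ} {w : Fin d → κ → Qbar}
    (hw : ∀ j, w j ≠ 0) : (∏ j, ∑ i, C (w j i) * X i : MvPolynomial κ Qbar) ≠ 0 := by
  refine Finset.prod_ne_zero_iff.mpr fun j _ => ?_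
  rw [← Fermat.Agent.MW.HT.GaussG3.linG_eq]
  exact Fermat.Agent.MW.HT.GaussG3.linG_ne_zero (hw j)

section Conv

variable {K : Type*} [CommSemiring K] {n : ℕ}

/-- single group: weighted homogeneity is homogeneity. -/
theorem isHomogeneous_of_grp1 {p : MvPolynomial (Fin n) K} {M : Fin 1 →₀ ℕ}
    (hp : IsWeightedHomogeneous (wt (grp1 n)) p M) : p.IsHomogeneous (M 0) := by
  intro s hs
  have h := hp hs
  rw [← h, Finsupp.weight_apply, Finsupp.weight_apply]
  simp only [Finsupp.sum, Pi.one_apply, smul_eq_mul, mul_one, wt, grp1, Finsupp.smul_single,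
    Finsupp.coe_finsetSum, Finset.sum_apply, Finsupp.single_eq_same]

/-- the constant choice. -/
def choice1 (i : Fin n) : Choice (grp1 n) := ⟨fun _ => i, fun _ => Subsingleton.elim _ _⟩

end Conv

section RR

variable {F : Type*} [Field F] [Algebra Qbar F]
variable {x : F} [HasCanonicalDivisor (K := Qbar) (F := F)]
variable (hx : IsGen Qbar x) (P0 : Place Qbar F) {d : ℕ} {t0 : F} (ht0 : P0.ord t0 = 1) {n : ℕ}
  (b : Module.Basis (Fin n) Qbar (Lm P0 d))
  {I2 I3 : Type*} [Fintype I2] [Fintype I3] [DecidableEq I2] [DecidableEq I3]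
  (β : Module.Basis I2 Qbar (Lm P0 (d + d))) (τ : Module.Basis I3 Qbar (Lm P0 (d + (d + d))))

include hx ht0 in
/-- the height of the vector of Chow forms at `c` is `card I2 · ht c + O(1)`. -/
theorem ht_famR (hd : 2 * (genus Qbar F : ℤ) ≤ d) (hd0 : 0 < d) (e : I2 ⊕ Fin d ≃ I3) :
    ∃ C : ℝ, ∀ c : Fin n → Qbar,
      |ht (fun j => eval c (famR P0 b β τ e j)) - Fintype.card I2 * ht c| ≤ C := by
  obtain ⟨M, q, hq, hid⟩ := cert_R hx P0 ht0 b β τ hd hd0 e
  have hfam : ∀ j, (famR P0 b β τ e j).IsHomogeneous (Fintype.card I2) := by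
    intro j
    have := isHomogeneous_of_grp1 (chowCoeff_homogeneous (gTab P0 b β τ) e j.1 j.2.1)
    rw [Finsupp.single_eq_same] at this
    exact this
  obtain ⟨C1, hC1⟩ := ht_eval_le (famR P0 b β τ e) hfam
  obtain ⟨C2, hC2⟩ := ht_eval_ge (M := M 0) (Fintype.card I2)
    (fun a : Fin n × _ => q (choice1 a.1, a.2)) (fun a => isHomogeneous_of_grp1 (hq _))
  refine ⟨max C1 C2, fun c => ?_⟩
  have h1 := hC1 c
  have h2 := hC2 (famR P0 b β τ e) c (fun k => by
    have := hid c (choice1 k)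
    rw [this]
    simp [choice1])
  rw [abs_le]
  constructor
  · have := le_max_right C1 C2
    linarith
  · have := le_max_left C1 C2
    linarith

include hx ht0 in
/-- the leading constants of the product formula, for all selections at once. -/
theorem exists_eps (hd : 2 * (genus Qbar F : ℤ) ≤ d) (hd0 : 0 < d) (e : I2 ⊕ Fin d ≃ I3)
    {c : Fin n → Qbar} (hc : c ≠ 0) (z : Fin d → Place Qbar F)
    (hz : hyp (lHyp_of_isGen hx) P0 d b hc = ∑ j, Finsupp.single (z j) 1) :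
    ∃ ε : (Fin d → I2) → Qbar, ε ≠ 0 ∧ ∀ sel c', chowVal (gTab P0 b β τ) e sel c c' =
      ε sel * ∏ j, ∑ i, c' i * pt (lHyp_of_isGen hx) P0 d ht0 b (z j) i := by
  have h := fun sel => chowVal_eq hx P0 ht0 b β τ hd hd0 e sel hc z hz
  choose ε hε1 hε2 using h
  have hg0 : (0 : ℤ) ≤ genus Qbar F := by positivity
  obtain ⟨sel, hsel⟩ := exists_sel_injective hx P0 b β (by omega) hc
  refine ⟨ε, fun h0 => hε1 sel hsel (congrFun h0 sel), hε2⟩

/-- the product formula as a polynomial identity. -/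
theorem chowPolyAt_eq (e : I2 ⊕ Fin d ≃ I3) (sel : Fin d → I2) (c : Fin n → Qbar)
    (u : Fin d → Fin n → Qbar) (ε : Qbar)
    (hε : ∀ c', chowVal (gTab P0 b β τ) e sel c c' = ε * ∏ j, ∑ i, c' i * u j i) :
    chowPolyAt (gTab P0 b β τ) e sel c = C ε * ∏ j, ∑ i, C (u j i) * X i := by
  have : Infinite Qbar := IsAlgClosed.instInfinite
  refine MvPolynomial.funext fun c' => ?_
  rw [eval_chowPolyAt, hε c']
  simp only [map_mul, map_prod, map_sum, eval_C, eval_X]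
  congr 1
  refine Finset.prod_congr rfl fun j _ => Finset.sum_congr rfl fun i _ => mul_comm _ _

/-- the height identity for the Chow forms. -/
theorem ht_famR_eq (e : I2 ⊕ Fin d ≃ I3) (c : Fin n → Qbar)
    (u : Fin d → Fin n → Qbar) (hu : ∀ j, u j ≠ 0) (ε : (Fin d → I2) → Qbar) (hε0 : ε ≠ 0)
    (hε : ∀ sel c', chowVal (gTab P0 b β τ) e sel c c' = ε sel * ∏ j, ∑ i, c' i * u j i) :
    ht (fun j => eval c (famR P0 b β τ e j)) =
      ht ε + ht (coeffVec (∏ j, ∑ i, C (u j i) * X i : MvPolynomial (Fin n) Qbar)) := by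
  classical
  set G : MvPolynomial (Fin n) Qbar := ∏ j, ∑ i, C (u j i) * X i with hG
  have hpoly := fun sel => chowPolyAt_eq P0 b β τ e sel c u (ε sel) (hε sel)
  have hG0 : G ≠ 0 := prodLin_ne_zero hu
  obtain ⟨sel0, hsel0⟩ := Function.ne_iff.mp hε0
  have hS : G.support ⊆ suppR P0 b β τ e := by
    intro s hs
    rw [suppR, Finset.mem_biUnion]
    refine ⟨sel0, Finset.mem_univ _, ?_⟩
    rw [MvPolynomial.mem_support_iff]
    intro h0
    have h1 : coeff s (chowPolyAt (gTab P0 b β τ) e sel0 c) = 0 := by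
      rw [coeff_chowPolyAt, chowCoeff, h0, map_zero]
    rw [hpoly sel0, coeff_C_mul] at h1
    rcases mul_eq_zero.mp h1 with h | h
    · exact hsel0 h
    · exact (mem_support_iff.mp hs) h
  rw [← ht_segre_coeff (suppR P0 b β τ e) hε0 hG0 hS]
  congr 1
  funext j
  rw [famR, ← coeff_chowPolyAt, hpoly j.1, coeff_C_mul]

/-- the wedge vectors of the adjunction identity. -/
noncomputable def wv [DecidableEq (Place Qbar F)] (z : Fin d → Place Qbar F) (y : Place Qbar F)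
    {t : F} (ht : y.ord t = 1) : Fin d → Fin n × Fin n → Qbar :=
  fun j => if z j = y then
      (fun a => dpt (lHyp_of_isGen hx) P0 d ht0 b y ht a.1 * pt (lHyp_of_isGen hx) P0 d ht0 b y a.2 -
        dpt (lHyp_of_isGen hx) P0 d ht0 b y ht a.2 * pt (lHyp_of_isGen hx) P0 d ht0 b y a.1)
    else (fun a => pt (lHyp_of_isGen hx) P0 d ht0 b y a.1 * pt (lHyp_of_isGen hx) P0 d ht0 b (z j) a.2 -
        pt (lHyp_of_isGen hx) P0 d ht0 b y a.2 * pt (lHyp_of_isGen hx) P0 d ht0 b (z j) a.1)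

theorem wv_ne_zero [DecidableEq (Place Qbar F)] (hd : 2 * (genus Qbar F : ℤ) + 1 ≤ d)
    (z : Fin d → Place Qbar F) (y : Place Qbar F) {t : F} (ht : y.ord t = 1) (j : Fin d) :
    wv hx P0 ht0 b z y ht j ≠ 0 := by
  by_cases hj : z j = y
  · simp only [wv, if_pos hj]
    have h1 := wedge_ne_zero (pt_dpt_indep hx P0 ht0 b hd y ht)
    intro h0
    apply h1
    funext a
    have := congrFun h0 a
    simp only [Pi.zero_apply] at this ⊢
    linear_combination -this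
  · simp only [wv, if_neg hj]
    exact wedge_ne_zero (pt_indep hx P0 ht0 b hd (Ne.symm hj))

/-- the adjunction identity as a polynomial identity. -/
theorem dPolyAt_eq [DecidableEq (Place Qbar F)] (e : I2 ⊕ Fin d ≃ I3)
    (β2 : I2 → MvPolynomial (Fin n) Qbar) (τ3 : I3 → MvPolynomial (Fin n) Qbar)
    (hADJ : AdjId hx P0 ht0 b β τ e β2 τ3) (sel : Fin d → I2) {c : Fin n → Qbar} (hc : c ≠ 0)
    (z : Fin d → Place Qbar F)
    (hz : hyp (lHyp_of_isGen hx) P0 d b hc = ∑ j, Finsupp.single (z j) 1) (ε : Qbar)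
    (hε : ∀ c' : Fin n → Qbar, chowVal (gTab P0 b β τ) e sel c c' =
      ε * ∏ j, ∑ i, c' i * pt (lHyp_of_isGen hx) P0 d ht0 b (z j) i)
    (y : Place Qbar F) {t : F} (ht : y.ord t = 1) (r : I3) :
    C (Fermat.Agent.MW.EMB.Lead6.lcSec (lHyp_of_isGen hx) P0 d t0 y t
        ((lin P0 d b c : Lm P0 d) : F)) *
      dPolyAt (gTab P0 b β τ) e sel β2 r c (pt (lHyp_of_isGen hx) P0 d ht0 b y) =
    C (eval (pt (lHyp_of_isGen hx) P0 d ht0 b y) (τ3 r) * ε) *
      ∏ j, ∑ p, C (wv hx P0 ht0 b z y ht j p) * X p := by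
  have : Infinite Qbar := IsAlgClosed.instInfinite
  refine MvPolynomial.funext fun W => ?_
  rw [map_mul, eval_C, eval_dPolyAt, hADJ sel hc z hz ε hε y ht r W]
  simp only [map_mul, map_prod, map_sum, eval_C, eval_X]
  congr 1
  refine Finset.prod_congr rfl fun j _ => ?_
  by_cases hj : z j = y
  · simp only [wv, if_pos hj]
    exact Finset.sum_congr rfl fun a _ => mul_comm _ _
  · simp only [wv, if_neg hj]
    exact Finset.sum_congr rfl fun a _ => mul_comm _ _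

include hx in
/-- the height identity for the Cramer quotient forms. -/
theorem ht_famD_eq [DecidableEq (Place Qbar F)] (hd : 2 * (genus Qbar F : ℤ) + 1 ≤ d)
    (e : I2 ⊕ Fin d ≃ I3)
    (β2 : I2 → MvPolynomial (Fin n) Qbar) (τ3 : I3 → MvPolynomial (Fin n) Qbar)
    (hτ3 : ∀ r, (τ3 r).IsHomogeneous 3)
    (hτ3' : ∀ r, formFn P0 d b (τ3 r) = ((τ r : Lm P0 (d + (d + d))) : F))
    (hADJ : AdjId hx P0 ht0 b β τ e β2 τ3) {c : Fin n → Qbar} (hc : c ≠ 0)
    (z : Fin d → Place Qbar F)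
    (hz : hyp (lHyp_of_isGen hx) P0 d b hc = ∑ j, Finsupp.single (z j) 1)
    (ε : (Fin d → I2) → Qbar) (hε0 : ε ≠ 0)
    (hε : ∀ sel c', chowVal (gTab P0 b β τ) e sel c c' =
      ε sel * ∏ j, ∑ i, c' i * pt (lHyp_of_isGen hx) P0 d ht0 b (z j) i)
    (y : Place Qbar F) {t : F} (hty : y.ord t = 1) :
    ht (fun j => eval (Sum.elim c (pt (lHyp_of_isGen hx) P0 d ht0 b y)) (famD P0 b β τ e β2 j)) =
      ht ε + ht (fun r => eval (pt (lHyp_of_isGen hx) P0 d ht0 b y) (τ3 r)) +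
        ht (coeffVec (∏ j, ∑ p, C (wv hx P0 ht0 b z y hty j p) * X p :
          MvPolynomial (Fin n × Fin n) Qbar)) := by
  classical
  have hg0 : (0 : ℤ) ≤ genus Qbar F := by positivity
  set Y := pt (lHyp_of_isGen hx) P0 d ht0 b y with hY
  set G : MvPolynomial (Fin n × Fin n) Qbar := ∏ j, ∑ p, C (wv hx P0 ht0 b z y hty j p) * X p
    with hG
  set T : I3 → Qbar := fun r => eval Y (τ3 r) with hT
  set a := Fermat.Agent.MW.EMB.Lead6.lcSec (lHyp_of_isGen hx) P0 d t0 y t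
    ((lin P0 d b c : Lm P0 d) : F) with ha
  have ha0 : a ≠ 0 :=
    Fermat.Agent.MW.EMB.Lead6.lcSec_ne_zero _ P0 d ht0 y hty (lin_ne_zero P0 d b hc)
  have hpoly := fun sel r =>
    dPolyAt_eq hx P0 ht0 b β τ e β2 τ3 hADJ sel hc z hz (ε sel) (hε sel) y hty r
  have hG0 : G ≠ 0 := prodLin_ne_zero (wv_ne_zero hx P0 ht0 b hd z y hty)
  obtain ⟨sel0, hsel0⟩ := Function.ne_iff.mp hε0
  obtain ⟨r0, hr0⟩ := exists_tau_ne_zero hx P0 ht0 b τ (by omega) τ3 hτ3 hτ3' y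
  have hT0 : T ≠ 0 := fun h0 => hr0 (congrFun h0 r0)
  have hS : G.support ⊆ suppD P0 b β τ e β2 := by
    intro s hs
    rw [suppD, Finset.mem_biUnion]
    refine ⟨(sel0, r0), Finset.mem_univ _, ?_⟩
    rw [MvPolynomial.mem_support_iff]
    intro h0
    have h1 : coeff s (C a * dPolyAt (gTab P0 b β τ) e sel0 β2 r0 c Y) = 0 := by
      rw [coeff_C_mul, coeff_dPolyAt, dCoeff, h0, map_zero, mul_zero]
    rw [hpoly sel0 r0, coeff_C_mul] at h1
    rcases mul_eq_zero.mp h1 with h | h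
    · rcases mul_eq_zero.mp h with h' | h'
      · exact hr0 h'
      · exact hsel0 h'
    · exact (mem_support_iff.mp hs) h
  have hεT : (fun p : (Fin d → I2) × I3 => ε p.1 * T p.2) ≠ 0 := by
    intro h0
    have := congrFun h0 (sel0, r0)
    simp only [Pi.zero_apply] at this
    rcases mul_eq_zero.mp this with h | h
    · exact hsel0 h
    · exact hr0 h
  have h1 := ht_segre_coeff (suppD P0 b β τ e β2) hεT hG0 hS
  rw [ht_fun_mul hε0 hT0] at h1
  rw [← h1, ← ht_smul _ ha0]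
  congr 1
  funext j
  have h2 := congrArg (coeff j.2.1) (hpoly j.1.1 j.1.2)
  rw [coeff_C_mul, coeff_C_mul, coeff_dPolyAt] at h2
  rw [Pi.smul_apply, smul_eq_mul, famD, h2]
  ring

end RR


section RR2

variable {F : Type*} [Field F] [Algebra Qbar F]
variable {x : F} [HasCanonicalDivisor (K := Qbar) (F := F)]
variable (hx : IsGen Qbar x) (P0 : Place Qbar F) {d : ℕ} {t0 : F} (ht0 : P0.ord t0 = 1) {n : ℕ}
  (b : Module.Basis (Fin n) Qbar (Lm P0 d))
  {I2 I3 : Type*} [Fintype I2] [Fintype I3] [DecidableEq I2] [DecidableEq I3]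
  (β : Module.Basis I2 Qbar (Lm P0 (d + d))) (τ : Module.Basis I3 Qbar (Lm P0 (d + (d + d))))

include hx in
/-- the height of the vector of cubic forms `τ3` at `pt y` is `3 · ht (pt y) + O(1)`. -/
theorem ht_tau (hd : 4 * (genus Qbar F : ℤ) ≤ d) (τ3 : I3 → MvPolynomial (Fin n) Qbar)
    (hτ3 : ∀ r, (τ3 r).IsHomogeneous 3)
    (hτ3' : ∀ r, formFn P0 d b (τ3 r) = ((τ r : Lm P0 (d + (d + d))) : F)) :
    ∃ C : ℝ, ∀ y : Place Qbar F,
      |ht (fun r => eval (pt (lHyp_of_isGen hx) P0 d ht0 b y) (τ3 r)) -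
        3 * ht (pt (lHyp_of_isGen hx) P0 d ht0 b y)| ≤ C := by
  have hg0 : (0 : ℤ) ≤ genus Qbar F := by positivity
  obtain ⟨M, q, hq, hid⟩ := Fermat.Agent.MW.EMB.Cert6.exists_certificate hx P0 ht0 hd b τ3 hτ3
    (fun v => exists_tau_ne_zero hx P0 ht0 b τ (by omega) τ3 hτ3 hτ3' v)
  obtain ⟨C1, hC1⟩ := ht_eval_le τ3 hτ3
  obtain ⟨C2, hC2⟩ := ht_eval_ge 3 q hq
  refine ⟨max C1 C2, fun y => ?_⟩
  have h1 := hC1 (pt (lHyp_of_isGen hx) P0 d ht0 b y)
  have h2 := hC2 τ3 (pt (lHyp_of_isGen hx) P0 d ht0 b y) (fun k => hid y k)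
  push_cast at h1 h2
  rw [abs_le]
  constructor
  · have := le_max_right C1 C2
    linarith
  · have := le_max_left C1 C2
    linarith

include hx in
/-- the height of the vector of Cramer quotient forms at `(c, pt y)`. -/
theorem ht_famD [DecidableEq (Place Qbar F)] (hd : 4 * (genus Qbar F : ℤ) ≤ d) (hd0 : 0 < d)
    (e : I2 ⊕ Fin d ≃ I3) (β2 : I2 → MvPolynomial (Fin n) Qbar)
    (hβ2 : ∀ q, (β2 q).IsHomogeneous 2)
    (τ3 : I3 → MvPolynomial (Fin n) Qbar) (hτ3 : ∀ r, (τ3 r).IsHomogeneous 3)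
    (hτ3' : ∀ r, formFn P0 d b (τ3 r) = ((τ r : Lm P0 (d + (d + d))) : F))
    (hADJ : AdjId hx P0 ht0 b β τ e β2 τ3) :
    ∃ C : ℝ, ∀ (c : Fin n → Qbar), c ≠ 0 → ∀ y : Place Qbar F,
      |ht (fun j => eval (Sum.elim c (pt (lHyp_of_isGen hx) P0 d ht0 b y))
          (famD P0 b β τ e β2 j)) -
        (((Fintype.card I2 - 1 : ℕ) : ℝ) * ht c +
          ((d + 2 : ℕ) : ℝ) * ht (pt (lHyp_of_isGen hx) P0 d ht0 b y))| ≤ C := by
  have hg0 : (0 : ℤ) ≤ genus Qbar F := by positivity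
  obtain ⟨M, q, hq, hid⟩ := cert_D hx P0 ht0 b β τ hd hd0 e β2 hβ2 τ3 hτ3 hτ3' hADJ
  obtain ⟨C1, hC1⟩ := Fermat.Agent.MW.HT.BiGlob5.ht_eval_le_bi (N₁ := Fintype.card I2 - 1)
    (N₂ := Fintype.card (Fin d) + 2) (famD P0 b β τ e β2)
    (fun j => dCoeff_homogeneous _ e j.1.1 β2 hβ2 j.1.2 j.2.1)
  obtain ⟨C2, hC2⟩ := Fermat.Agent.MW.HT.BiGlob5.ht_eval_ge_bi (Fintype.card I2 - 1) (Fintype.card (Fin d) + 2) q hq
  refine ⟨max C1 C2, fun c hc y => ?_⟩
  have hY0 := pt_ne_zero hx P0 ht0 b (by omega : 2 * (genus Qbar F : ℤ) ≤ d) y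
  have h1 := hC1 c (pt (lHyp_of_isGen hx) P0 d ht0 b y)
  have hmem : Sum.elim c (pt (lHyp_of_isGen hx) P0 d ht0 b y) ∈ coneD hx P0 ht0 b :=
    ⟨y, 1, by simp⟩
  have h2 := hC2 (famD P0 b β τ e β2) c (pt (lHyp_of_isGen hx) P0 d ht0 b y) hc hY0
    (fun k => hid _ hmem k)
  rw [Fintype.card_fin] at h1 h2
  rw [abs_le]
  constructor
  · have := le_max_right C1 C2
    linarith
  · have := le_max_left C1 C2
    linarith

end RR2

section Final

variable {F : Type*} [Field F] [Algebra Qbar F]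
variable {x : F} [HasCanonicalDivisor (K := Qbar) (F := F)]
variable (hx : IsGen Qbar x) (P0 : Place Qbar F) {d : ℕ} {t0 : F} (ht0 : P0.ord t0 = 1) {n : ℕ}
  (b : Module.Basis (Fin n) Qbar (Lm P0 d))
  {I2 I3 : Type*} [Fintype I2] [Fintype I3] [DecidableEq I2] [DecidableEq I3]
  (β : Module.Basis I2 Qbar (Lm P0 (d + d))) (τ : Module.Basis I3 Qbar (Lm P0 (d + (d + d))))

open Fermat.Agent.MW.POS.HadLoc9 (Unif) in
open Fermat.Agent.MW.POS.HadGlob9 (lamT lamO lamD) in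
/-- `lamT` in terms of the wedge vectors of the adjunction identity. -/
theorem lamT_eq_wv [DecidableEq (Place Qbar F)] (tu : Unif F) (z : Fin d → Place Qbar F)
    (y : Place Qbar F) (j : Fin d) :
    lamT (lHyp_of_isGen hx) P0 d ht0 b tu (z j) y =
      ht (pt (lHyp_of_isGen hx) P0 d ht0 b (z j)) + ht (pt (lHyp_of_isGen hx) P0 d ht0 b y) -
        ht (wv hx P0 ht0 b z y (tu y).2 j) := by
  by_cases hj : z j = y
  · simp only [lamT, if_pos hj, wv, lamD]
    have h := Fermat.Agent.MW.HT.GlobUD3.ht_wedge2_comm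
      (dpt (lHyp_of_isGen hx) P0 d ht0 b y (tu y).2) (pt (lHyp_of_isGen hx) P0 d ht0 b y)
    have h' : ht (Fermat.Agent.MW.POS.HadLoc9.wedge2 (pt (lHyp_of_isGen hx) P0 d ht0 b y)
        (dpt (lHyp_of_isGen hx) P0 d ht0 b y (tu y).2)) =
        ht (fun a : Fin n × Fin n => dpt (lHyp_of_isGen hx) P0 d ht0 b y (tu y).2 a.1 *
          pt (lHyp_of_isGen hx) P0 d ht0 b y a.2 -
          dpt (lHyp_of_isGen hx) P0 d ht0 b y (tu y).2 a.2 *
            pt (lHyp_of_isGen hx) P0 d ht0 b y a.1) := h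
    rw [h', hj]
    ring
  · simp only [lamT, if_neg hj, wv, lamO]
    have h := Fermat.Agent.MW.HT.GlobUD3.ht_wedge2_comm
      (pt (lHyp_of_isGen hx) P0 d ht0 b y) (pt (lHyp_of_isGen hx) P0 d ht0 b (z j))
    have h' : ht (Fermat.Agent.MW.POS.HadLoc9.wedge2 (pt (lHyp_of_isGen hx) P0 d ht0 b (z j))
        (pt (lHyp_of_isGen hx) P0 d ht0 b y)) =
        ht (fun a : Fin n × Fin n => pt (lHyp_of_isGen hx) P0 d ht0 b y a.1 *
          pt (lHyp_of_isGen hx) P0 d ht0 b (z j) a.2 -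
          pt (lHyp_of_isGen hx) P0 d ht0 b y a.2 *
            pt (lHyp_of_isGen hx) P0 d ht0 b (z j) a.1) := h
    rw [h']

open Fermat.Agent.MW.POS.HadLoc9 (Unif) in
open Fermat.Agent.MW.POS.HadGlob9 (lamT) in
include hx in
/-- **Global uniform decomposition for hyperplane sections**, enumerated form, relative to a choice
of the auxiliary data `(β, τ, e, β2, τ3)`. -/
theorem ud_enum_aux [DecidableEq (Place Qbar F)] (hd : 4 * (genus Qbar F : ℤ) ≤ d) (hd0 : 0 < d)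
    (e : I2 ⊕ Fin d ≃ I3) (β2 : I2 → MvPolynomial (Fin n) Qbar)
    (hβ2 : ∀ q, (β2 q).IsHomogeneous 2)
    (τ3 : I3 → MvPolynomial (Fin n) Qbar) (hτ3 : ∀ r, (τ3 r).IsHomogeneous 3)
    (hτ3' : ∀ r, formFn P0 d b (τ3 r) = ((τ r : Lm P0 (d + (d + d))) : F))
    (hADJ : AdjId hx P0 ht0 b β τ e β2 τ3) (tu : Unif F) :
    ∃ C : ℝ, ∀ (c : Fin n → Qbar) (hc : c ≠ 0) (z : Fin d → Place Qbar F),
      hyp (lHyp_of_isGen hx) P0 d b hc = ∑ j, Finsupp.single (z j) 1 → ∀ y : Place Qbar F,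
      |∑ j, lamT (lHyp_of_isGen hx) P0 d ht0 b tu (z j) y -
        (ht c + ht (pt (lHyp_of_isGen hx) P0 d ht0 b y))| ≤ C := by
  have hg0 : (0 : ℤ) ≤ genus Qbar F := by positivity
  have hd2 : 2 * (genus Qbar F : ℤ) ≤ d := by omega
  have hd21 : 2 * (genus Qbar F : ℤ) + 1 ≤ d := by omega
  obtain ⟨CR, hCR⟩ := ht_famR hx P0 ht0 b β τ hd2 hd0 e
  obtain ⟨B1, hB1⟩ := ht_gauss d n
  obtain ⟨CD, hCD⟩ := ht_famD hx P0 ht0 b β τ hd hd0 e β2 hβ2 τ3 hτ3 hτ3' hADJ
  obtain ⟨B2, hB2⟩ := ht_gaussG d (Fin n × Fin n)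
  obtain ⟨CT, hCT⟩ := ht_tau hx P0 ht0 b τ hd τ3 hτ3 hτ3'
  refine ⟨CR + B1 + CD + B2 + CT, fun c hc z hz y => ?_⟩
  obtain ⟨ε, hε0, hε⟩ := exists_eps hx P0 ht0 b β τ hd2 hd0 e hc z hz
  have hI2 : 1 ≤ Fintype.card I2 := by
    obtain ⟨sel0, -⟩ := Function.ne_iff.mp hε0
    exact Fintype.card_pos_iff.mpr ⟨sel0 ⟨0, hd0⟩⟩
  have hpt0 : ∀ v, pt (lHyp_of_isGen hx) P0 d ht0 b v ≠ 0 := pt_ne_zero hx P0 ht0 b hd2
  have hR1 := hCR c
  have hR2 := ht_famR_eq P0 b β τ e c (fun j => pt (lHyp_of_isGen hx) P0 d ht0 b (z j))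
    (fun j => hpt0 (z j)) ε hε0 hε
  have hR3 := hB1 (fun j => pt (lHyp_of_isGen hx) P0 d ht0 b (z j)) (fun j => hpt0 (z j))
  have hD1 := hCD c hc y
  have hD2 := ht_famD_eq hx P0 ht0 b β τ hd21 e β2 τ3 hτ3 hτ3' hADJ hc z hz ε hε0 hε y (tu y).2
  have hD3 := hB2 (wv hx P0 ht0 b z y (tu y).2) (wv_ne_zero hx P0 ht0 b hd21 z y (tu y).2)
  have hT := hCT y
  have hlam : ∑ j, lamT (lHyp_of_isGen hx) P0 d ht0 b tu (z j) y =
      ∑ j, ht (pt (lHyp_of_isGen hx) P0 d ht0 b (z j)) +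
        d * ht (pt (lHyp_of_isGen hx) P0 d ht0 b y) -
        ∑ j, ht (wv hx P0 ht0 b z y (tu y).2 j) := by
    rw [Finset.sum_congr rfl fun j _ => lamT_eq_wv hx P0 ht0 b tu z y j]
    rw [Finset.sum_sub_distrib, Finset.sum_add_distrib, Finset.sum_const, Finset.card_univ,
      Fintype.card_fin, nsmul_eq_mul]
  have hcast : ((Fintype.card I2 - 1 : ℕ) : ℝ) = (Fintype.card I2 : ℝ) - 1 := by
    rw [Nat.cast_sub hI2, Nat.cast_one]
  rw [hcast] at hD1
  push_cast at hD1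
  rw [hlam]
  rw [abs_le] at hR1 hR3 hD1 hD3 hT ⊢
  constructor <;> nlinarith [hR1.1, hR1.2, hR3.1, hR3.2, hD1.1, hD1.2, hD3.1, hD3.2, hT.1, hT.2]

open Fermat.Agent.MW.POS.HadLoc9 (Unif) in
open Fermat.Agent.MW.POS.HadGlob9 (lamT) in
include hx in
/-- **Global uniform decomposition for hyperplane sections** (enumerated form): for all `c ≠ 0`, all
enumerations `z` of the hyperplane section `hyp c` and ALL places `y`,
`∑_j lamT tu (z_j) y = ht c + ht (pt y) + O(1)`. -/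
theorem ud_enum [DecidableEq (Place Qbar F)] (hd : 4 * (genus Qbar F : ℤ) ≤ d) (hd0 : 0 < d)
    (tu : Unif F) :
    ∃ C : ℝ, ∀ (c : Fin n → Qbar) (hc : c ≠ 0) (z : Fin d → Place Qbar F),
      hyp (lHyp_of_isGen hx) P0 d b hc = ∑ j, Finsupp.single (z j) 1 → ∀ y : Place Qbar F,
      |∑ j, lamT (lHyp_of_isGen hx) P0 d ht0 b tu (z j) y -
        (ht c + ht (pt (lHyp_of_isGen hx) P0 d ht0 b y))| ≤ C := by
  classical
  have hg0 : (0 : ℤ) ≤ genus Qbar F := by positivity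
  have := Fermat.Agent.RR.RRMain.finiteDimensional_L hx (mP P0 (d + d))
  have := Fermat.Agent.RR.RRMain.finiteDimensional_L hx (mP P0 (d + (d + d)))
  have hf2 := finrank_Lm hx P0 (m := d + d) (by push_cast; omega)
  have hf3 := finrank_Lm hx P0 (m := d + (d + d)) (by push_cast; omega)
  set β := Module.finBasis Qbar (Lm P0 (d + d)) with hβ
  set τ := Module.finBasis Qbar (Lm P0 (d + (d + d))) with hτ
  have hcard : Fintype.card (Fin (Module.finrank Qbar (Lm P0 (d + d))) ⊕ Fin d) =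
      Fintype.card (Fin (Module.finrank Qbar (Lm P0 (d + (d + d))))) := by
    rw [Fintype.card_sum, Fintype.card_fin, Fintype.card_fin, Fintype.card_fin]
    push_cast at hf2 hf3
    omega
  set e := Fintype.equivOfCardEq hcard with he
  have h2 := fun q => exists_form hx P0 hd b (f := ((β q : Lm P0 (d + d)) : F)) (e := 2)
    (by rw [two_mul]; exact (β q).2)
  choose β2 hβ2 hβ2' using h2
  have h3 := fun r => exists_form hx P0 hd b (f := ((τ r : Lm P0 (d + (d + d))) : F)) (e := 3)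
    (by rw [show 3 * d = d + (d + d) by ring]; exact (τ r).2)
  choose τ3 hτ3 hτ3' using h3
  have hADJ : AdjId hx P0 ht0 b β τ e β2 τ3 := fun sel c hc z hz ε hε y t hty r W =>
    Fermat.Agent.MW.CHOW.ChowAdj6.adj_identity (lHyp_of_isGen hx) P0 ht0 b β τ e sel β2 hβ2 hβ2'
      τ3 hτ3 hτ3' hc z hz ε hε y hty r W
  exact ud_enum_aux hx P0 ht0 b β τ hd hd0 e β2 hβ2 τ3 hτ3 hτ3' hADJ tu

open Fermat.Agent.MW.POS.HadLoc9 (Unif) in
open Fermat.Agent.MW.POS.HadGlob9 (lamT) in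
open Fermat.Agent.MW.PAIR.Pairing4 Fermat.Agent.MW.PAIR.PairingB4 in
include hx in
/-- **(I1)/(U): the global uniform decomposition for principal divisors of bounded size.** -/
theorem udle_lamT [DecidableEq (Place Qbar F)] (hd : 4 * (genus Qbar F : ℤ) ≤ d) (hd0 : 0 < d)
    (tu : Unif F) {M : ℕ} (hM : (M : ℤ) + 4 * (genus Qbar F : ℤ) ≤ 2 * d) :
    UDle (lamT (lHyp_of_isGen hx) P0 d ht0 b tu) (Divisor.principal (K := Qbar) (F := F)) M := by
  obtain ⟨C, hC⟩ := ud_enum hx P0 ht0 b hd hd0 tu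
  refine Fermat.Agent.MW.CHOW.HypDiff6.udle_of_ud_hyp hx P0 b _ (fun c => ht c)
    (fun y => ht (pt (lHyp_of_isGen hx) P0 d ht0 b y)) ⟨C, fun c hc y => ?_⟩ hM
  obtain ⟨z, hz⟩ := Fermat.Agent.MW.EMB.Enum6.exists_enum (lHyp_of_isGen hx) d
    (hyp_nonneg (lHyp_of_isGen hx) P0 d ht0 b hc) (degree_hyp (lHyp_of_isGen hx) P0 d b hc)
  have h1 := hC c hc z hz y
  rw [hz, Fermat.Agent.MW.CHOW.HypDiff6.ev_sum_single]
  exact h1

end Final

end Fermat.Agent.MW.CHOW.UDglob8
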