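/-
PROGRAMME MW (S17), block CHOW+UD — helper3.  `GlobHyp3`: the GLOBAL uniform decomposition for
hyperplane sections from the LOCAL two-sided one (curve side of (GL)).
* `LocUD2 Cud`: the local two-sided uniform decomposition with multiplicities, in the vocabulary of
  `HadLoc9` (leading coefficient `∑ i, c i * jet y t m i`, `m` = multiplicity of `y` in `hyp c`);
* `ud_hyp`: `|ht c + ht (pt y) - ∑ j, lamT (z j) y| ≤ ∑ log Cud` for every linear form `c ≠ 0`,
  every place `y` and every enumeration `z` of `hyp c`;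
* `ud_hyp_ev`: the same with `ev (lamT tu) (hyp c) y`.
All Galois averaging and the product formula are in `HT.GlobUD3.global_of_local`.
-/
import Mathlib
import Fermat.Agent.MW.POS.HadGlob9
import Fermat.Agent.MW.HT.GlobUD3
import Fermat.Agent.MW.EMB.Enum6
import Fermat.Agent.MW.EMB.Lead6

set_option autoImplicit false
set_option linter.unusedSectionVars false

open AlgebraicCurve

namespace Fermat.Agent.MW.CHOW.GlobHyp3

open Finset
open Fermat.Agent.RR.LSpace
open Fermat.Agent.MW.EMB.Value6 Fermat.Agent.MW.EMB.OnePoint6 Fermat.Agent.MW.EMB.Coord6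
open Fermat.Agent.MW.EMB.Tangent6 Fermat.Agent.MW.EMB.Proj6
open Fermat.Agent.MW.PAIR.Pairing4
open Fermat.Agent.MW.POS.Jet9 Fermat.Agent.MW.POS.HadLoc9 Fermat.Agent.MW.POS.HadGlob9
open Fermat.Agent.MW.HT.Place3 (Qbar GQ absV)
open Fermat.Agent.MW.HT.Ht3 (supN ht)
open Fermat.Agent.MW.HT.Orbit3 (smul_apply)

variable {F : Type*} [Field F] [Algebra Qbar F] [DecidableEq (Place Qbar F)]
variable (H : LHyp Qbar F) (P0 : Place Qbar F) (d : ℕ) {t0 : F} (ht0 : P0.ord t0 = 1) {n : ℕ}
  (b : Module.Basis (Fin n) Qbar (Lm P0 d))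
variable {gal : GQ → SemilinearAut Qbar F}

/-- The local model quantity `‖c‖ ‖pt y‖ ∏_j (kap if z j = y, chi (z j) y otherwise)`. -/
noncomputable def Bud (v : VPl) (c : Fin n → Qbar) (y : Place Qbar F) {t : F} (ht : y.ord t = 1)
    (z : Fin d → Place Qbar F) : ℝ :=
  supN v c * supN v (pt H P0 d ht0 b y) *
    ∏ j, (if z j = y then kap H P0 d ht0 b v y ht else chi H P0 d ht0 b v (z j) y)

/-- **The local TWO-SIDED uniform decomposition with multiplicity** (leading-coefficient form). -/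
def LocUD2 (Cud : VPl → ℝ) : Prop :=
  ∀ (v : VPl) (c : Fin n → Qbar) (hc : c ≠ 0) (y : Place Qbar F) (t : F) (ht : y.ord t = 1)
    (z : Fin d → Place Qbar F), hyp H P0 d b hc = ∑ j, Finsupp.single (z j) 1 →
    (Cud v)⁻¹ * Bud H P0 d ht0 b v c y ht z ≤
        absV v (∑ i, c i * jet H P0 d ht0 b y ht (univ.filter fun j => z j = y).card i) ∧
      absV v (∑ i, c i * jet H P0 d ht0 b y ht (univ.filter fun j => z j = y).card i) ≤
        Cud v * Bud H P0 d ht0 b v c y ht z

theorem sum_single_apply_card (z : Fin d → Place Qbar F) (y : Place Qbar F) :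
    (∑ j, Finsupp.single (z j) (1 : ℤ) : Place Qbar F →₀ ℤ) y =
      ((univ.filter fun j => z j = y).card : ℤ) := by
  rw [Finsupp.finsetSum_apply]
  simp only [Finsupp.single_apply]
  rw [Finset.sum_boole]

theorem wedge2_eq (x y : Fin n → Qbar) :
    Fermat.Agent.MW.HT.GlobUD3.wedge2 x y = wedge2 x y := rfl

/-- The enumeration of the conjugate hyperplane section. -/
theorem hyp_conj_enum (hG : GalEq H P0 d ht0 b gal) (σ : GQ) {c : Fin n → Qbar} (hc : c ≠ 0)
    (hc' : (fun i => σ (c i)) ≠ 0) (z : Fin d → Place Qbar F)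
    (hz : hyp H P0 d b hc = ∑ j, Finsupp.single (z j) 1) :
    hyp H P0 d b hc' = ∑ j, Finsupp.single (gal σ • z j) 1 := by
  ext w
  have hw : w = gal σ • ((gal σ)⁻¹ • w) := (smul_inv_smul _ _).symm
  rw [hw, hG.hyp_smul σ c hc hc', hz, sum_single_apply_card, sum_single_apply_card]
  congr 2
  refine Finset.filter_congr fun j _ => ?_
  rw [(MulAction.injective (gal σ)).eq_iff]

/-- **The global uniform decomposition for hyperplane sections.** -/
theorem ud_hyp (hE : EmbPos H P0 d ht0 b) (hG : GalEq H P0 d ht0 b gal) {Cud : VPl → ℝ}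
    (hUD : LocUD2 H P0 d ht0 b Cud) (hCud : ∀ v, 1 ≤ Cud v)
    (hfin : {v : VPl | Cud v ≠ 1}.Finite) (tu : Unif F) {c : Fin n → Qbar} (hc : c ≠ 0)
    (y : Place Qbar F) (z : Fin d → Place Qbar F)
    (hz : hyp H P0 d b hc = ∑ j, Finsupp.single (z j) 1) :
    |(ht c + ht (pt H P0 d ht0 b y)) - ∑ j, lamT H P0 d ht0 b tu (z j) y|
      ≤ ∑ᶠ v, Real.log (Cud v) := by
  set T : Finset (Fin d) := univ.filter fun j => z j = y with hT
  set m : ℕ := T.card with hm
  have hmul : hyp H P0 d b hc y = m := by rw [hz, sum_single_apply_card]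
  set a : Qbar := ∑ i, c i * jet H P0 d ht0 b y (tu y).2 m i with ha
  have ha0 : a ≠ 0 := sum_mul_jet_ne_zero H P0 d ht0 b hc y (tu y).2 m hmul
  have hmemT : ∀ j, j ∈ T ↔ z j = y := fun j => by rw [hT, mem_filter]; simp
  have key := Fermat.Agent.MW.HT.GlobUD3.global_of_local (κ := Fin n) T Cud hCud hfin
    (a := a) (c := c) (Y := pt H P0 d ht0 b y) (Y' := dpt H P0 d ht0 b y (tu y).2)
    (P := fun j => pt H P0 d ht0 b (z j)) ha0 hc (hE.nz y) (fun j => hE.nz (z j))
    (fun j _ => by rw [wedge2_eq]; exact hE.imm y _ _)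
    (fun j hj => by
      rw [wedge2_eq]
      exact hE.sep (z j) y fun h => hj ((hmemT j).mpr h))
    (fun v σ => ?_)
  · -- rewrite the conclusion
    have hsum : ∑ j, lamT H P0 d ht0 b tu (z j) y =
        ∑ j, (if j ∈ T then 2 * ht (pt H P0 d ht0 b y) -
            ht (Fermat.Agent.MW.HT.GlobUD3.wedge2 (pt H P0 d ht0 b y)
              (dpt H P0 d ht0 b y (tu y).2))
          else ht (pt H P0 d ht0 b (z j)) + ht (pt H P0 d ht0 b y) -
            ht (Fermat.Agent.MW.HT.GlobUD3.wedge2 (pt H P0 d ht0 b (z j))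
              (pt H P0 d ht0 b y))) := by
      refine Finset.sum_congr rfl fun j _ => ?_
      by_cases hj : z j = y
      · rw [if_pos ((hmemT j).mpr hj), lamT, if_pos hj, lamD, wedge2_eq]
      · rw [if_neg (fun h => hj ((hmemT j).mp h)), lamT, if_neg hj, lamO, wedge2_eq]
    rw [hsum]
    exact key
  -- the local estimate for the conjugate configuration
  have hc' : (fun i => σ (c i)) ≠ 0 := by
    intro h
    apply hc
    funext i
    have := congrFun h i
    exact (map_eq_zero σ).mp this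
  have hz' := hyp_conj_enum H P0 d ht0 b hG σ hc hc' z hz
  have hT' : (univ.filter fun j => gal σ • z j = gal σ • y) = T := by
    rw [hT]
    refine Finset.filter_congr fun j _ => ?_
    rw [(MulAction.injective (gal σ)).eq_iff]
  have hloc := hUD v (fun i => σ (c i)) hc' (gal σ • y) _
    (conjUnif gal σ tu (gal σ • y)).2 (fun j => gal σ • z j) hz'
  rw [hT'] at hloc
  -- the leading coefficient of the conjugate
  have hlead : ∑ i, σ (c i) * jet H P0 d ht0 b (gal σ • y) (conjUnif gal σ tu (gal σ • y)).2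
      m i = σ a := by
    rw [ha, map_sum]
    refine Finset.sum_congr rfl fun i _ => ?_
    rw [map_mul, jet_conj H P0 d ht0 b hG]
  rw [hlead] at hloc
  -- the model quantity of the conjugate
  have hpt : ∀ w : Place Qbar F, pt H P0 d ht0 b (gal σ • w) = σ • pt H P0 d ht0 b w := by
    intro w
    funext i
    rw [smul_apply, pt_conj H P0 d ht0 b hG]
  have hdpt : dpt H P0 d ht0 b (gal σ • y) (conjUnif gal σ tu (gal σ • y)).2 =
      σ • dpt H P0 d ht0 b y (tu y).2 := by
    funext i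
    rw [smul_apply, dpt_conj H P0 d ht0 b hG]
  have hB : Bud H P0 d ht0 b v (fun i => σ (c i)) (gal σ • y)
      (conjUnif gal σ tu (gal σ • y)).2 (fun j => gal σ • z j) =
      Fermat.Agent.MW.HT.GlobUD3.Bloc v T (σ • c) (σ • pt H P0 d ht0 b y)
        (σ • dpt H P0 d ht0 b y (tu y).2) (fun j => σ • pt H P0 d ht0 b (z j)) := by
    rw [Bud, Fermat.Agent.MW.HT.GlobUD3.Bloc, hpt y]
    congr 1
    refine Finset.prod_congr rfl fun j _ => ?_
    by_cases hj : z j = y
    · rw [if_pos ((hmemT j).mpr hj), if_pos (by rw [hj]), kap, hpt y, hdpt, wedge2_eq]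
    · rw [if_neg (fun h => hj ((hmemT j).mp h)),
        if_neg (fun h => hj ((MulAction.injective (gal σ)) h)), chi, hpt y, hpt (z j), wedge2_eq]
  rw [hB] at hloc
  exact hloc

theorem ev_sum_single (lam : Place Qbar F → Place Qbar F → ℝ) (z : Fin d → Place Qbar F)
    (y : Place Qbar F) :
    ev lam (∑ j, Finsupp.single (z j) (1 : ℤ)) y = ∑ j, lam (z j) y := by
  show Finsupp.linearCombination ℤ (fun z => lam z y) (∑ j, Finsupp.single (z j) (1 : ℤ)) = _
  rw [map_sum]
  refine Finset.sum_congr rfl fun j _ => ?_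
  rw [Finsupp.linearCombination_single, one_smul]

/-- **The global uniform decomposition for hyperplane sections**, in the pairing vocabulary:
`ev (lamT tu) (hyp c) y = ht c + ht (pt y) + O(1)` uniformly in the linear form `c` and the
place `y` (including `y ∈ supp (hyp c)`, with multiplicities). -/
theorem ud_hyp_ev (hE : EmbPos H P0 d ht0 b) (hG : GalEq H P0 d ht0 b gal) {Cud : VPl → ℝ}
    (hUD : LocUD2 H P0 d ht0 b Cud) (hCud : ∀ v, 1 ≤ Cud v)
    (hfin : {v : VPl | Cud v ≠ 1}.Finite) (tu : Unif F) {c : Fin n → Qbar} (hc : c ≠ 0)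
    (y : Place Qbar F) :
    |ev (lamT H P0 d ht0 b tu) (hyp H P0 d b hc) y - (ht c + ht (pt H P0 d ht0 b y))|
      ≤ ∑ᶠ v, Real.log (Cud v) := by
  obtain ⟨z, hz⟩ := Fermat.Agent.MW.EMB.Enum6.exists_enum H d (hyp_nonneg H P0 d ht0 b hc)
    (degree_hyp H P0 d b hc)
  have h := ud_hyp H P0 d ht0 b hE hG hUD hCud hfin tu hc y z hz
  rw [hz, ev_sum_single, abs_sub_comm]
  exact h

/-- Bridge to `Lead6.lcSec`: the leading coefficient of the linear form `c` at a point `y` of
multiplicity `m` of its hyperplane section is `∑ i, c i * jet y t m i`. -/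
theorem lcSec_lin_eq_sum_jet {c : Fin n → Qbar} (hc : c ≠ 0) (y : Place Qbar F) {t : F}
    (ht : y.ord t = 1) (m : ℕ) (hm : hyp H P0 d b hc y = m) :
    Fermat.Agent.MW.EMB.Lead6.lcSec H P0 d t0 y t ((lin P0 d b c : Lm P0 d) : F) =
      ∑ i, c i * jet H P0 d ht0 b y ht m i := by
  have hlin0 := lin_ne_zero P0 d b hc
  have hord : ordSec P0 d t0 y ((lin P0 d b c : Lm P0 d) : F) = m := by
    rw [← hyp_apply H P0 d ht0 b hc y, hm]
  have hLv : ∀ j < m, jev H P0 d ht0 y ht j (lin P0 d b c) = 0 := by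
    intro j hj
    exact (le_ordSec_iff H P0 d ht0 y ht (lin P0 d b c) hlin0 m).mp (by rw [hord]) j hj
  rw [Fermat.Agent.MW.EMB.Lead6.lcSec_eq_valF H P0 d t0 y t _ hord,
    ← jev_eq_valF_div H P0 d ht0 y ht (lin P0 d b c) m hLv, jev_lin]

end Fermat.Agent.MW.CHOW.GlobHyp3
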