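/-
PROGRAMME MW (S17), block CHOW+UD (helper6).  `JetMap6`: the JET MAP along an effective divisor.

Setting: `H : LHyp K F` (+ RR for the surjectivity), `P0`, `t0` a uniformizer at `P0`.

* `secDiv H P0 m hs := div s + m·P0`, the zero divisor of a nonzero section `s` of `O(m·P0)`;
  `secDiv_apply`, `secDiv_nonneg`, `degree_secDiv`,
  `mem_L_sub_secDiv_iff : f ∈ L((m+a)·P0 - Z_s) ↔ ∃ g ∈ L(a·P0), f = s * g`;
* `JIdx Z := Σ z : ↥Z.support, Fin (Z z).toNat`, `card_JIdx : card = deg Z` (`0 ≤ Z`);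
* `jetMap H P0 m ht0 Z : Lm P0 m →ₗ[K] (JIdx Z → K)`, `f ↦ (jev z (unif z) i f)_(z,i)`;
  `mem_ker_jetMap_iff : f ∈ ker ↔ f ∈ L(m·P0 - Z)`;
  `jetMap_surjective` (RR, `2g - 1 ≤ m - deg Z`);
* `toep H P0 a ht0 Z ℓ : Matrix (JIdx Z) (JIdx Z) K`, block diagonal with lower triangular Toeplitz
  blocks built from the jets of `ℓ ∈ L(a·P0)`; `jetMap_mul : jetMap (a+m) (ℓ f) = toep ℓ *ᵥ jetMap m f`,
  `det_toep : det (toep ℓ) = ∏ z ∈ Z.support, (ev z ℓ) ^ (Z z).toNat`.
-/
import Mathlib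
import Fermat.Agent.MW.CHOW.JetMul6
import Fermat.Agent.MW.EMB.Cert6

set_option autoImplicit false
set_option linter.unusedSectionVars false

open AlgebraicCurve

namespace Fermat.Agent.MW.CHOW.JetMap6

open Fermat.Agent.X0.FF Fermat.Agent.RR.LSpace Fermat.Agent.RR.LHypGen
open Fermat.Agent.MW.EMB.Value6 Fermat.Agent.MW.EMB.OnePoint6 Fermat.Agent.MW.EMB.Coord6
open Fermat.Agent.MW.EMB.Tangent6 Fermat.Agent.MW.EMB.Lead6 Fermat.Agent.MW.POS.Jet9
open Fermat.Agent.MW.CHOW.JetMul6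

open scoped Classical

variable {K F : Type*} [Field K] [Field F] [Algebra K F]

/-! ### The zero divisor of a section -/

/-- The zero divisor `div s + m·P0` of a nonzero section `s` of `O(m·P0)`. -/
noncomputable def secDiv (H : LHyp K F) (P0 : Place K F) (m : ℕ) {s : F} (hs : s ≠ 0) :
    Divisor K F :=
  divOf H hs + mP P0 m

theorem secDiv_apply (H : LHyp K F) (P0 : Place K F) (m : ℕ) {t0 : F} (ht0 : P0.ord t0 = 1)
    {s : F} (hs : s ≠ 0) (v : Place K F) :
    secDiv H P0 m hs v = ordSec P0 m t0 v s := by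
  rw [secDiv, Finsupp.add_apply, divOf_apply, ordSec_eq P0 m ht0 v hs]; ring

theorem secDiv_apply' (H : LHyp K F) (P0 : Place K F) (m : ℕ) {s : F} (hs : s ≠ 0)
    (v : Place K F) : secDiv H P0 m hs v = v.ord s + mP P0 m v := by
  rw [secDiv, Finsupp.add_apply, divOf_apply]

theorem secDiv_nonneg (H : LHyp K F) (P0 : Place K F) (m : ℕ) {s : F} (hs : s ≠ 0)
    (hsm : s ∈ Lm P0 m) : 0 ≤ secDiv H P0 m hs := by
  intro v
  rw [secDiv_apply']
  have := (mem_L_iff hs).mp hsm v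
  simp only [Finsupp.coe_zero, Pi.zero_apply]
  linarith

theorem degree_secDiv (H : LHyp K F) (P0 : Place K F) (m : ℕ) {s : F} (hs : s ≠ 0) :
    Divisor.degree (secDiv H P0 m hs) = m := by
  rw [secDiv, map_add, degree_divOf, zero_add, degree_mP H]

/-- `L((m+a)·P0 - Z_s) = s · L(a·P0)`. -/
theorem mem_L_sub_secDiv_iff (H : LHyp K F) (P0 : Place K F) (m a : ℕ) {s : F} (hs : s ≠ 0)
    (f : F) :
    f ∈ riemannRochSpace (mP P0 (m + a) - secDiv H P0 m hs) ↔ ∃ g ∈ Lm P0 a, f = s * g := by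
  constructor
  · intro hf
    refine ⟨f / s, ?_, by field_simp⟩
    rcases eq_or_ne f 0 with rfl | hf0
    · rw [zero_div]; exact zero_mem _
    rw [Lm, mem_L_iff (div_ne_zero hf0 hs)]
    intro v
    have h1 := (mem_L_iff hf0).mp hf v
    rw [Finsupp.sub_apply, secDiv_apply', mP_add, Finsupp.add_apply] at h1
    rw [div_eq_mul_inv, v.ord_mul hf0 (inv_ne_zero hs), v.ord_inv]
    linarith
  · rintro ⟨g, hg, rfl⟩
    rcases eq_or_ne g 0 with rfl | hg0
    · rw [mul_zero]; exact zero_mem _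
    rw [mem_L_iff (mul_ne_zero hs hg0)]
    intro v
    have h1 := (mem_L_iff hg0).mp hg v
    rw [Finsupp.sub_apply, secDiv_apply', mP_add, Finsupp.add_apply, v.ord_mul hs hg0]
    linarith

/-! ### The index set -/

/-- The index set of the jets along `Z`: pairs `(z, i)` with `i < Z z`. -/
abbrev JIdx (Z : Divisor K F) : Type _ := Σ z : ↥Z.support, Fin (Z (z : Place K F)).toNat

theorem card_JIdx (H : LHyp K F) {Z : Divisor K F} (hZ : 0 ≤ Z) :
    (Fintype.card (JIdx Z) : ℤ) = Divisor.degree Z := by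
  rw [Fintype.card_sigma, degree_eq_sum H]
  push_cast
  rw [← Finset.sum_coe_sort Z.support (fun v => Z v)]
  refine Finset.sum_congr rfl fun z _ => ?_
  rw [Fintype.card_fin]
  exact Int.toNat_of_nonneg (by simpa using hZ (z : Place K F))

/-! ### The jet map -/

/-- The jets of the sections of `O(m·P0)` along `Z`. -/
noncomputable def jetMap (H : LHyp K F) (P0 : Place K F) (m : ℕ) {t0 : F} (ht0 : P0.ord t0 = 1)
    (Z : Divisor K F) : Lm P0 m →ₗ[K] (JIdx Z → K) :=
  LinearMap.pi fun p => jev H P0 m ht0 (p.1 : Place K F) (ord_unif _) p.2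

theorem jetMap_apply (H : LHyp K F) (P0 : Place K F) (m : ℕ) {t0 : F} (ht0 : P0.ord t0 = 1)
    (Z : Divisor K F) (f : Lm P0 m) (p : JIdx Z) :
    jetMap H P0 m ht0 Z f p = jev H P0 m ht0 (p.1 : Place K F) (ord_unif _) p.2 f := rfl

theorem mem_ker_jetMap_iff (H : LHyp K F) (P0 : Place K F) (m : ℕ) {t0 : F} (ht0 : P0.ord t0 = 1)
    {Z : Divisor K F} (hZ : 0 ≤ Z) (f : Lm P0 m) :
    f ∈ LinearMap.ker (jetMap H P0 m ht0 Z) ↔ (f : F) ∈ riemannRochSpace (mP P0 m - Z) := by
  rw [LinearMap.mem_ker]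
  rcases eq_or_ne (f : F) 0 with h0 | h0
  · have : f = 0 := Subtype.ext h0
    subst this
    simp
  rw [mem_L_iff h0]
  have hfm := (mem_L_iff h0).mp f.2
  constructor
  · intro h v
    rw [Finsupp.sub_apply]
    by_cases hv : v ∈ Z.support
    · have h1 : ∀ j < (Z v).toNat, jev H P0 m ht0 v (ord_unif v) j f = 0 := by
        intro j hj
        have := congrFun h ⟨⟨v, hv⟩, ⟨j, hj⟩⟩
        rwa [jetMap_apply] at this
      have h2 := (le_ordSec_iff H P0 m ht0 v (ord_unif v) f h0 (Z v).toNat).mpr h1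
      rw [ordSec_eq P0 m ht0 v h0, Int.toNat_of_nonneg (by simpa using hZ v)] at h2
      linarith
    · rw [Finsupp.notMem_support_iff.mp hv]
      have := hfm v
      linarith
  · intro h
    funext p
    rw [jetMap_apply, Pi.zero_apply]
    have hv := h (p.1 : Place K F)
    rw [Finsupp.sub_apply] at hv
    have h2 : ((Z (p.1 : Place K F)).toNat : ℤ) ≤ ordSec P0 m t0 (p.1 : Place K F) (f : F) := by
      rw [ordSec_eq P0 m ht0 _ h0, Int.toNat_of_nonneg (by simpa using hZ (p.1 : Place K F))]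
      linarith
    exact (le_ordSec_iff H P0 m ht0 _ (ord_unif _) f h0 _).mp h2 p.2 p.2.2

/-! ### The Toeplitz matrix of a multiplier -/

/-- The matrix of "multiplication by `ℓ`" on jets along `Z`: block diagonal, with lower triangular
Toeplitz blocks built from the jets of `ℓ`. -/
noncomputable def toep (H : LHyp K F) (P0 : Place K F) (a : ℕ) {t0 : F} (ht0 : P0.ord t0 = 1)
    (Z : Divisor K F) (ℓ : Lm P0 a) : Matrix (JIdx Z) (JIdx Z) K :=
  fun p p' => if p'.1 = p.1 ∧ (p'.2 : ℕ) ≤ (p.2 : ℕ) then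
    jev H P0 a ht0 (p.1 : Place K F) (ord_unif _) ((p.2 : ℕ) - (p'.2 : ℕ)) ℓ else 0

theorem sum_fin_toeplitz (c X : ℕ → K) {μ i : ℕ} (hi : i < μ) :
    ∑ i' : Fin μ, (if (i' : ℕ) ≤ i then c (i - i') else 0) * X i' =
      ∑ p ∈ Finset.HasAntidiagonal.antidiagonal i, c p.1 * X p.2 := by
  rw [Fin.sum_univ_eq_sum_range (fun j => (if j ≤ i then c (i - j) else 0) * X j) μ]
  have h1 : ∑ p ∈ Finset.HasAntidiagonal.antidiagonal i, c p.1 * X p.2 =
      ∑ p ∈ Finset.HasAntidiagonal.antidiagonal i, c p.2 * X p.1 := by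
    rw [← Finset.Nat.sum_antidiagonal_swap (f := fun q : ℕ × ℕ => c q.2 * X q.1)]
    rfl
  rw [h1, Finset.Nat.sum_antidiagonal_eq_sum_range_succ_mk (fun q : ℕ × ℕ => c q.2 * X q.1)]
  have hsub : Finset.range (i + 1) ⊆ Finset.range μ := by
    intro j hj; rw [Finset.mem_range] at hj ⊢; omega
  rw [← Finset.sum_subset hsub (fun j _ hj => by
    rw [Finset.mem_range] at hj
    rw [if_neg (by omega), zero_mul])]
  refine Finset.sum_congr rfl fun j hj => ?_
  rw [Finset.mem_range] at hj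
  rw [if_pos (by omega)]

/-- Multiplication by `ℓ` acts on jets through `toep ℓ`. -/
theorem jetMap_mul (H : LHyp K F) (P0 : Place K F) (a m : ℕ) {t0 : F} (ht0 : P0.ord t0 = 1)
    (Z : Divisor K F) (ℓ : Lm P0 a) (f : Lm P0 m) (ℓf : Lm P0 (a + m))
    (h : (ℓf : F) = (ℓ : F) * (f : F)) :
    jetMap H P0 (a + m) ht0 Z ℓf = (toep H P0 a ht0 Z ℓ).mulVec (jetMap H P0 m ht0 Z f) := by
  funext p
  obtain ⟨z, i⟩ := p
  rw [jetMap_apply, jev_mul H P0 a m ht0 _ (ord_unif _) _ ℓ f ℓf h]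
  show _ = ∑ p' : JIdx Z, toep H P0 a ht0 Z ℓ ⟨z, i⟩ p' * jetMap H P0 m ht0 Z f p'
  rw [Fintype.sum_sigma, Finset.sum_eq_single z]
  · have := sum_fin_toeplitz (fun j => jev H P0 a ht0 (z : Place K F) (ord_unif _) j ℓ)
      (fun j => jev H P0 m ht0 (z : Place K F) (ord_unif _) j f) i.2
    rw [← this]
    refine Finset.sum_congr rfl fun i' _ => ?_
    rw [toep, jetMap_apply]
    simp only [true_and]
  · intro z' _ hz'
    refine Finset.sum_eq_zero fun i' _ => ?_
    rw [toep, if_neg (fun hh => hz' hh.1), zero_mul]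
  · intro hz; exact absurd (Finset.mem_univ z) hz

/-- The determinant of the Toeplitz matrix: the product of the values of `ℓ` at the points of `Z`,
with multiplicities. -/
theorem det_toep (H : LHyp K F) (P0 : Place K F) (a : ℕ) {t0 : F} (ht0 : P0.ord t0 = 1)
    (Z : Divisor K F) (ℓ : Lm P0 a) :
    (toep H P0 a ht0 Z ℓ).det = ∏ z ∈ Z.support, (ev H P0 a ht0 z ℓ) ^ (Z z).toNat := by
  letI : LinearOrder ↥Z.support := LinearOrder.lift' (Fintype.equivFin _) (Equiv.injective _)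
  let lo : LinearOrder (JIdx Z) :=
    (Sigma.Lex.linearOrder : LinearOrder (Σₗ z : ↥Z.support, Fin (Z (z : Place K F)).toNat))
  have htri : ∀ p p' : JIdx Z, lo.lt p p' → toep H P0 a ht0 Z ℓ p p' = 0 := by
    intro p p' hlt
    obtain ⟨z, i⟩ := p
    obtain ⟨z', i'⟩ := p'
    have hlt' : Sigma.Lex (· < ·) (fun _ => (· < ·)) (⟨z, i⟩ : JIdx Z) ⟨z', i'⟩ := hlt
    rw [toep]
    refine if_neg ?_
    rintro ⟨hzz, hii⟩
    simp only at hzz hii
    subst hzz
    rcases Sigma.lex_iff.mp hlt' with h | ⟨_, h⟩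
    · exact lt_irrefl _ h
    · have : (i : ℕ) < (i' : ℕ) := h
      omega
  have hdet := @Matrix.det_of_isLowerTriangular (JIdx Z) K _ _ _ lo (toep H P0 a ht0 Z ℓ)
    (fun p p' h => htri p p' h)
  rw [hdet, Fintype.prod_sigma,
    ← Finset.prod_coe_sort Z.support (fun z => (ev H P0 a ht0 z ℓ) ^ (Z z).toNat)]
  refine Finset.prod_congr rfl fun z _ => ?_
  have : ∀ i : Fin (Z (z : Place K F)).toNat,
      toep H P0 a ht0 Z ℓ ⟨z, i⟩ ⟨z, i⟩ = ev H P0 a ht0 (z : Place K F) ℓ := by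
    intro i
    rw [toep, if_pos ⟨rfl, le_rfl⟩, Nat.sub_self, jev_zero]
  simp only [this, Finset.prod_const, Finset.card_univ, Fintype.card_fin]

section RR

variable [IsAlgClosed K] [CharZero K] {x : F} [HasCanonicalDivisor (K := K) (F := F)]

/-- (RR) The jet map is surjective in the non-special range. -/
theorem jetMap_surjective (hx : IsGen K x) (P0 : Place K F) {m : ℕ} {t0 : F}
    (ht0 : P0.ord t0 = 1) {Z : Divisor K F} (hZ : 0 ≤ Z)
    (hm : 2 * (genus K F : ℤ) - 1 ≤ m - Divisor.degree Z) :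
    Function.Surjective (jetMap (lHyp_of_isGen hx) P0 m ht0 Z) := by
  have H := lHyp_of_isGen hx
  have hdeg0 : 0 ≤ Divisor.degree Z := degree_nonneg H hZ
  have hfinm : FiniteDimensional K (Lm P0 m) := finiteDimensional_L H _
  have hle : riemannRochSpace (mP P0 m - Z) ≤ Lm P0 m := L_mono (by
    intro v
    rw [Finsupp.sub_apply]
    have := hZ v
    simp only [Finsupp.coe_zero, Pi.zero_apply] at this
    linarith)
  have hker : LinearMap.ker (jetMap (lHyp_of_isGen hx) P0 m ht0 Z) =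
      Submodule.comap (Lm P0 m).subtype (riemannRochSpace (mP P0 m - Z)) := by
    ext f
    rw [mem_ker_jetMap_iff _ P0 m ht0 hZ f, Submodule.mem_comap]
    rfl
  have h1 : Module.finrank K (LinearMap.ker (jetMap (lHyp_of_isGen hx) P0 m ht0 Z)) =
      Module.finrank K (riemannRochSpace (mP P0 m - Z)) := by
    rw [hker]
    exact (Submodule.comapSubtypeEquivOfLe hle).finrank_eq
  have h2 := finrank_L hx (mP P0 m - Z) (by
    rw [map_sub, degree_mP H]; linarith)
  rw [map_sub, degree_mP H] at h2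
  have h3 := finrank_Lm hx P0 (m := m) (by linarith)
  have h4 := LinearMap.finrank_range_add_finrank_ker (jetMap (lHyp_of_isGen hx) P0 m ht0 Z)
  have h5 : (Module.finrank K (LinearMap.range (jetMap (lHyp_of_isGen hx) P0 m ht0 Z)) : ℤ) =
      Divisor.degree Z := by
    have h4' : (Module.finrank K (LinearMap.range (jetMap (lHyp_of_isGen hx) P0 m ht0 Z)) : ℤ) +
        Module.finrank K (LinearMap.ker (jetMap (lHyp_of_isGen hx) P0 m ht0 Z)) =
        Module.finrank K (Lm P0 m) := by exact_mod_cast h4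
    rw [h1, h2, h3] at h4'
    linarith
  have h6 : Module.finrank K (LinearMap.range (jetMap (lHyp_of_isGen hx) P0 m ht0 Z)) =
      Module.finrank K (JIdx Z → K) := by
    rw [Module.finrank_fintype_fun_eq_card]
    have := card_JIdx H hZ
    exact_mod_cast h5.trans this.symm
  have h7 : LinearMap.range (jetMap (lHyp_of_isGen hx) P0 m ht0 Z) = ⊤ :=
    Submodule.eq_top_of_finrank_eq h6
  exact LinearMap.range_eq_top.mp h7

end RR

end Fermat.Agent.MW.CHOW.JetMap6
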