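/-
PROGRAMME MW (S17), block CHOW+UD (helper6).  `ChowDet6`: the CHOW DETERMINANT and its PRODUCT
FORMULA.

Setting: `hx : IsGen K x` (RR), `P0`, `t0`, `L(m) := Lm P0 m`.  DEGREES (all general):
`ms` (of the section `s`), `ma` (of the multipliers of `s`), `a` (of the form `ℓ`), `mb` (of the
multipliers of `ℓ`), `mv` (of the target), `mg`, with `h1 : ms + ma = mv`, `h2 : a + mb = mv`,
`h3 : ms + mg = mb`.  (Linear case of CHOW+UD: `ms = a = mg = d`, `ma = mb = d + d`,
`mv = d + (d + d)`, all three equalities by `rfl`.)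
For `s ∈ L(ms)`, `ℓ ∈ L(a)`, a basis `τ` of `L(mv)`, a basis `α` of `L(ma)`, a family
`βI : ιI → L(mb)` and `e : ιτ ≃ ια ⊕ ιI`:

* `chowFam h1 h2 α βI e s ℓ : ιτ → L(mv)` : the family `(s · α_a)_a ⊔ (ℓ · βI_q)_q`;
* `chowDet h1 h2 τ α βI e s ℓ := τ.det (chowFam …)` (= `det (τ.toMatrix (chowFam …))`, entries
  linear in `s` resp. `ℓ`);
* `chowDet_eq_prod` (PRODUCT FORMULA): for `s ≠ 0` with zero divisor `Z_s = div s + ms·P0`
  there is `ε` with `chowDet … s ℓ = ε * ∏ z ∈ supp Z_s, (ev z ℓ) ^ (Z_s z)` for ALL `ℓ`,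
  and `ε ≠ 0` as soon as `βI` spans `L(mb)` modulo `s · L(mg)`;
* `exists_subset_span` : every basis `β` of `L(mb)` contains such a subfamily, of cardinality `ms`.

Proof: jets along `Z_s` (`JetMap6`) identify `S_(k+2) / s·S_2` with `K^(k d)`, multiplication by `ℓ`
acts on jets by the Toeplitz matrix, whose determinant is the product of the values.
-/
import Mathlib
import Fermat.Agent.MW.CHOW.JetMap6

set_option autoImplicit false
set_option linter.unusedSectionVars false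

open AlgebraicCurve

namespace Fermat.Agent.MW.CHOW.ChowDet6

open Fermat.Agent.X0.FF Fermat.Agent.RR.LSpace Fermat.Agent.RR.LHypGen
open Fermat.Agent.MW.EMB.Value6 Fermat.Agent.MW.EMB.OnePoint6 Fermat.Agent.MW.EMB.Coord6
open Fermat.Agent.MW.POS.Jet9 Fermat.Agent.MW.CHOW.JetMul6 Fermat.Agent.MW.CHOW.JetMap6

open scoped Classical

/-! ### A determinant lemma -/

section LinAlg

variable {K V : Type*} [Field K] [AddCommGroup V] [Module K V]
  {ιτ X : Type*} [Fintype ιτ] [DecidableEq ιτ] [Fintype X] [DecidableEq X]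

/-- Change of coordinates by an injective linear map into `X → K`, `X ≃ ιτ`. -/
theorem det_eq_of_injective (τ : Module.Basis ιτ K V) (e' : ιτ ≃ X) (Ψ : V →ₗ[K] (X → K))
    (hΨ : LinearMap.ker Ψ = ⊥) :
    (Matrix.of fun x => Ψ (τ (e'.symm x))).det ≠ 0 ∧
      ∀ u : ιτ → V, (Matrix.of fun x => Ψ (u (e'.symm x))).det =
        (Matrix.of fun x => Ψ (τ (e'.symm x))).det * τ.det u := by
  set f : V [⋀^ιτ]→ₗ[K] K :=
    AlternatingMap.domDomCongr e'.symm ((Pi.basisFun K X).det.compLinearMap Ψ) with hf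
  have hfu : ∀ u : ιτ → V, f u = (Matrix.of fun x => Ψ (u (e'.symm x))).det := by
    intro u
    rw [hf, AlternatingMap.domDomCongr_apply, AlternatingMap.compLinearMap_apply,
      Pi.basisFun_det_apply]
    rfl
  constructor
  · rw [← hfu]
    have hli : LinearIndependent K (fun x => Ψ (τ (e'.symm x))) :=
      (τ.linearIndependent.comp _ e'.symm.injective).map' Ψ hΨ
    have hspan : Submodule.span K (Set.range fun x => Ψ (τ (e'.symm x))) = ⊤ :=
      hli.span_eq_top_of_card_eq_finrank' (by rw [Module.finrank_fintype_fun_eq_card])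
    have hunit := (Module.Basis.is_basis_iff_det (Pi.basisFun K X)).mp ⟨hli, hspan⟩
    rw [hfu, ← Pi.basisFun_det_apply]
    exact hunit.ne_zero
  · intro u
    have h1 := AlternatingMap.eq_smul_basis_det τ f
    have h2 := congrArg (fun g : V [⋀^ιτ]→ₗ[K] K => g u) h1
    simp only [AlternatingMap.smul_apply, smul_eq_mul] at h2
    rw [← hfu, ← hfu]
    exact h2

end LinAlg

variable {K F : Type*} [Field K] [Field F] [Algebra K F]

/-! ### Definitions -/

/-- `s · a ∈ L(mv)` for `s ∈ L(ms)`, `a ∈ L(ma)`, `ms + ma = mv`. -/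
def mulS (P0 : Place K F) {ms ma mv : ℕ} (h1 : ms + ma = mv) (s : Lm P0 ms) (a : Lm P0 ma) :
    Lm P0 mv :=
  ⟨(s : F) * (a : F), by
    have := mul_mem_Lm P0 s.2 a.2
    rwa [h1] at this⟩

@[simp] theorem coe_mulS (P0 : Place K F) {ms ma mv : ℕ} (h1 : ms + ma = mv) (s : Lm P0 ms)
    (a : Lm P0 ma) : ((mulS P0 h1 s a : Lm P0 mv) : F) = (s : F) * (a : F) := rfl

section Def

variable (P0 : Place K F) {ms ma a mb mv : ℕ} (h1 : ms + ma = mv) (h2 : a + mb = mv)
  {ια ιI ιτ : Type*}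

/-- The Chow family `(s · α_a)_a ⊔ (ℓ · βI_q)_q`, indexed by `ιτ` through `e`. -/
def chowFam (α : ια → Lm P0 ma) (βI : ιI → Lm P0 mb) (e : ιτ ≃ ια ⊕ ιI)
    (s : Lm P0 ms) (ℓ : Lm P0 a) : ιτ → Lm P0 mv :=
  fun r => Sum.elim (fun i => mulS P0 h1 s (α i)) (fun q => mulS P0 h2 ℓ (βI q)) (e r)

/-- The Chow determinant. -/
noncomputable def chowDet [Fintype ιτ] [DecidableEq ιτ]
    (τ : Module.Basis ιτ K (Lm P0 mv)) (α : ια → Lm P0 ma)
    (βI : ιI → Lm P0 mb) (e : ιτ ≃ ια ⊕ ιI) (s : Lm P0 ms) (ℓ : Lm P0 a) : K :=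
  τ.det (chowFam P0 h1 h2 α βI e s ℓ)

theorem chowDet_eq_det_toMatrix [Fintype ιτ] [DecidableEq ιτ]
    (τ : Module.Basis ιτ K (Lm P0 mv)) (α : ια → Lm P0 ma)
    (βI : ιI → Lm P0 mb) (e : ιτ ≃ ια ⊕ ιI) (s : Lm P0 ms) (ℓ : Lm P0 a) :
    chowDet P0 h1 h2 τ α βI e s ℓ = (τ.toMatrix (chowFam P0 h1 h2 α βI e s ℓ)).det :=
  Module.Basis.det_apply _ _

end Def

/-! ### The product formula -/

theorem jetMap_congr (H : LHyp K F) (P0 : Place K F) {m m' : ℕ} (h : m = m') {t0 : F}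
    (ht0 : P0.ord t0 = 1) (Z : Divisor K F) (f : Lm P0 m) (f' : Lm P0 m')
    (hff : (f : F) = (f' : F)) :
    jetMap H P0 m ht0 Z f = jetMap H P0 m' ht0 Z f' := by
  subst h
  have : f = f' := Subtype.ext hff
  rw [this]

section PF

variable [IsAlgClosed K] [CharZero K] {x : F} [HasCanonicalDivisor (K := K) (F := F)]

/-- **Product formula for the Chow determinant.** -/
theorem chowDet_eq_prod (hx : IsGen K x) (P0 : Place K F) {t0 : F} (ht0 : P0.ord t0 = 1)
    {ms ma a mb mv mg : ℕ} (h1 : ms + ma = mv) (h2 : a + mb = mv) (h3 : ms + mg = mb)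
    (hma : 2 * (genus K F : ℤ) - 1 ≤ ma) (hmg : 2 * (genus K F : ℤ) - 1 ≤ mg)
    {ια ιI ιτ : Type*} [Fintype ια] [Fintype ιI] [Fintype ιτ] [DecidableEq ιτ]
    (τ : Module.Basis ιτ K (Lm P0 mv)) (α : Module.Basis ια K (Lm P0 ma))
    (βI : ιI → Lm P0 mb) (e : ιτ ≃ ια ⊕ ιI)
    (s : Lm P0 ms) (hs : (s : F) ≠ 0) :
    ∃ ε : K,
      ((∀ f : Lm P0 mb, ∃ (c : ιI → K) (g : Lm P0 mg),
          (f : F) = ∑ q, c q • ((βI q : Lm P0 mb) : F) + (s : F) * (g : F)) → ε ≠ 0) ∧
      ∀ ℓ : Lm P0 a, chowDet P0 h1 h2 τ (fun i => α i) βI e s ℓ =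
        ε * ∏ z ∈ (secDiv (lHyp_of_isGen hx) P0 ms hs).support,
          (ev (lHyp_of_isGen hx) P0 a ht0 z ℓ) ^
            (secDiv (lHyp_of_isGen hx) P0 ms hs z).toNat := by
  have H := lHyp_of_isGen hx
  have hg0 : (0 : ℤ) ≤ genus K F := by positivity
  set Z := secDiv (lHyp_of_isGen hx) P0 ms hs with hZdef
  have hZ : 0 ≤ Z := secDiv_nonneg _ P0 ms hs s.2
  have hdegZ : Divisor.degree Z = (ms : ℤ) := degree_secDiv _ P0 ms hs
  set J2 := jetMap (lHyp_of_isGen hx) P0 mv ht0 Z with hJ2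
  set J1 := jetMap (lHyp_of_isGen hx) P0 mb ht0 Z with hJ1
  have hmP2 : mP P0 mv = mP P0 (ms + ma) := by rw [h1]
  have hmP1 : mP P0 mb = mP P0 (ms + mg) := by rw [h3]
  -- the kernel of `J2` is `s · L(ma)`
  have hkerJ2 : ∀ f : Lm P0 mv, J2 f = 0 → ∃ i : Lm P0 ma, f = mulS P0 h1 s i := by
    intro f hf
    have h4 := (mem_ker_jetMap_iff _ P0 _ ht0 hZ f).mp (LinearMap.mem_ker.mpr hf)
    rw [hmP2] at h4
    obtain ⟨g, hg, hfg⟩ := (mem_L_sub_secDiv_iff _ P0 ms ma hs _).mp h4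
    exact ⟨⟨g, hg⟩, Subtype.ext hfg⟩
  have hJ2mulS : ∀ i : Lm P0 ma, J2 (mulS P0 h1 s i) = 0 := by
    intro i
    have h4 : ((mulS P0 h1 s i : Lm P0 mv) : F) ∈ riemannRochSpace (mP P0 mv - Z) := by
      rw [hmP2]
      exact (mem_L_sub_secDiv_iff _ P0 ms ma hs _).mpr ⟨i, i.2, rfl⟩
    exact LinearMap.mem_ker.mp ((mem_ker_jetMap_iff _ P0 _ ht0 hZ _).mpr h4)
  -- multiplication by `s`, and a retraction
  let mS : Lm P0 ma →ₗ[K] Lm P0 mv :=
    { toFun := fun i => mulS P0 h1 s i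
      map_add' := fun i i' => Subtype.ext (by simp [mul_add])
      map_smul' := fun c i => Subtype.ext (by simp) }
  have hmSker : LinearMap.ker mS = ⊥ := by
    rw [LinearMap.ker_eq_bot']
    intro i hi
    have h4 : (s : F) * (i : F) = 0 := congrArg Subtype.val hi
    rcases mul_eq_zero.mp h4 with h | h
    · exact absurd h hs
    · exact Subtype.ext h
  obtain ⟨π, hπ⟩ := LinearMap.exists_leftInverse_of_injective mS hmSker
  have hπ' : ∀ i, π (mulS P0 h1 s i) = i := fun i => by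
    have := congrArg (fun φ : Lm P0 ma →ₗ[K] Lm P0 ma => φ i) hπ
    simp only [LinearMap.comp_apply, LinearMap.id_apply] at this
    exact this
  -- the coordinate map `Ψ`
  let Ψ : Lm P0 mv →ₗ[K] (ια ⊕ JIdx Z → K) :=
    LinearMap.pi (Sum.elim (fun i => (α.coord i).comp π) (fun p => (LinearMap.proj p).comp J2))
  have hΨl : ∀ f i, Ψ f (Sum.inl i) = α.repr (π f) i := fun f i => rfl
  have hΨr : ∀ f p, Ψ f (Sum.inr p) = J2 f p := fun f p => rfl
  have hΨker : LinearMap.ker Ψ = ⊥ := by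
    rw [LinearMap.ker_eq_bot']
    intro f hf
    have hJ : J2 f = 0 := by
      funext p
      have := congrFun hf (Sum.inr p)
      rwa [hΨr] at this
    obtain ⟨i, rfl⟩ := hkerJ2 f hJ
    have hi : i = 0 := by
      apply α.repr.injective
      ext i'
      have := congrFun hf (Sum.inl i')
      rw [hΨl, hπ'] at this
      simpa using this
    rw [hi]
    exact Subtype.ext (by simp)
  -- cardinalities
  have hcτ := Module.finrank_eq_card_basis τ
  have hcα := Module.finrank_eq_card_basis α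
  have hdτ := finrank_Lm hx P0 (m := mv) (by rw [← h1]; push_cast; linarith)
  have hdα := finrank_Lm hx P0 (m := ma) hma
  have hcJ := card_JIdx H hZ
  have hcard : Fintype.card ιI = Fintype.card (JIdx Z) := by
    have h4 := Fintype.card_congr e
    rw [Fintype.card_sum] at h4
    have h5 : (Fintype.card ιτ : ℤ) = Fintype.card ια + Fintype.card ιI := by exact_mod_cast h4
    have h6 : (Fintype.card ιI : ℤ) = Fintype.card (JIdx Z) := by
      rw [hcJ, hdegZ]
      rw [← hcτ, ← hcα, hdτ, hdα, ← h1] at h5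
      push_cast at h5
      linarith
    exact_mod_cast h6
  let θ : ιI ≃ JIdx Z := Fintype.equivOfCardEq hcard
  let e' : ιτ ≃ ια ⊕ JIdx Z := e.trans (Equiv.sumCongr (Equiv.refl ια) θ)
  have he'l : ∀ i, e (e'.symm (Sum.inl i)) = Sum.inl i := fun i => by simp [e']
  have he'r : ∀ p, e (e'.symm (Sum.inr p)) = Sum.inr (θ.symm p) := fun p => by simp [e']
  obtain ⟨hc0, hdet⟩ := det_eq_of_injective τ e' Ψ hΨker
  set c0 := (Matrix.of fun x => Ψ (τ (e'.symm x))).det with hc0def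
  -- the Jacobian of `βI`
  let Jac : Matrix (JIdx Z) (JIdx Z) K := Matrix.of fun p p'' => J1 (βI (θ.symm p)) p''
  refine ⟨c0⁻¹ * Jac.det, ?_, ?_⟩
  · -- non-vanishing
    intro hspan
    refine mul_ne_zero (inv_ne_zero hc0) ?_
    have hJ1surj : Function.Surjective J1 :=
      jetMap_surjective hx P0 ht0 hZ (by rw [hdegZ, ← h3]; push_cast; linarith)
    have hsp : Submodule.span K (Set.range fun p : JIdx Z => J1 (βI (θ.symm p))) = ⊤ := by
      rw [eq_top_iff]
      intro y _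
      obtain ⟨f, rfl⟩ := hJ1surj y
      obtain ⟨c, g, hfg⟩ := hspan f
      have hsg : ((s : F) * (g : F)) ∈ riemannRochSpace (mP P0 mb - Z) := by
        rw [hmP1]
        exact (mem_L_sub_secDiv_iff _ P0 ms mg hs _).mpr ⟨g, g.2, rfl⟩
      have hf' : f = ∑ q, c q • βI q + mulS P0 h3 s g := by
        apply Subtype.ext
        rw [hfg]
        simp
      have hJsg : J1 (mulS P0 h3 s g) = 0 :=
        LinearMap.mem_ker.mp ((mem_ker_jetMap_iff _ P0 _ ht0 hZ _).mpr hsg)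
      rw [hf', map_add, hJsg, add_zero, map_sum]
      refine Submodule.sum_mem _ fun q _ => ?_
      rw [map_smul]
      refine Submodule.smul_mem _ _ (Submodule.subset_span ⟨θ q, ?_⟩)
      simp
    have hli : LinearIndependent K (fun p : JIdx Z => J1 (βI (θ.symm p))) :=
      linearIndependent_of_top_le_span_of_card_eq_finrank hsp.ge
        (by rw [Module.finrank_fintype_fun_eq_card])
    have hunit := (Module.Basis.is_basis_iff_det (Pi.basisFun K (JIdx Z))).mp ⟨hli, hsp⟩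
    rw [Pi.basisFun_det_apply] at hunit
    exact hunit.ne_zero
  · intro ℓ
    have h4 := hdet (chowFam P0 h1 h2 (fun i => α i) βI e s ℓ)
    have hmat : (Matrix.of fun x => Ψ (chowFam P0 h1 h2 (fun i => α i) βI e s ℓ (e'.symm x))) =
        Matrix.fromBlocks (1 : Matrix ια ια K) 0
          (Matrix.of fun p i' => α.repr (π (mulS P0 h2 ℓ (βI (θ.symm p)))) i')
          (Jac * (toep (lHyp_of_isGen hx) P0 a ht0 Z ℓ).transpose) := by
      ext x y
      rcases x with i | p <;> rcases y with i' | p'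
      · rw [Matrix.fromBlocks_apply₁₁, Matrix.of_apply, chowFam, he'l, Sum.elim_inl, hΨl, hπ',
          Module.Basis.repr_self, Matrix.one_apply, Finsupp.single_apply]
      · rw [Matrix.fromBlocks_apply₁₂, Matrix.of_apply, chowFam, he'l, Sum.elim_inl, hΨr,
          hJ2mulS]
        rfl
      · rw [Matrix.fromBlocks_apply₂₁, Matrix.of_apply, chowFam, he'r, Sum.elim_inr, hΨl]
        rfl
      · rw [Matrix.fromBlocks_apply₂₂, Matrix.of_apply, chowFam, he'r, Sum.elim_inr, hΨr]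
        have h5 := jetMap_mul (lHyp_of_isGen hx) P0 a mb ht0 Z ℓ (βI (θ.symm p))
          ⟨(ℓ : F) * ((βI (θ.symm p) : Lm P0 mb) : F),
            mul_mem_Lm P0 ℓ.2 (βI (θ.symm p)).2⟩ rfl
        have h6 := jetMap_congr (lHyp_of_isGen hx) P0 h2.symm ht0 Z
          (mulS P0 h2 ℓ (βI (θ.symm p)))
          ⟨(ℓ : F) * ((βI (θ.symm p) : Lm P0 mb) : F),
            mul_mem_Lm P0 ℓ.2 (βI (θ.symm p)).2⟩ rfl
        rw [hJ2, h6, h5, Matrix.mul_apply, Matrix.mulVec, dotProduct]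
        refine Finset.sum_congr rfl fun p'' _ => ?_
        rw [Matrix.transpose_apply, mul_comm]
        rfl
    rw [hmat, Matrix.det_fromBlocks_zero₁₂, Matrix.det_one, one_mul, Matrix.det_mul,
      Matrix.det_transpose, det_toep] at h4
    rw [chowDet, mul_assoc, h4]
    field_simp

/-- **Selection**: every basis of `L(mb)` contains `ms` members spanning `L(mb)` modulo
`s · L(mg)`. -/
theorem exists_sel (hx : IsGen K x) (P0 : Place K F) {ms mg mb : ℕ} (h3 : ms + mg = mb)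
    (hmg : 2 * (genus K F : ℤ) - 1 ≤ mg) {ιβ : Type*} [Fintype ιβ]
    (β : Module.Basis ιβ K (Lm P0 mb)) (s : Lm P0 ms) (hs : (s : F) ≠ 0) :
    ∃ sel : Fin ms → ιβ, Function.Injective sel ∧
      ∀ f : Lm P0 mb, ∃ (c : Fin ms → K) (g : Lm P0 mg),
        (f : F) = ∑ j, c j • ((β (sel j) : Lm P0 mb) : F) + (s : F) * (g : F) := by
  have H := lHyp_of_isGen hx
  obtain ⟨t0, ht0⟩ := exists_unif P0
  set Z := secDiv (lHyp_of_isGen hx) P0 ms hs with hZdef
  have hZ : 0 ≤ Z := secDiv_nonneg _ P0 ms hs s.2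
  have hdegZ : Divisor.degree Z = (ms : ℤ) := degree_secDiv _ P0 ms hs
  set J1 := jetMap (lHyp_of_isGen hx) P0 mb ht0 Z with hJ1
  have hmP1 : mP P0 mb = mP P0 (ms + mg) := by rw [h3]
  have hJ1surj : Function.Surjective J1 :=
    jetMap_surjective hx P0 ht0 hZ (by rw [hdegZ, ← h3]; push_cast; linarith)
  -- the jets of the basis span
  have hT : Submodule.span K (Set.range fun q => J1 (β q)) = ⊤ := by
    rw [eq_top_iff]
    intro y _
    obtain ⟨f, rfl⟩ := hJ1surj y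
    rw [← β.sum_repr f, map_sum]
    refine Submodule.sum_mem _ fun q _ => ?_
    rw [map_smul]
    exact Submodule.smul_mem _ _ (Submodule.subset_span ⟨q, rfl⟩)
  obtain ⟨b, hbT, hbspan, hbli⟩ := exists_linearIndependent K (Set.range fun q => J1 (β q))
  rw [hT] at hbspan
  have hbfin : b.Finite := hbli.setFinite
  haveI : Fintype b := hbfin.fintype
  have hcard : Fintype.card b = ms := by
    have h4 := finrank_span_set_eq_card hbli
    rw [hbspan, finrank_top, Module.finrank_fintype_fun_eq_card, Set.toFinset_card] at h4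
    have h5 := card_JIdx H hZ
    rw [hdegZ] at h5
    have h6 : Fintype.card (JIdx Z) = ms := by exact_mod_cast h5
    rw [← h4, h6]
  choose qf hqf using fun y : b => hbT y.2
  have hqfinj : Function.Injective qf := by
    intro y y' hyy
    apply Subtype.ext
    have h1 := hqf y
    have h2 := hqf y'
    simp only at h1 h2
    rw [← h1, ← h2, hyy]
  let eb : Fin ms ≃ b := (Fintype.equivFinOfCardEq hcard).symm
  refine ⟨fun j => qf (eb j), hqfinj.comp eb.injective, fun f => ?_⟩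
  have hmem : J1 f ∈ Submodule.span K (Set.range (Subtype.val : b → (JIdx Z → K))) := by
    rw [Subtype.range_coe, hbspan]; trivial
  obtain ⟨c, hc⟩ := (Submodule.mem_span_range_iff_exists_fun K).mp hmem
  have hker : J1 (f - ∑ j, c (eb j) • β (qf (eb j))) = 0 := by
    rw [map_sub, map_sum, ← hc, sub_eq_zero, ← Equiv.sum_comp eb]
    refine Finset.sum_congr rfl fun j _ => ?_
    have := hqf (eb j)
    simp only at this
    rw [map_smul, this]
  have h4 := (mem_ker_jetMap_iff _ P0 _ ht0 hZ _).mp (LinearMap.mem_ker.mpr hker)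
  rw [hmP1] at h4
  obtain ⟨g, hg, hfg⟩ := (mem_L_sub_secDiv_iff _ P0 ms mg hs _).mp h4
  refine ⟨fun j => c (eb j), ⟨g, hg⟩, ?_⟩
  have h5 : ((f - ∑ j, c (eb j) • β (qf (eb j)) : Lm P0 mb) : F) =
      (f : F) - ∑ j, c (eb j) • ((β (qf (eb j)) : Lm P0 mb) : F) := by
    simp
  rw [h5] at hfg
  rw [← hfg]
  ring

/-- **Product formula with a non-vanishing constant**, for a suitable selection from a basis `β`
of `L(mb)`. -/
theorem exists_sel_chowDet (hx : IsGen K x) (P0 : Place K F) {t0 : F} (ht0 : P0.ord t0 = 1)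
    {ms ma a mb mv mg : ℕ} (h1 : ms + ma = mv) (h2 : a + mb = mv) (h3 : ms + mg = mb)
    (hma : 2 * (genus K F : ℤ) - 1 ≤ ma) (hmg : 2 * (genus K F : ℤ) - 1 ≤ mg)
    {ια ιβ ιτ : Type*} [Fintype ια] [Fintype ιβ] [Fintype ιτ] [DecidableEq ιτ]
    (τ : Module.Basis ιτ K (Lm P0 mv)) (α : Module.Basis ια K (Lm P0 ma))
    (β : Module.Basis ιβ K (Lm P0 mb)) (s : Lm P0 ms) (hs : (s : F) ≠ 0) :
    ∃ sel : Fin ms → ιβ, Function.Injective sel ∧ ∀ e : ιτ ≃ ια ⊕ Fin ms, ∃ ε : K, ε ≠ 0 ∧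
      ∀ ℓ : Lm P0 a, chowDet P0 h1 h2 τ (fun i => α i) (fun j => β (sel j)) e s ℓ =
        ε * ∏ z ∈ (secDiv (lHyp_of_isGen hx) P0 ms hs).support,
          (ev (lHyp_of_isGen hx) P0 a ht0 z ℓ) ^
            (secDiv (lHyp_of_isGen hx) P0 ms hs z).toNat := by
  obtain ⟨sel, hinj, hspan⟩ := exists_sel hx P0 h3 hmg β s hs
  refine ⟨sel, hinj, fun e => ?_⟩
  obtain ⟨ε, hε, hprod⟩ := chowDet_eq_prod hx P0 ht0 h1 h2 h3 hma hmg τ α
    (fun j => β (sel j)) e s hs
  exact ⟨ε, hε hspan, hprod⟩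

end PF

end Fermat.Agent.MW.CHOW.ChowDet6
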