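/-
PROGRAMME MW (S17), block CHOW+UD (helper8).  `Null8`: MULTI-PROJECTIVE NULLSTELLENSATZ in
CERTIFICATE form (the shape consumed by the height engine), from Mathlib's Hilbert Nullstellensatz.

Variables `σ` split into `r` groups by `grp : σ → Fin r`; multi-degree of a monomial
`= weight (fun i => single (grp i) 1)` (values in `Fin r →₀ ℕ`).  `Cone` is a set of points closed
under the `r`-parameter scaling.  If multi-homogeneous polynomials `p j` (multi-degree `N`) have,
on the Zariski closure of `Cone`, only common zeros with one group of coordinates entirely zero,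
then there are multi-homogeneous `q` (multi-degree `M`) with, for every point `x` of `Cone` and every
choice `k` of one variable per group,  `∑ j, q (k, j)(x) * p j (x) = ∏ g, x (k g) ^ (M g + N g)`.

* `wt`, `scale`, `theta` (the substitution `X i ↦ x i • X (grp i)`), `coeff_theta` (extraction of a
  multi-homogeneous component at a point), `theta_of_isWeightedHomogeneous`;
* `exists_multicert` : the theorem above.
-/
import Mathlib

set_option autoImplicit false
set_option linter.unusedSectionVars false

namespace Fermat.Agent.MW.CHOW.Null8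

open MvPolynomial

variable {K : Type*} [Field K] {σ : Type*} {r : ℕ}

/-- multi-degree weights: the variable `i` has weight `single (grp i) 1`. -/
noncomputable def wt (grp : σ → Fin r) : σ → (Fin r →₀ ℕ) := fun i => Finsupp.single (grp i) 1

/-- the `r`-parameter scaling. -/
def scale (grp : σ → Fin r) (lam : Fin r → K) (x : σ → K) : σ → K := fun i => lam (grp i) * x i

/-- the substitution `X i ↦ x i • X (grp i)`. -/
noncomputable def theta (grp : σ → Fin r) (x : σ → K) :
    MvPolynomial σ K →ₐ[K] MvPolynomial (Fin r) K :=
  aeval fun i => C (x i) * X (grp i)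

theorem theta_X (grp : σ → Fin r) (x : σ → K) (i : σ) :
    theta grp x (X i) = C (x i) * X (grp i) := by
  simp [theta]

theorem eval_theta (grp : σ → Fin r) (x : σ → K) (lam : Fin r → K) (g : MvPolynomial σ K) :
    eval lam (theta grp x g) = eval (scale grp lam x) g := by
  induction g using MvPolynomial.induction_on with
  | C a => simp [theta]
  | add p q hp hq => simp [hp, hq]
  | mul_X p i hp =>
    rw [map_mul, map_mul, map_mul, hp, theta_X]
    simp [scale, mul_comm]

theorem theta_monomial (grp : σ → Fin r) (x : σ → K) (e : σ →₀ ℕ) (c : K) :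
    theta grp x (monomial e c) =
      monomial (Finsupp.weight (wt grp) e) (c * e.prod fun i k => x i ^ k) := by
  classical
  rw [theta, aeval_monomial, Finsupp.weight_apply]
  simp only [mul_pow, Finsupp.prod, Finsupp.sum, Finset.prod_mul_distrib, wt]
  rw [monomial_sum_index, ← mul_assoc]
  congr 1
  · rw [algebraMap_eq]
    simp
  · refine Finset.prod_congr rfl fun i _ => ?_
    simp [X_pow_eq_monomial]

theorem whc_monomial (grp : σ → Fin r) (t : Fin r →₀ ℕ) (e : σ →₀ ℕ) (c : K) :
    weightedHomogeneousComponent (wt grp) t (monomial e c) =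
      if Finsupp.weight (wt grp) e = t then monomial e c else 0 := by
  classical
  ext d
  rw [coeff_weightedHomogeneousComponent]
  split_ifs with h1 h2 h2
  · rfl
  · rw [coeff_monomial, if_neg, coeff_zero]
    rintro rfl; exact h2 h1
  · rw [coeff_monomial, if_neg]
    rintro rfl; exact h1 h2
  · simp

/-- extraction of the multi-homogeneous component of multi-degree `t` at the point `x`. -/
theorem coeff_theta (grp : σ → Fin r) (x : σ → K) (t : Fin r →₀ ℕ) (g : MvPolynomial σ K) :
    coeff t (theta grp x g) = eval x (weightedHomogeneousComponent (wt grp) t g) := by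
  classical
  induction g using MvPolynomial.induction_on' with
  | monomial e c =>
    rw [theta_monomial, coeff_monomial, whc_monomial]
    split_ifs with h
    · rw [eval_monomial]
    · simp
  | add p q hp hq => simp [hp, hq]

theorem theta_of_isWeightedHomogeneous (grp : σ → Fin r) (x : σ → K) {N : Fin r →₀ ℕ}
    {p : MvPolynomial σ K} (hp : IsWeightedHomogeneous (wt grp) p N) :
    theta grp x p = monomial N (eval x p) := by
  classical
  conv_lhs => rw [← support_sum_monomial_coeff p]
  rw [map_sum, eval_eq, map_sum]
  refine Finset.sum_congr rfl fun e he => ?_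
  rw [theta_monomial, hp (mem_support_iff.mp he)]
  rfl

/-- the type of choices of one variable in each group. -/
abbrev Choice (grp : σ → Fin r) : Type _ := {k : Fin r → σ // ∀ g, grp (k g) = g}

/-- **Multi-projective Nullstellensatz, certificate form.** -/
theorem exists_multicert [IsAlgClosed K] [Finite σ] {ι' : Type*} [Fintype ι'] (grp : σ → Fin r)
    (Cone : Set (σ → K)) (hcone : ∀ x ∈ Cone, ∀ lam : Fin r → K, scale grp lam x ∈ Cone)
    {N : Fin r →₀ ℕ} (p : ι' → MvPolynomial σ K)
    (hp : ∀ j, IsWeightedHomogeneous (wt grp) (p j) N)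
    (hnz : ∀ x ∈ zeroLocus K (vanishingIdeal K Cone), (∀ j, eval x (p j) = 0) →
      ∃ g : Fin r, ∀ i, grp i = g → x i = 0) :
    ∃ (M : Fin r →₀ ℕ) (q : Choice grp × ι' → MvPolynomial σ K),
      (∀ a, IsWeightedHomogeneous (wt grp) (q a) M) ∧
      ∀ x ∈ Cone, ∀ k : Choice grp,
        ∑ j, eval x (q (k, j)) * eval x (p j) = ∏ g, x (k.1 g) ^ (M g + N g) := by
  classical
  have : Fintype σ := Fintype.ofFinite σ
  have : Infinite K := IsAlgClosed.instInfinite
  set I' : Ideal (MvPolynomial σ K) := vanishingIdeal K Cone with hI'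
  set J : Ideal (MvPolynomial σ K) := Ideal.span (Set.range p) ⊔ I' with hJ
  -- step 2: the monomials `∏ g, X (k g)` lie in the radical of `J`
  have hrad : ∀ k : Choice grp, (∏ g, X (k.1 g) : MvPolynomial σ K) ∈ J.radical := by
    intro k
    rw [← vanishingIdeal_zeroLocus_eq_radical (K := K), mem_vanishingIdeal_iff]
    intro x hx
    have hx1 : x ∈ zeroLocus K I' := zeroLocus_anti_mono (le_sup_right : I' ≤ J) hx
    have hx2 : ∀ j, eval x (p j) = 0 := by
      intro j
      have := hx (p j) (Ideal.mem_sup_left (Ideal.subset_span ⟨j, rfl⟩))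
      simpa [aeval_eq_eval] using this
    obtain ⟨g, hg⟩ := hnz x hx1 hx2
    rw [map_prod]
    refine Finset.prod_eq_zero (Finset.mem_univ g) ?_
    rw [aeval_X]
    exact hg _ (k.2 g)
  choose Tk hTk using fun k => hrad k
  set T : ℕ := (∑ k, Tk k) + ∑ g, N g with hT
  have hTk_le : ∀ k, Tk k ≤ T := fun k =>
    le_trans (Finset.single_le_sum (f := Tk) (fun _ _ => Nat.zero_le _) (Finset.mem_univ k))
      (Nat.le_add_right _ _)
  have hN_le : ∀ g, N g ≤ T := fun g =>
    le_trans (Finset.single_le_sum (f := fun g => N g) (fun _ _ => Nat.zero_le _)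
      (Finset.mem_univ g)) (Nat.le_add_left _ _)
  have hmemJ : ∀ k : Choice grp, (∏ g, X (k.1 g) : MvPolynomial σ K) ^ T ∈ J := by
    intro k
    rw [← Nat.sub_add_cancel (hTk_le k), pow_add]
    exact J.mul_mem_left _ (hTk k)
  -- step 4: write the certificate
  have hdec : ∀ k : Choice grp, ∃ (c : ι' → MvPolynomial σ K) (h : MvPolynomial σ K),
      h ∈ I' ∧ (∏ g, X (k.1 g) : MvPolynomial σ K) ^ T = ∑ j, c j * p j + h := by
    intro k
    obtain ⟨a, ha, h, hh, hah⟩ := Submodule.mem_sup.mp (hmemJ k)
    obtain ⟨c, hc⟩ := Ideal.mem_span_range_iff_exists_fun.mp ha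
    exact ⟨c, h, hh, by rw [hc, hah]⟩
  choose c h hh hch using hdec
  -- step 5: the multi-degree `M`
  set M : Fin r →₀ ℕ := Finsupp.equivFunOnFinite.symm fun g => T - N g with hM
  have hMN : ∀ g, M g + N g = T := fun g => by
    rw [hM]
    show (T - N g) + N g = T
    exact Nat.sub_add_cancel (hN_le g)
  refine ⟨M, fun a => weightedHomogeneousComponent (wt grp) M (c a.1 a.2),
    fun a => weightedHomogeneousComponent_isWeightedHomogeneous M _, ?_⟩
  intro x hx k
  -- the total multi-degree
  set That : Fin r →₀ ℕ := M + N with hThat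
  have hThat_apply : ∀ g, That g = T := fun g => by rw [hThat, Finsupp.add_apply, hMN]
  -- `theta` kills `h k`
  have hth : theta grp x (h k) = 0 := by
    apply MvPolynomial.funext
    intro lam
    rw [eval_theta, map_zero]
    have := hh k (scale grp lam x) (hcone x hx lam)
    simpa [aeval_eq_eval] using this
  -- homogeneity of the left side
  have hhom : IsWeightedHomogeneous (wt grp) ((∏ g, X (k.1 g) : MvPolynomial σ K) ^ T) That := by
    have h1 : IsWeightedHomogeneous (wt grp) (∏ g, X (k.1 g) : MvPolynomial σ K)
        (∑ g, Finsupp.single g 1) := by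
      refine IsWeightedHomogeneous.prod _ _ _ fun g _ => ?_
      have := isWeightedHomogeneous_X K (wt grp) (k.1 g)
      rwa [wt, k.2 g] at this
    have h2 := h1.pow T
    have heq : T • ∑ g : Fin r, Finsupp.single g 1 = That := by
      ext g
      rw [hThat_apply, Finsupp.smul_apply, Finsupp.finsetSum_apply]
      simp [Finsupp.single_apply]
    rwa [heq] at h2
  have hL : coeff That (theta grp x ((∏ g, X (k.1 g) : MvPolynomial σ K) ^ T)) =
      coeff That (theta grp x (∑ j, c k j * p j + h k)) := by rw [hch k]
  rw [theta_of_isWeightedHomogeneous grp x hhom, coeff_monomial, if_pos rfl, map_add, hth,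
    add_zero, map_sum, coeff_sum] at hL
  rw [map_pow, map_prod] at hL
  simp only [eval_X] at hL
  rw [← Finset.prod_pow] at hL
  have hR : ∀ j, coeff That (theta grp x (c k j * p j)) =
      eval x (weightedHomogeneousComponent (wt grp) M (c k j)) * eval x (p j) := by
    intro j
    rw [map_mul, theta_of_isWeightedHomogeneous grp x (hp j), coeff_mul_monomial', if_pos,
      coeff_theta]
    · congr 2
      rw [hThat, add_tsub_cancel_right]
    · rw [hThat]; exact le_add_self
  rw [Finset.sum_congr rfl fun j _ => hR j] at hL
  rw [← hL]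
  exact Finset.prod_congr rfl fun g _ => by rw [hMN]

end Fermat.Agent.MW.CHOW.Null8
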