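/-
PROGRAMME MW (S17), block CHOW+UD (helper8).  `ChowPoly8`: the POLYNOMIAL FAMILIES attached to the
Chow determinant (`ChowAlg8`), with their (multi-)homogeneity and evaluation rules.

* `CG w m p` : all coefficients of `p : MvPolynomial τ (MvPolynomial σ R)` are weighted homogeneous
  of weight `m` (a grading predicate for `ChowAlg8.det_graded`);
* `chowPoly g e sel` (a polynomial in `c'` with coefficients polynomials in `c`), `chowCoeff α`,
  `chowPolyAt c₀` (the specialisation), `coeff_chowPolyAt`, `eval_chowPolyAt`,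
  `chowCoeff_homogeneous` (degree `card I2` in `c`);
* `dPoly g e sel β2 r` (a polynomial in `W` with coefficients polynomials in `(c, Y)`), `dCoeff γ`,
  `dPolyAt c₀ Y₀`, `coeff_dPolyAt`, `eval_dPolyAt`, `dCoeff_homogeneous`
  (bidegree `(card I2 - 1, card E + 2)` in `(c, Y)`).
-/
import Mathlib
import Fermat.Agent.MW.CHOW.ChowAlg8
import Fermat.Agent.MW.CHOW.Null8

set_option autoImplicit false
set_option linter.unusedSectionVars false

namespace Fermat.Agent.MW.CHOW.ChowPoly8

open MvPolynomial Fermat.Agent.MW.CHOW.ChowAlg8 Fermat.Agent.MW.CHOW.Null8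

section CG

variable {σ τ R Mo : Type*} [CommRing R] [AddCommMonoid Mo] (w : σ → Mo)

/-- all coefficients are weighted homogeneous of weight `m`. -/
def CG (m : Mo) (p : MvPolynomial τ (MvPolynomial σ R)) : Prop :=
  ∀ γ, IsWeightedHomogeneous w (coeff γ p) m

theorem CG.zero (m : Mo) : CG w m (0 : MvPolynomial τ (MvPolynomial σ R)) := fun γ => by
  rw [coeff_zero]; exact isWeightedHomogeneous_zero _ _ _

theorem CG.C {m : Mo} {a : MvPolynomial σ R} (ha : IsWeightedHomogeneous w a m) :
    CG w m (C a : MvPolynomial τ (MvPolynomial σ R)) := fun γ => by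
  classical
  rw [coeff_C]
  split_ifs
  · exact ha
  · exact isWeightedHomogeneous_zero _ _ _

theorem CG.one : CG w 0 (1 : MvPolynomial τ (MvPolynomial σ R)) := by
  have : (1 : MvPolynomial τ (MvPolynomial σ R)) = MvPolynomial.C 1 := by simp
  rw [this]
  exact CG.C w (isWeightedHomogeneous_one _ _)

theorem CG.X (a : τ) : CG w 0 (X a : MvPolynomial τ (MvPolynomial σ R)) := fun γ => by
  classical
  rw [coeff_X]
  split_ifs
  · exact isWeightedHomogeneous_one _ _
  · exact isWeightedHomogeneous_zero _ _ _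

theorem CG.add {m : Mo} {p q : MvPolynomial τ (MvPolynomial σ R)} (hp : CG w m p)
    (hq : CG w m q) : CG w m (p + q) := fun γ => by
  rw [coeff_add]; exact (hp γ).add (hq γ)

theorem CG.neg {m : Mo} {p : MvPolynomial τ (MvPolynomial σ R)} (hp : CG w m p) :
    CG w m (-p) := fun γ => by
  rw [coeff_neg]; exact (hp γ).neg

theorem CG.sub {m : Mo} {p q : MvPolynomial τ (MvPolynomial σ R)} (hp : CG w m p)
    (hq : CG w m q) : CG w m (p - q) := by
  rw [sub_eq_add_neg]; exact hp.add w hq.neg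

theorem CG.mul {m m' : Mo} {p q : MvPolynomial τ (MvPolynomial σ R)} (hp : CG w m p)
    (hq : CG w m' q) : CG w (m + m') (p * q) := fun γ => by
  classical
  rw [coeff_mul]
  exact IsWeightedHomogeneous.sum _ _ _ fun x _ => (hp x.1).mul (hq x.2)

theorem CG.sum {κ : Type*} (s : Finset κ) {m : Mo} {f : κ → MvPolynomial τ (MvPolynomial σ R)}
    (hf : ∀ k ∈ s, CG w m (f k)) : CG w m (∑ k ∈ s, f k) := fun γ => by
  rw [coeff_sum]
  exact IsWeightedHomogeneous.sum _ _ _ fun k hk => hf k hk γ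

end CG

section Rename

variable {R : Type*} [CommRing R] {n : ℕ}

/-- the two groups of variables `(c, Y)`. -/
def grp2 (n : ℕ) : Fin n ⊕ Fin n → Fin 2 := Sum.elim (fun _ => 0) (fun _ => 1)

/-- the single group of variables `c`. -/
def grp1 (n : ℕ) : Fin n → Fin 1 := fun _ => 0

theorem isWeightedHomogeneous_rename_inr {p : MvPolynomial (Fin n) R} {k : ℕ}
    (hp : p.IsHomogeneous k) :
    IsWeightedHomogeneous (wt (grp2 n)) (rename Sum.inr p) (Finsupp.single 1 k) := by
  classical
  rw [p.as_sum, map_sum]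
  refine IsWeightedHomogeneous.sum _ _ _ fun d hd => ?_
  rw [rename_monomial]
  refine isWeightedHomogeneous_monomial _ _ _ ?_
  have hdeg : Finsupp.weight (1 : Fin n → ℕ) d = k := hp (mem_support_iff.mp hd)
  rw [Finsupp.weight_apply] at hdeg ⊢
  rw [Finsupp.sum_mapDomain_index (fun _ => by simp) (fun _ _ _ => by rw [add_smul])]
  have : ∀ i : Fin n, ∀ m : ℕ, m • wt (grp2 n) (Sum.inr i) = Finsupp.single (1 : Fin 2) m := by
    intro i m
    simp [wt, grp2]
  simp only [this]
  rw [← hdeg]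
  simp only [Finsupp.sum, Pi.one_apply, smul_eq_mul, mul_one]
  rw [← Finsupp.single_finsetSum]

theorem isWeightedHomogeneous_X_inl (i : Fin n) :
    IsWeightedHomogeneous (wt (grp2 n)) (X (Sum.inl i) : MvPolynomial (Fin n ⊕ Fin n) R)
      (Finsupp.single 0 1) := by
  have := isWeightedHomogeneous_X (R := R) (wt (grp2 n)) (Sum.inl i)
  simpa [wt, grp2] using this

theorem isWeightedHomogeneous_X_inr (i : Fin n) :
    IsWeightedHomogeneous (wt (grp2 n)) (X (Sum.inr i) : MvPolynomial (Fin n ⊕ Fin n) R)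
      (Finsupp.single 1 1) := by
  have := isWeightedHomogeneous_X (R := R) (wt (grp2 n)) (Sum.inr i)
  simpa [wt, grp2] using this

theorem isWeightedHomogeneous_X_grp1 (i : Fin n) :
    IsWeightedHomogeneous (wt (grp1 n)) (X i : MvPolynomial (Fin n) R) (Finsupp.single 0 1) := by
  have := isWeightedHomogeneous_X (R := R) (wt (grp1 n)) i
  simpa [wt, grp1] using this

end Rename

section Chow

variable {K : Type*} [CommRing K] {n : ℕ} {I2 I3 E : Type*} [Fintype I2] [Fintype E]
  [DecidableEq I2] [DecidableEq E]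

/-- the Chow determinant as a polynomial in `c'` whose coefficients are polynomials in `c`. -/
noncomputable def chowPoly (g : Fin n → I2 → I3 → K) (e : I2 ⊕ E ≃ I3) (sel : E → I2) :
    MvPolynomial (Fin n) (MvPolynomial (Fin n) K) :=
  chowVal (fun i q r => C (C (g i q r))) e sel (fun i => C (X i)) (fun i => X i)

/-- the coefficient of `c' ^ α`, a form of degree `card I2` in `c`. -/
noncomputable def chowCoeff (g : Fin n → I2 → I3 → K) (e : I2 ⊕ E ≃ I3) (sel : E → I2)
    (α : Fin n →₀ ℕ) : MvPolynomial (Fin n) K :=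
  coeff α (chowPoly g e sel)

/-- the Chow determinant at `c = c₀`, a polynomial in `c'`. -/
noncomputable def chowPolyAt (g : Fin n → I2 → I3 → K) (e : I2 ⊕ E ≃ I3) (sel : E → I2)
    (c₀ : Fin n → K) : MvPolynomial (Fin n) K :=
  chowVal (fun i q r => C (g i q r)) e sel (fun i => C (c₀ i)) (fun i => X i)

theorem map_eval_chowPoly (g : Fin n → I2 → I3 → K) (e : I2 ⊕ E ≃ I3) (sel : E → I2)
    (c₀ : Fin n → K) : map (eval c₀) (chowPoly g e sel) = chowPolyAt g e sel c₀ := by
  rw [chowPoly, map_chowVal, chowPolyAt]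
  simp

theorem coeff_chowPolyAt (g : Fin n → I2 → I3 → K) (e : I2 ⊕ E ≃ I3) (sel : E → I2)
    (c₀ : Fin n → K) (α : Fin n →₀ ℕ) :
    coeff α (chowPolyAt g e sel c₀) = eval c₀ (chowCoeff g e sel α) := by
  rw [← map_eval_chowPoly, coeff_map, chowCoeff]

theorem eval_chowPolyAt (g : Fin n → I2 → I3 → K) (e : I2 ⊕ E ≃ I3) (sel : E → I2)
    (c₀ c₁ : Fin n → K) : eval c₁ (chowPolyAt g e sel c₀) = chowVal g e sel c₀ c₁ := by
  rw [chowPolyAt, map_chowVal]
  simp

theorem chowCoeff_homogeneous (g : Fin n → I2 → I3 → K) (e : I2 ⊕ E ≃ I3) (sel : E → I2)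
    (α : Fin n →₀ ℕ) :
    IsWeightedHomogeneous (wt (grp1 n)) (chowCoeff g e sel α)
      (Finsupp.single 0 (Fintype.card I2)) := by
  classical
  set w := wt (grp1 n) with hw
  have h := det_graded (CG (R := K) (τ := Fin n) w) (CG.zero w) (CG.one w)
    (fun m a b => CG.add w) (fun m a => CG.neg w) (fun m m' a b => CG.mul w)
    (chowMat (fun i q r => C (C (g i q r))) e sel (fun i => C (X i)) (fun i => X i))
    (Sum.elim (fun _ => Finsupp.single 0 1) (fun _ => 0)) ?_
  · have hsum : (∑ col : I2 ⊕ E, (Sum.elim (fun _ => Finsupp.single (0 : Fin 1) 1) (fun _ => 0) col :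
        Fin 1 →₀ ℕ)) = Finsupp.single 0 (Fintype.card I2) := by
      rw [Fintype.sum_sum_type]
      simp [Finsupp.smul_single]
    rw [hsum] at h
    exact h α
  · intro p col
    rcases col with q | j
    · rw [chowMat_inl, Sum.elim_inl]
      refine CG.sum w _ fun i _ => ?_
      have h1 : CG w (Finsupp.single 0 1) (C (X i) : MvPolynomial (Fin n) (MvPolynomial (Fin n) K)) :=
        CG.C w (isWeightedHomogeneous_X_grp1 i)
      have h2 : CG w 0 (C (C (g i q (e p))) : MvPolynomial (Fin n) (MvPolynomial (Fin n) K)) :=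
        CG.C w (isWeightedHomogeneous_C _ _)
      simpa using h1.mul w h2
    · rw [chowMat_inr, Sum.elim_inr]
      refine CG.sum w _ fun i _ => ?_
      have h1 : CG w 0 (X i : MvPolynomial (Fin n) (MvPolynomial (Fin n) K)) := CG.X w i
      have h2 : CG w 0 (C (C (g i (sel j) (e p))) : MvPolynomial (Fin n) (MvPolynomial (Fin n) K)) :=
        CG.C w (isWeightedHomogeneous_C _ _)
      simpa using h1.mul w h2

end Chow

section D

variable {K : Type*} [CommRing K] {n : ℕ} {I2 I3 E : Type*} [Fintype I2] [Fintype E]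
  [DecidableEq I2] [DecidableEq E]

/-- the Cramer quotient as a polynomial in `W` whose coefficients are polynomials in `(c, Y)`;
`β2 q` is a quadratic form representing `β q`. -/
noncomputable def dPoly (g : Fin n → I2 → I3 → K) (e : I2 ⊕ E ≃ I3) (sel : E → I2)
    (β2 : I2 → MvPolynomial (Fin n) K) (r : I3) :
    MvPolynomial (Fin n × Fin n) (MvPolynomial (Fin n ⊕ Fin n) K) :=
  dVal (fun i q r => C (C (g i q r))) e sel (fun q => C (rename Sum.inr (β2 q))) r
    (fun i => C (X (Sum.inl i))) (fun i => C (X (Sum.inr i))) (fun a => X a)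

/-- the coefficient of `W ^ γ`, a bihomogeneous form in `(c, Y)`. -/
noncomputable def dCoeff (g : Fin n → I2 → I3 → K) (e : I2 ⊕ E ≃ I3) (sel : E → I2)
    (β2 : I2 → MvPolynomial (Fin n) K) (r : I3) (γ : Fin n × Fin n →₀ ℕ) :
    MvPolynomial (Fin n ⊕ Fin n) K :=
  coeff γ (dPoly g e sel β2 r)

/-- the Cramer quotient at `(c, Y) = (c₀, Y₀)`, a polynomial in `W`. -/
noncomputable def dPolyAt (g : Fin n → I2 → I3 → K) (e : I2 ⊕ E ≃ I3) (sel : E → I2)
    (β2 : I2 → MvPolynomial (Fin n) K) (r : I3) (c₀ Y₀ : Fin n → K) :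
    MvPolynomial (Fin n × Fin n) K :=
  dVal (fun i q r => C (g i q r)) e sel (fun q => C (eval Y₀ (β2 q))) r (fun i => C (c₀ i))
    (fun i => C (Y₀ i)) (fun a => X a)

theorem map_eval_dPoly (g : Fin n → I2 → I3 → K) (e : I2 ⊕ E ≃ I3) (sel : E → I2)
    (β2 : I2 → MvPolynomial (Fin n) K) (r : I3) (c₀ Y₀ : Fin n → K) :
    map (eval (Sum.elim c₀ Y₀)) (dPoly g e sel β2 r) = dPolyAt g e sel β2 r c₀ Y₀ := by
  rw [dPoly, map_dVal, dPolyAt]
  simp [eval_rename]

theorem coeff_dPolyAt (g : Fin n → I2 → I3 → K) (e : I2 ⊕ E ≃ I3) (sel : E → I2)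
    (β2 : I2 → MvPolynomial (Fin n) K) (r : I3) (c₀ Y₀ : Fin n → K) (γ : Fin n × Fin n →₀ ℕ) :
    coeff γ (dPolyAt g e sel β2 r c₀ Y₀) = eval (Sum.elim c₀ Y₀) (dCoeff g e sel β2 r γ) := by
  rw [← map_eval_dPoly, coeff_map, dCoeff]

theorem eval_dPolyAt (g : Fin n → I2 → I3 → K) (e : I2 ⊕ E ≃ I3) (sel : E → I2)
    (β2 : I2 → MvPolynomial (Fin n) K) (r : I3) (c₀ Y₀ : Fin n → K) (W₀ : Fin n × Fin n → K) :
    eval W₀ (dPolyAt g e sel β2 r c₀ Y₀) =
      dVal g e sel (fun q => eval Y₀ (β2 q)) r c₀ Y₀ W₀ := by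
  rw [dPolyAt, map_dVal]
  simp

theorem sum_ite_eq_card_sub {Mo : Type*} [AddCommMonoid Mo] (q : I2) (a : Mo) :
    (∑ q' : I2, if q' = q then 0 else a) = (Fintype.card I2 - 1) • a := by
  classical
  rw [← Finset.sum_erase (s := Finset.univ) (a := q) (by simp),
    Finset.sum_congr rfl (g := fun _ => a) (fun q' hq' => by
      rw [if_neg (Finset.ne_of_mem_erase hq')]),
    Finset.sum_const, Finset.card_erase_of_mem (Finset.mem_univ q), Finset.card_univ]

theorem dCoeff_homogeneous (g : Fin n → I2 → I3 → K) (e : I2 ⊕ E ≃ I3) (sel : E → I2)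
    (β2 : I2 → MvPolynomial (Fin n) K) (hβ : ∀ q, (β2 q).IsHomogeneous 2) (r : I3)
    (γ : Fin n × Fin n →₀ ℕ) :
    IsWeightedHomogeneous (wt (grp2 n)) (dCoeff g e sel β2 r γ)
      (Finsupp.single 0 (Fintype.card I2 - 1) + Finsupp.single 1 (Fintype.card E + 2)) := by
  classical
  set w := wt (grp2 n) with hw
  set A₂ := MvPolynomial (Fin n × Fin n) (MvPolynomial (Fin n ⊕ Fin n) K)
  set δ : I2 ⊕ E → (Fin 2 →₀ ℕ) :=
    Sum.elim (fun _ => Finsupp.single 0 1) (fun _ => Finsupp.single 1 1) with hδ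
  have hentry : ∀ p col, CG w (δ col)
      (chowMat (fun i q r => (C (C (g i q r)) : A₂)) e sel (fun i => C (X (Sum.inl i)))
        (iotaW (fun i => C (X (Sum.inr i))) (fun a => X a)) p col) := by
    intro p col
    rcases col with q | j
    · rw [chowMat_inl, hδ, Sum.elim_inl]
      refine CG.sum w _ fun i _ => ?_
      have h1 : CG w (Finsupp.single 0 1) (C (X (Sum.inl i)) : A₂) :=
        CG.C w (isWeightedHomogeneous_X_inl i)
      have h2 : CG w 0 (C (C (g i q (e p))) : A₂) := CG.C w (isWeightedHomogeneous_C _ _)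
      simpa using h1.mul w h2
    · rw [chowMat_inr, hδ, Sum.elim_inr]
      refine CG.sum w _ fun i _ => ?_
      have h2 : CG w 0 (C (C (g i (sel j) (e p))) : A₂) := CG.C w (isWeightedHomogeneous_C _ _)
      have h1 : CG w (Finsupp.single 1 1)
          (iotaW (fun i => (C (X (Sum.inr i)) : A₂)) (fun a => X a) i) := by
        rw [iotaW]
        refine CG.sum w _ fun k _ => ?_
        have h3 : CG w 0 ((X (k, i) : A₂) - X (i, k)) := (CG.X w _).sub w (CG.X w _)
        have h4 : CG w (Finsupp.single 1 1) (C (X (Sum.inr k)) : A₂) :=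
          CG.C w (isWeightedHomogeneous_X_inr k)
        simpa using h3.mul w h4
      simpa using h1.mul w h2
  have hterm : ∀ q, CG w (Finsupp.single 0 (Fintype.card I2 - 1) +
      Finsupp.single 1 (Fintype.card E + 2))
      ((C (rename Sum.inr (β2 q)) : A₂) *
        (chowMat (fun i q r => (C (C (g i q r)) : A₂)) e sel (fun i => C (X (Sum.inl i)))
          (iotaW (fun i => C (X (Sum.inr i))) (fun a => X a))).adjugate (Sum.inl q) (e.symm r)) := by
    intro q
    have h1 : CG w (Finsupp.single 1 2) (C (rename Sum.inr (β2 q)) : A₂) :=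
      CG.C w (isWeightedHomogeneous_rename_inr (hβ q))
    have h2 := adjugate_graded (CG (R := K) (τ := Fin n × Fin n) w) (CG.zero w) (CG.one w)
      (fun m a b => CG.add w) (fun m a => CG.neg w) (fun m m' a b => CG.mul w) _ δ hentry
      (Sum.inl q) (e.symm r)
    have hsum : (∑ col : I2 ⊕ E, if col = Sum.inl q then (0 : Fin 2 →₀ ℕ) else δ col) =
        Finsupp.single 0 (Fintype.card I2 - 1) + Finsupp.single 1 (Fintype.card E) := by
      rw [Fintype.sum_sum_type]
      simp only [hδ, Sum.elim_inl, Sum.elim_inr, Sum.inl.injEq, reduceCtorEq, if_false]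
      rw [sum_ite_eq_card_sub, Finset.sum_const, Finset.card_univ, Finsupp.smul_single,
        Finsupp.smul_single]
      simp
    rw [hsum] at h2
    have h3 := h1.mul w h2
    have hw' : Finsupp.single (1 : Fin 2) 2 + (Finsupp.single 0 (Fintype.card I2 - 1) +
        Finsupp.single 1 (Fintype.card E)) =
        Finsupp.single 0 (Fintype.card I2 - 1) + Finsupp.single 1 (Fintype.card E + 2) := by
      rw [Finsupp.single_add]
      abel
    rw [hw'] at h3
    exact h3
  have := CG.sum w Finset.univ (fun q _ => hterm q)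
  exact this γ

end D

end Fermat.Agent.MW.CHOW.ChowPoly8
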