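/-
PROGRAMME MW (S17), block CHOW+UD (helper8).  `ChowCert8`: the two NULLSTELLENSATZ CERTIFICATES of the
Chow determinant of the curve embedded by `|d·P0|`.

* `eval_scale`, `wedge_ne_zero` (pure);
* `exists_sel_injective` : a selection of `d` members of the basis `β` of `S_2` complementing
  `l_c · S_1` (from `ChowDet6.exists_sel` and a dimension count);
* `famR` (the Chow forms `chowCoeff`, polynomials in `c`), `exists_famR_ne_zero`, **`cert_R`**;
* `AdjId` (the statement of the adjunction identity), `famD` (the Cramer quotient forms `dCoeff`,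
  polynomials in `(c, Y)`), `coneD = K^n × cone`, `exists_tau_ne_zero`, `exists_famD_ne_zero`,
  **`cert_D`** (assuming `AdjId`).
-/
import Mathlib
import Fermat.Agent.MW.EMB.Cone6
import Fermat.Agent.MW.EMB.Enum6
import Fermat.Agent.MW.EMB.Lead6
import Fermat.Agent.MW.CHOW.ChowDet6
import Fermat.Agent.MW.CHOW.ChowPF8
import Fermat.Agent.MW.CHOW.ChowPoly8

set_option autoImplicit false
set_option linter.unusedSectionVars false

open AlgebraicCurve

namespace Fermat.Agent.MW.CHOW.ChowCert8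

open MvPolynomial
open Fermat.Agent.X0.FF Fermat.Agent.RR.LSpace Fermat.Agent.RR.LHypGen
open Fermat.Agent.MW.EMB.Value6 Fermat.Agent.MW.EMB.OnePoint6 Fermat.Agent.MW.EMB.Coord6
open Fermat.Agent.MW.EMB.Proj6 Fermat.Agent.MW.EMB.Form6 Fermat.Agent.MW.EMB.Cone6
open Fermat.Agent.MW.CHOW.Sec8 Fermat.Agent.MW.CHOW.ChowAlg8 Fermat.Agent.MW.CHOW.ChowPF8
open Fermat.Agent.MW.CHOW.ChowPoly8 Fermat.Agent.MW.CHOW.Null8

section Pure

variable {K : Type*} [Field K]

/-- evaluation of a multi-homogeneous polynomial at a scaled point. -/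
theorem eval_scale {σ : Type*} {r : ℕ} (grp : σ → Fin r) {N : Fin r →₀ ℕ}
    {p : MvPolynomial σ K} (hp : IsWeightedHomogeneous (wt grp) p N) (lam : Fin r → K)
    (x : σ → K) : eval (scale grp lam x) p = (∏ g, lam g ^ N g) * eval x p := by
  rw [← eval_theta, theta_of_isWeightedHomogeneous grp x hp, eval_monomial, mul_comm,
    Finsupp.prod_fintype]
  intro g
  exact pow_zero _

/-- the wedge of two linearly independent vectors is nonzero. -/
theorem wedge_ne_zero {n : ℕ} {x x' : Fin n → K} (h : LinearIndependent K ![x, x']) :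
    (fun a : Fin n × Fin n => x a.1 * x' a.2 - x a.2 * x' a.1) ≠ 0 := by
  intro h0
  rw [LinearIndependent.pair_iff] at h
  have hx : x ≠ 0 := by
    rintro rfl
    have := h 1 0 (by simp)
    exact one_ne_zero this.1
  obtain ⟨i0, hi0⟩ := Function.ne_iff.mp hx
  simp only [Pi.zero_apply] at hi0
  have h1 := h (x' i0) (-(x i0)) (by
    funext j
    have := congrFun h0 (i0, j)
    simp only [Pi.zero_apply] at this
    simp only [Pi.add_apply, Pi.smul_apply, smul_eq_mul, Pi.zero_apply]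
    linear_combination -this)
  exact hi0 (neg_eq_zero.mp h1.2)

end Pure

section RR

variable {K F : Type*} [Field K] [Field F] [Algebra K F]
variable [IsAlgClosed K] [CharZero K] {x : F} [HasCanonicalDivisor (K := K) (F := F)]
variable (hx : IsGen K x) (P0 : Place K F) {d : ℕ} {t0 : F} (ht0 : P0.ord t0 = 1) {n : ℕ}
  (b : Module.Basis (Fin n) K (Lm P0 d))
  {I2 I3 : Type*} [Fintype I2] [Fintype I3] [DecidableEq I2] [DecidableEq I3]
  (β : Module.Basis I2 K (Lm P0 (d + d))) (τ : Module.Basis I3 K (Lm P0 (d + (d + d))))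

include hx in
/-- a selection of `d` members of `β` complementing `l_c · S_1` in `S_2`. -/
theorem exists_sel_injective (hd : 2 * (genus K F : ℤ) - 1 ≤ d) {c : Fin n → K} (hc : c ≠ 0) :
    ∃ sel : Fin d → I2, Function.Injective (Psi P0 b β sel c) := by
  have hg0 : (0 : ℤ) ≤ genus K F := by positivity
  obtain ⟨sel, -, hspan⟩ := Fermat.Agent.MW.CHOW.ChowDet6.exists_sel hx P0
    (rfl : d + d = d + d) hd β (lin P0 d b c) (lin_ne_zero P0 d b hc)
  refine ⟨sel, ?_⟩
  have hsurj : Function.Surjective (Psi P0 b β sel c) := by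
    intro f
    obtain ⟨cc, g, hfg⟩ := hspan f
    refine ⟨(g, cc), Subtype.ext ?_⟩
    rw [Psi_apply, hfg]
    simp only [Submodule.coe_add, mulB_apply, Submodule.coe_sum, Submodule.coe_smul]
    ring
  have := Fermat.Agent.RR.RRMain.finiteDimensional_L hx (mP P0 d)
  have := Fermat.Agent.RR.RRMain.finiteDimensional_L hx (mP P0 (d + d))
  have hf1 := finrank_Lm hx P0 (m := d) hd
  have hf2 := finrank_Lm hx P0 (m := d + d) (by push_cast; omega)
  have hfr : Module.finrank K (Lm P0 d × (Fin d → K)) = Module.finrank K (Lm P0 (d + d)) := by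
    rw [Module.finrank_prod, Module.finrank_fin_fun]
    push_cast at hf1 hf2
    omega
  exact (LinearMap.injective_iff_surjective_of_finrank_eq_finrank hfr).mpr hsurj

/-! ### The certificate for the Chow forms -/

/-- the exponents of `c'` occurring in the Chow polynomials. -/
noncomputable def suppR (e : I2 ⊕ Fin d ≃ I3) : Finset (Fin n →₀ ℕ) :=
  Finset.univ.biUnion fun sel : Fin d → I2 => (chowPoly (gTab P0 b β τ) e sel).support

/-- the family of Chow forms (polynomials in `c`). -/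
noncomputable def famR (e : I2 ⊕ Fin d ≃ I3) :
    (Fin d → I2) × ↥(suppR P0 b β τ e) → MvPolynomial (Fin n) K :=
  fun j => chowCoeff (gTab P0 b β τ) e j.1 j.2.1

include hx ht0 in
theorem exists_famR_ne_zero (hd : 2 * (genus K F : ℤ) ≤ d) (hd0 : 0 < d) (e : I2 ⊕ Fin d ≃ I3)
    {c : Fin n → K} (hc : c ≠ 0) : ∃ j, eval c (famR P0 b β τ e j) ≠ 0 := by
  classical
  have H := lHyp_of_isGen hx
  obtain ⟨z, hz⟩ := Fermat.Agent.MW.EMB.Enum6.exists_enum (lHyp_of_isGen hx) d
    (hyp_nonneg (lHyp_of_isGen hx) P0 d ht0 b hc) (degree_hyp (lHyp_of_isGen hx) P0 d b hc)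
  obtain ⟨sel, hsel⟩ := exists_sel_injective hx P0 b β (by omega) hc
  obtain ⟨ε, hε, hform⟩ := chowVal_eq hx P0 ht0 b β τ hd hd0 e sel hc z hz
  obtain ⟨c', hc'⟩ := Fermat.Agent.MW.EMB.Cert6.exists_generic (K := K) (Set.range z)
    (Set.finite_range z) (fun v i => pt (lHyp_of_isGen hx) P0 d ht0 b v i)
    (fun v _ => pt_ne_zero hx P0 ht0 b hd v)
  have hne : chowVal (gTab P0 b β τ) e sel c c' ≠ 0 := by
    rw [hform]
    exact mul_ne_zero (hε hsel) (Finset.prod_ne_zero_iff.mpr fun j _ => hc' (z j) ⟨j, rfl⟩)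
  rw [← eval_chowPolyAt] at hne
  have hpoly : chowPolyAt (gTab P0 b β τ) e sel c ≠ 0 := fun h => hne (by rw [h, map_zero])
  obtain ⟨α, hα⟩ := MvPolynomial.ne_zero_iff.mp hpoly
  rw [coeff_chowPolyAt] at hα
  have hαS : α ∈ suppR P0 b β τ e := by
    rw [suppR, Finset.mem_biUnion]
    refine ⟨sel, Finset.mem_univ _, ?_⟩
    rw [MvPolynomial.mem_support_iff]
    intro h0
    apply hα
    rw [chowCoeff, h0, map_zero]
  exact ⟨(sel, ⟨α, hαS⟩), hα⟩

include hx ht0 in
/-- **Certificate for the Chow forms** on `ℙ^(n-1)`. -/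
theorem cert_R (hd : 2 * (genus K F : ℤ) ≤ d) (hd0 : 0 < d) (e : I2 ⊕ Fin d ≃ I3) :
    ∃ (M : Fin 1 →₀ ℕ) (q : Choice (grp1 n) × ((Fin d → I2) × ↥(suppR P0 b β τ e)) →
        MvPolynomial (Fin n) K),
      (∀ a, IsWeightedHomogeneous (wt (grp1 n)) (q a) M) ∧
      ∀ (c : Fin n → K) (k : Choice (grp1 n)),
        ∑ j, eval c (q (k, j)) * eval c (famR P0 b β τ e j) =
          ∏ g, c (k.1 g) ^ (M g + (Finsupp.single (0 : Fin 1) (Fintype.card I2)) g) := by
  classical
  obtain ⟨M, q, hq, hid⟩ := exists_multicert (K := K) (grp1 n) (Set.univ : Set (Fin n → K))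
    (fun _ _ _ => Set.mem_univ _) (famR P0 b β τ e)
    (fun j => chowCoeff_homogeneous _ e j.1 j.2.1)
    (fun c _ hall => by
      refine ⟨0, fun i _ => ?_⟩
      by_contra hci
      have hc : c ≠ 0 := fun h0 => hci (by rw [h0]; rfl)
      obtain ⟨j, hj⟩ := exists_famR_ne_zero hx P0 ht0 b β τ hd hd0 e hc
      exact hj (hall j))
  exact ⟨M, q, hq, fun c k => hid c (Set.mem_univ _) k⟩

/-! ### The certificate for the Cramer quotients -/

theorem ev_congr (H : LHyp K F) {m m' : ℕ} (h : m = m') (v : Place K F) {f : F}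
    (hf : f ∈ Lm P0 m) (hf' : f ∈ Lm P0 m') :
    ev H P0 m ht0 v ⟨f, hf⟩ = ev H P0 m' ht0 v ⟨f, hf'⟩ := by
  subst h
  rfl

/-- **the adjunction identity** (statement; proved in `ChowAdj`): the value of the Cramer quotient on
the incidence locus. -/
def AdjId [DecidableEq (Place K F)] (e : I2 ⊕ Fin d ≃ I3) (β2 : I2 → MvPolynomial (Fin n) K)
    (τ3 : I3 → MvPolynomial (Fin n) K) : Prop :=
  ∀ (sel : Fin d → I2) {c : Fin n → K} (hc : c ≠ 0) (z : Fin d → Place K F)
    (_ : hyp (lHyp_of_isGen hx) P0 d b hc = ∑ j, Finsupp.single (z j) 1) (ε : K)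
    (_ : ∀ c' : Fin n → K, chowVal (gTab P0 b β τ) e sel c c' =
      ε * ∏ j, ∑ i, c' i * pt (lHyp_of_isGen hx) P0 d ht0 b (z j) i)
    (y : Place K F) {t : F} (ht : y.ord t = 1) (r : I3) (W : Fin n × Fin n → K),
    Fermat.Agent.MW.EMB.Lead6.lcSec (lHyp_of_isGen hx) P0 d t0 y t
        ((lin P0 d b c : Lm P0 d) : F) *
      dVal (gTab P0 b β τ) e sel
        (fun q => eval (pt (lHyp_of_isGen hx) P0 d ht0 b y) (β2 q)) r c
        (pt (lHyp_of_isGen hx) P0 d ht0 b y) W =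
    eval (pt (lHyp_of_isGen hx) P0 d ht0 b y) (τ3 r) * ε *
      ∏ j, (if z j = y then
        ∑ a : Fin n × Fin n, W a *
          (dpt (lHyp_of_isGen hx) P0 d ht0 b y ht a.1 * pt (lHyp_of_isGen hx) P0 d ht0 b y a.2 -
            dpt (lHyp_of_isGen hx) P0 d ht0 b y ht a.2 * pt (lHyp_of_isGen hx) P0 d ht0 b y a.1)
        else ∑ a : Fin n × Fin n, W a *
          (pt (lHyp_of_isGen hx) P0 d ht0 b y a.1 * pt (lHyp_of_isGen hx) P0 d ht0 b (z j) a.2 -
            pt (lHyp_of_isGen hx) P0 d ht0 b y a.2 * pt (lHyp_of_isGen hx) P0 d ht0 b (z j) a.1))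

/-- the exponents of `W` occurring in the Cramer quotients. -/
noncomputable def suppD (e : I2 ⊕ Fin d ≃ I3) (β2 : I2 → MvPolynomial (Fin n) K) :
    Finset (Fin n × Fin n →₀ ℕ) :=
  Finset.univ.biUnion fun p : (Fin d → I2) × I3 => (dPoly (gTab P0 b β τ) e p.1 β2 p.2).support

/-- the family of Cramer quotient forms (polynomials in `(c, Y)`). -/
noncomputable def famD (e : I2 ⊕ Fin d ≃ I3) (β2 : I2 → MvPolynomial (Fin n) K) :
    ((Fin d → I2) × I3) × ↥(suppD P0 b β τ e β2) → MvPolynomial (Fin n ⊕ Fin n) K :=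
  fun j => dCoeff (gTab P0 b β τ) e j.1.1 β2 j.1.2 j.2.1

/-- `K^n × cone`. -/
def coneD : Set (Fin n ⊕ Fin n → K) :=
  {x | (fun i => x (Sum.inr i)) ∈ cone (lHyp_of_isGen hx) P0 d ht0 b}

include hx in
/-- some member of the basis `τ` does not vanish at `y`. -/
theorem exists_tau_ne_zero (hd : 2 * (genus K F : ℤ) ≤ d) (τ3 : I3 → MvPolynomial (Fin n) K)
    (hτ3 : ∀ r, (τ3 r).IsHomogeneous 3)
    (hτ3' : ∀ r, formFn P0 d b (τ3 r) = ((τ r : Lm P0 (d + (d + d))) : F)) (y : Place K F) :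
    ∃ r, eval (pt (lHyp_of_isGen hx) P0 d ht0 b y) (τ3 r) ≠ 0 := by
  have hg0 : (0 : ℤ) ≤ genus K F := by positivity
  by_contra hall
  push Not at hall
  obtain ⟨f, hf⟩ := exists_ev_ne_zero hx P0 (d := d + (d + d)) (by push_cast; omega) ht0 y
  apply hf
  have h0 : ev (lHyp_of_isGen hx) P0 (d + (d + d)) ht0 y = 0 := by
    refine τ.ext fun r => ?_
    have h1 := hall r
    rw [eval_pt (lHyp_of_isGen hx) P0 d ht0 b (hτ3 r) y] at h1
    rw [LinearMap.zero_apply, ← h1]
    have h2 : formFn P0 d b (τ3 r) ∈ Lm P0 (d + (d + d)) := by rw [hτ3' r]; exact (τ r).2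
    rw [ev_congr P0 ht0 (lHyp_of_isGen hx) (by ring : 3 * d = d + (d + d)) y _ h2]
    congr 1
    exact Subtype.ext (hτ3' r).symm
  rw [h0]
  rfl

include hx in
theorem exists_famD_ne_zero [DecidableEq (Place K F)] (hd : 4 * (genus K F : ℤ) ≤ d) (hd0 : 0 < d)
    (e : I2 ⊕ Fin d ≃ I3) (β2 : I2 → MvPolynomial (Fin n) K)
    (τ3 : I3 → MvPolynomial (Fin n) K) (hτ3 : ∀ r, (τ3 r).IsHomogeneous 3)
    (hτ3' : ∀ r, formFn P0 d b (τ3 r) = ((τ r : Lm P0 (d + (d + d))) : F))
    (hADJ : AdjId hx P0 ht0 b β τ e β2 τ3) {c : Fin n → K} (hc : c ≠ 0) (y : Place K F) :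
    ∃ j, eval (Sum.elim c (pt (lHyp_of_isGen hx) P0 d ht0 b y)) (famD P0 b β τ e β2 j) ≠ 0 := by
  have H := lHyp_of_isGen hx
  have hg0 : (0 : ℤ) ≤ genus K F := by positivity
  have hd2 : 2 * (genus K F : ℤ) ≤ d := by omega
  have hd21 : 2 * (genus K F : ℤ) + 1 ≤ d := by omega
  obtain ⟨z, hz⟩ := Fermat.Agent.MW.EMB.Enum6.exists_enum (lHyp_of_isGen hx) d
    (hyp_nonneg (lHyp_of_isGen hx) P0 d ht0 b hc) (degree_hyp (lHyp_of_isGen hx) P0 d b hc)
  obtain ⟨sel, hsel⟩ := exists_sel_injective hx P0 b β (by omega) hc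
  obtain ⟨ε, hε, hform⟩ := chowVal_eq hx P0 ht0 b β τ hd2 hd0 e sel hc z hz
  obtain ⟨r, hr⟩ := exists_tau_ne_zero hx P0 ht0 b τ hd2 τ3 hτ3 hτ3' y
  obtain ⟨t, ht⟩ := Fermat.Agent.MW.CHOW.JetMul6.exists_unif y
  -- the wedge vectors
  set φ : Fin d → Fin n × Fin n → K := fun j => if z j = y then
      (fun a => dpt (lHyp_of_isGen hx) P0 d ht0 b y ht a.1 * pt (lHyp_of_isGen hx) P0 d ht0 b y a.2 -
        dpt (lHyp_of_isGen hx) P0 d ht0 b y ht a.2 * pt (lHyp_of_isGen hx) P0 d ht0 b y a.1)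
    else (fun a => pt (lHyp_of_isGen hx) P0 d ht0 b y a.1 * pt (lHyp_of_isGen hx) P0 d ht0 b (z j) a.2 -
        pt (lHyp_of_isGen hx) P0 d ht0 b y a.2 * pt (lHyp_of_isGen hx) P0 d ht0 b (z j) a.1) with hφ
  have hφ0 : ∀ j ∈ (Set.univ : Set (Fin d)), φ j ≠ 0 := by
    intro j _
    by_cases hj : z j = y
    · simp only [hφ, if_pos hj]
      have h1 := wedge_ne_zero (pt_dpt_indep hx P0 ht0 b hd21 y ht)
      intro h0
      apply h1
      funext a
      have := congrFun h0 a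
      simp only [Pi.zero_apply] at this ⊢
      linear_combination -this
    · simp only [hφ, if_neg hj]
      exact wedge_ne_zero (pt_indep hx P0 ht0 b hd21 (Ne.symm hj))
  obtain ⟨W, hW⟩ := Fermat.Agent.MW.EMB.Cert6.exists_generic (K := K) (Set.univ : Set (Fin d))
    Set.finite_univ φ hφ0
  have ha : Fermat.Agent.MW.EMB.Lead6.lcSec (lHyp_of_isGen hx) P0 d t0 y t
      ((lin P0 d b c : Lm P0 d) : F) ≠ 0 :=
    Fermat.Agent.MW.EMB.Lead6.lcSec_ne_zero _ P0 d ht0 y ht (lin_ne_zero P0 d b hc)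
  have hid := hADJ sel hc z hz ε hform y ht r W
  have hrhs : eval (pt (lHyp_of_isGen hx) P0 d ht0 b y) (τ3 r) * ε *
      ∏ j, (if z j = y then
        ∑ a : Fin n × Fin n, W a *
          (dpt (lHyp_of_isGen hx) P0 d ht0 b y ht a.1 * pt (lHyp_of_isGen hx) P0 d ht0 b y a.2 -
            dpt (lHyp_of_isGen hx) P0 d ht0 b y ht a.2 * pt (lHyp_of_isGen hx) P0 d ht0 b y a.1)
        else ∑ a : Fin n × Fin n, W a *
          (pt (lHyp_of_isGen hx) P0 d ht0 b y a.1 * pt (lHyp_of_isGen hx) P0 d ht0 b (z j) a.2 -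
            pt (lHyp_of_isGen hx) P0 d ht0 b y a.2 * pt (lHyp_of_isGen hx) P0 d ht0 b (z j) a.1))
      ≠ 0 := by
    refine mul_ne_zero (mul_ne_zero hr (hε hsel)) (Finset.prod_ne_zero_iff.mpr fun j _ => ?_)
    have := hW j (Set.mem_univ j)
    by_cases hj : z j = y
    · simpa only [hφ, if_pos hj] using this
    · simpa only [hφ, if_neg hj] using this
  rw [← hid] at hrhs
  have hdv := right_ne_zero_of_mul hrhs
  rw [← eval_dPolyAt] at hdv
  have hpoly : dPolyAt (gTab P0 b β τ) e sel β2 r c (pt (lHyp_of_isGen hx) P0 d ht0 b y) ≠ 0 :=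
    fun h => hdv (by rw [h, map_zero])
  obtain ⟨γ, hγ⟩ := MvPolynomial.ne_zero_iff.mp hpoly
  rw [coeff_dPolyAt] at hγ
  have hγS : γ ∈ suppD P0 b β τ e β2 := by
    rw [suppD, Finset.mem_biUnion]
    refine ⟨(sel, r), Finset.mem_univ _, ?_⟩
    rw [MvPolynomial.mem_support_iff]
    intro h0
    apply hγ
    rw [dCoeff, h0, map_zero]
  exact ⟨((sel, r), ⟨γ, hγS⟩), hγ⟩

include hx in
/-- **Certificate for the Cramer quotient forms** on `ℙ^(n-1) × curve`. -/
theorem cert_D [DecidableEq (Place K F)] (hd : 4 * (genus K F : ℤ) ≤ d) (hd0 : 0 < d)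
    (e : I2 ⊕ Fin d ≃ I3) (β2 : I2 → MvPolynomial (Fin n) K)
    (hβ2 : ∀ q, (β2 q).IsHomogeneous 2)
    (τ3 : I3 → MvPolynomial (Fin n) K) (hτ3 : ∀ r, (τ3 r).IsHomogeneous 3)
    (hτ3' : ∀ r, formFn P0 d b (τ3 r) = ((τ r : Lm P0 (d + (d + d))) : F))
    (hADJ : AdjId hx P0 ht0 b β τ e β2 τ3) :
    ∃ (M : Fin 2 →₀ ℕ) (q : Choice (grp2 n) × (((Fin d → I2) × I3) × ↥(suppD P0 b β τ e β2)) →
        MvPolynomial (Fin n ⊕ Fin n) K),
      (∀ a, IsWeightedHomogeneous (wt (grp2 n)) (q a) M) ∧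
      ∀ x ∈ coneD hx P0 ht0 b, ∀ k : Choice (grp2 n),
        ∑ j, eval x (q (k, j)) * eval x (famD P0 b β τ e β2 j) =
          ∏ g, x (k.1 g) ^ (M g + (Finsupp.single (0 : Fin 2) (Fintype.card I2 - 1) +
            Finsupp.single 1 (Fintype.card (Fin d) + 2) : Fin 2 →₀ ℕ) g) := by
  refine exists_multicert (K := K) (grp2 n) (coneD hx P0 ht0 b) ?_ (famD P0 b β τ e β2)
    (fun j => dCoeff_homogeneous _ e j.1.1 β2 hβ2 j.1.2 j.2.1) ?_
  · -- the cone is stable under scaling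
    rintro x ⟨v, μ, hxv⟩ lam
    refine ⟨v, lam 1 * μ, ?_⟩
    funext i
    have := congrFun hxv i
    simp only [Pi.smul_apply, smul_eq_mul] at this ⊢
    simp only [scale, grp2, Sum.elim_inr, this]
    ring
  · intro x hxZ hall
    set Y : Fin n → K := fun i => x (Sum.inr i) with hY
    set c : Fin n → K := fun i => x (Sum.inl i) with hc
    have hYZ : Y ∈ zeroLocus K (vanishingIdeal K (cone (lHyp_of_isGen hx) P0 d ht0 b)) := by
      rw [mem_zeroLocus_iff]
      intro p hp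
      have h1 : rename Sum.inr p ∈ vanishingIdeal K (coneD hx P0 ht0 b) := by
        rw [mem_vanishingIdeal_iff]
        intro x' hx'
        rw [aeval_rename]
        exact (mem_vanishingIdeal_iff.mp hp) _ hx'
      have h2 := (mem_zeroLocus_iff.mp hxZ) _ h1
      rwa [aeval_rename] at h2
    have hY0 : Y = 0 → ∃ g : Fin 2, ∀ i, grp2 n i = g → x i = 0 := by
      intro h0
      refine ⟨1, fun i hi => ?_⟩
      rcases i with i | i
      · simp [grp2] at hi
      · exact congrFun h0 i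
    rcases cone_closed hx P0 ht0 hd b Y hYZ with h0 | ⟨v, lam, hv⟩
    · exact hY0 h0
    · by_cases hlam : lam = 0
      · exact hY0 (by rw [hv, hlam, zero_smul])
      by_cases hc0 : c = 0
      · refine ⟨0, fun i hi => ?_⟩
        rcases i with i | i
        · exact congrFun hc0 i
        · simp [grp2] at hi
      exfalso
      obtain ⟨j, hj⟩ := exists_famD_ne_zero hx P0 ht0 b β τ hd hd0 e β2 τ3 hτ3 hτ3' hADJ hc0 v
      apply hj
      have hxs : x = scale (grp2 n) (fun g => if g = 0 then 1 else lam)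
          (Sum.elim c (pt (lHyp_of_isGen hx) P0 d ht0 b v)) := by
        funext i
        rcases i with i | i
        · simp [scale, grp2, hc]
        · have := congrFun hv i
          simp only [Pi.smul_apply, smul_eq_mul] at this
          simp [scale, grp2, ← this, hY]
      have h1 := hall j
      have hhom : IsWeightedHomogeneous (wt (grp2 n)) (famD P0 b β τ e β2 j) _ :=
        dCoeff_homogeneous _ e j.1.1 β2 hβ2 j.1.2 j.2.1
      rw [hxs, eval_scale (grp2 n) hhom] at h1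
      refine (mul_eq_zero.mp h1).resolve_left ?_
      refine Finset.prod_ne_zero_iff.mpr fun g _ => pow_ne_zero _ ?_
      split_ifs
      · exact one_ne_zero
      · exact hlam

end RR

end Fermat.Agent.MW.CHOW.ChowCert8
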