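/-
PROGRAMME MW (S17), block CHOW+UD (helper6).  `LocFactor6`: the pure absolute-value lemmas behind the
LOCAL one-sided uniform decomposition (no curve; on top of helper3's `Factor3`/`GaussG3`).

* `factor_upper` : from `RA = C ε * ∏ j, lin (u j)` and `C a * DA = C (T * ε) * ∏ j, lin (w j)`:
  `|a| * gaussN DA * ∏ ‖u j‖ ≤ hardC * easyC * |T| * gaussN RA * ∏ ‖w j‖`;
* `supN_minors_le` : `‖x ∧ y‖ ≤ archC 2 v * ‖x‖ * ‖y‖`;
* `prod_le_of_eff_le` : dropping factors: if the multiset `{z₁ j | j ∈ s₁}` is contained in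
  `{z₂ j | j ∈ s₂}` and `0 ≤ f ≤ B`, `1 ≤ B`, then `∏_{s₂} f ∘ z₂ ≤ B ^ card s₂ * ∏_{s₁} f ∘ z₁`.
-/
import Mathlib
import Fermat.Agent.MW.HT.Factor3
import Fermat.Agent.MW.PAIR.Pairing4

set_option autoImplicit false
set_option linter.unusedSectionVars false

namespace Fermat.Agent.MW.CHOW.LocFactor6

open Fermat.Agent.MW.HT.Place3 Fermat.Agent.MW.HT.Ht3 Fermat.Agent.MW.HT.Lin3
  Fermat.Agent.MW.HT.Kron3 Fermat.Agent.MW.HT.MvGauss3 Fermat.Agent.MW.HT.GaussG3
  Fermat.Agent.MW.HT.Factor3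

open MvPolynomial

/-- **One-sided factor lemma.** -/
theorem factor_upper {κ₁ κ₂ : Type*} [Fintype κ₁] [Fintype κ₂] {d : ℕ} (v : Place)
    (RA : MvPolynomial κ₁ Qbar) (DA : MvPolynomial κ₂ Qbar)
    (u : Fin d → κ₁ → Qbar) (w : Fin d → κ₂ → Qbar) (a eps T : Qbar)
    (h1 : RA = C eps * ∏ j, ∑ i, C (u j i) * X i)
    (h2 : C a * DA = C (T * eps) * ∏ j, ∑ i, C (w j i) * X i) :
    absV v a * gaussN v DA * ∏ j, supN v (u j) ≤
      hardC d (Fintype.card κ₁) v * easyC d (Fintype.card κ₂) v *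
        (absV v T * gaussN v RA * ∏ j, supN v (w j)) := by
  set Pu : ℝ := ∏ j, supN v (u j) with hPu
  set Pw : ℝ := ∏ j, supN v (w j) with hPw
  set Gu : ℝ := gaussN v (∏ j, linG (u j)) with hGu
  set Gw : ℝ := gaussN v (∏ j, linG (w j)) with hGw
  have hPu0 : 0 ≤ Pu := Finset.prod_nonneg fun j _ => supN_nonneg v _
  have hPw0 : 0 ≤ Pw := Finset.prod_nonneg fun j _ => supN_nonneg v _
  have hGu0 : 0 ≤ Gu := gaussN_nonneg v _
  have hH : 1 ≤ hardC d (Fintype.card κ₁) v := one_le_hardC _ _ _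
  have hE : 1 ≤ easyC d (Fintype.card κ₂) v := one_le_easyC _ _ _
  have hPuH : Pu ≤ hardC d (Fintype.card κ₁) v * Gu := prod_supN_le_hardC_mul v u
  have hGwE : Gw ≤ easyC d (Fintype.card κ₂) v * Pw := gaussN_prodLinG_le_easyC_mul v w
  have eR : gaussN v RA = absV v eps * Gu := by
    rw [h1, gaussN_C_mul]
    simp only [← linG_eq]
    rfl
  have eD : absV v a * gaussN v DA = absV v T * absV v eps * Gw := by
    rw [← gaussN_C_mul, h2, gaussN_C_mul, map_mul]
    simp only [← linG_eq]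
    rfl
  have hT0 : 0 ≤ absV v T := (absV v).nonneg _
  have he0 : 0 ≤ absV v eps := (absV v).nonneg _
  calc absV v a * gaussN v DA * Pu = absV v T * absV v eps * Gw * Pu := by rw [eD]
    _ ≤ absV v T * absV v eps * (easyC d (Fintype.card κ₂) v * Pw) *
          (hardC d (Fintype.card κ₁) v * Gu) := by gcongr
    _ = hardC d (Fintype.card κ₁) v * easyC d (Fintype.card κ₂) v *
          (absV v T * (absV v eps * Gu) * Pw) := by ring
    _ = _ := by rw [eR]

/-- the `2 × 2` minors are bounded by the product of the sup norms. -/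
theorem supN_minors_le {κ : Type*} [Finite κ] (v : Place) (x y : κ → Qbar) :
    supN v (fun a : κ × κ => x a.1 * y a.2 - x a.2 * y a.1) ≤
      archC 2 v * supN v x * supN v y := by
  have hx0 := supN_nonneg v x
  have hy0 := supN_nonneg v y
  have hA : 0 ≤ archC 2 v := (archC_pos (by norm_num) v).le
  refine supN_le v _ (mul_nonneg (mul_nonneg hA hx0) hy0) fun a => ?_
  have h1 : absV v (x a.1 * y a.2) ≤ supN v x * supN v y := by
    rw [map_mul]
    exact mul_le_mul (le_supN v x _) (le_supN v y _) ((absV v).nonneg _) hx0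
  have h2 : absV v (x a.2 * y a.1) ≤ supN v x * supN v y := by
    rw [map_mul]
    exact mul_le_mul (le_supN v x _) (le_supN v y _) ((absV v).nonneg _) hx0
  rcases v with _ | p
  · rw [archC_none]
    calc absV none (x a.1 * y a.2 - x a.2 * y a.1)
        = absV none (x a.1 * y a.2 + -(x a.2 * y a.1)) := by rw [sub_eq_add_neg]
      _ ≤ absV none (x a.1 * y a.2) + absV none (-(x a.2 * y a.1)) := (absV none).add_le _ _
      _ = absV none (x a.1 * y a.2) + absV none (x a.2 * y a.1) := by rw [(absV none).map_neg]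
      _ ≤ supN none x * supN none y + supN none x * supN none y := add_le_add h1 h2
      _ = ((2 : ℕ) : ℝ) * supN none x * supN none y := by push_cast; ring
  · rw [archC_some, one_mul]
    have h3 := (absV_nonarch p) (x a.1 * y a.2) (-(x a.2 * y a.1))
    rw [← sub_eq_add_neg, (absV (some p)).map_neg] at h3
    exact h3.trans (max_le h1 h2)

open Fermat.Agent.MW.PAIR.Pairing4 in
/-- **Dropping factors**: a product over a multiset of points against a product over a
sub-multiset. -/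
theorem prod_le_of_eff_le {Pt : Type*} {ι₁ ι₂ : Type*} (f : Pt → ℝ) {B : ℝ}
    (hf0 : ∀ w, 0 ≤ f w) (hfB : ∀ w, f w ≤ B) (hB : 1 ≤ B) (z₁ : ι₁ → Pt) (z₂ : ι₂ → Pt)
    (s₁ : Finset ι₁) :
    ∀ s₂ : Finset ι₂, eff s₁ z₁ ≤ eff s₂ z₂ →
      ∏ j ∈ s₂, f (z₂ j) ≤ B ^ s₂.card * ∏ j ∈ s₁, f (z₁ j) := by
  classical
  induction s₁ using Finset.induction_on with
  | empty =>
    intro s₂ _
    rw [Finset.prod_empty, mul_one]
    calc ∏ j ∈ s₂, f (z₂ j) ≤ ∏ j ∈ s₂, B :=
          Finset.prod_le_prod (fun j _ => hf0 _) (fun j _ => hfB _)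
      _ = B ^ s₂.card := Finset.prod_const B
  | insert j₀ s₁ hj₀ ih =>
    intro s₂ hle
    have hnn : ∀ (w : Pt), 0 ≤ (∑ k ∈ s₁, Finsupp.single (z₁ k) (1 : ℤ)) w := by
      intro w
      rw [Finsupp.finsetSum_apply]
      refine Finset.sum_nonneg fun k _ => ?_
      rw [Finsupp.single_apply]
      split_ifs <;> norm_num
    have h1 : (1 : ℤ) ≤ eff s₂ z₂ (z₁ j₀) := by
      have := hle (z₁ j₀)
      rw [eff, Finset.sum_insert hj₀, Finsupp.add_apply, Finsupp.single_eq_same] at this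
      have h0 := hnn (z₁ j₀)
      linarith
    obtain ⟨k, hk, hzk⟩ : ∃ k ∈ s₂, z₂ k = z₁ j₀ := by
      by_contra hcon
      push Not at hcon
      have : eff s₂ z₂ (z₁ j₀) = 0 := by
        rw [eff, Finsupp.finsetSum_apply]
        exact Finset.sum_eq_zero fun k hk => by rw [Finsupp.single_apply, if_neg (hcon k hk)]
      omega
    have h2 : eff s₂ z₂ = Finsupp.single (z₂ k) 1 + eff (s₂.erase k) z₂ := by
      rw [eff, eff]
      exact (Finset.add_sum_erase s₂ (fun k => Finsupp.single (z₂ k) (1 : ℤ)) hk).symm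
    have hle' : eff s₁ z₁ ≤ eff (s₂.erase k) z₂ := by
      intro w
      have := hle w
      rw [eff, Finset.sum_insert hj₀, Finsupp.add_apply, h2, Finsupp.add_apply, hzk] at this
      rw [eff]
      linarith
    have hih := ih (s₂.erase k) hle'
    rw [Finset.card_erase_of_mem hk] at hih
    have hP0 : 0 ≤ ∏ j ∈ s₁, f (z₁ j) := Finset.prod_nonneg fun j _ => hf0 _
    have hBpow : B ^ (s₂.card - 1) ≤ B ^ s₂.card := pow_le_pow_right₀ hB (Nat.sub_le _ _)
    rw [← Finset.mul_prod_erase s₂ _ hk, Finset.prod_insert hj₀, hzk]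
    calc f (z₁ j₀) * ∏ x ∈ s₂.erase k, f (z₂ x)
        ≤ f (z₁ j₀) * (B ^ (s₂.card - 1) * ∏ j ∈ s₁, f (z₁ j)) :=
          mul_le_mul_of_nonneg_left hih (hf0 _)
      _ ≤ f (z₁ j₀) * (B ^ s₂.card * ∏ j ∈ s₁, f (z₁ j)) :=
          mul_le_mul_of_nonneg_left (mul_le_mul_of_nonneg_right hBpow hP0) (hf0 _)
      _ = _ := by ring

end Fermat.Agent.MW.CHOW.LocFactor6
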