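/-
PROGRAMME MW (S17), block CHOW+UD (helper6).  `ChowLoc6`: the LOCAL one-sided uniform decomposition
with multiplicity `HadLoc9.LocUD` for the curve embedded by `|d·P0|` over `Qbar`
(instantiation of the Chow machinery: product formula `ChowPF8`, adjunction identity `ChowAdj6`,
Nullstellensatz certificate `ChowCert8.cert_D`, local height estimates `PolyLoc3`/`MultiLoc3`,
Gauss lemma `Factor3`).

* `chowPolyAt_eq`, `dPolyAt_eq` : the two polynomial identities (any infinite field);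
* `jev_eq_lcSec` : the `m`-th Taylor coefficient of a section of order `m` is its leading coefficient;
* `gaussN_chowPolyAt_le`, `lower_D`, `full_bound` : the local estimates (full enumeration);
* `locUD_of_full` : passage to sub-divisors (dropping factors);
* **`exists_locUD`**.
-/
import Mathlib
import Fermat.Agent.MW.CHOW.ChowAdj6
import Fermat.Agent.MW.CHOW.ChowCert8
import Fermat.Agent.MW.CHOW.LocFactor6
import Fermat.Agent.MW.HT.MultiLoc3
import Fermat.Agent.MW.POS.HadLoc9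

set_option autoImplicit false
set_option linter.unusedSectionVars false

open AlgebraicCurve

namespace Fermat.Agent.MW.CHOW.ChowLoc6

open MvPolynomial
open Fermat.Agent.X0.FF Fermat.Agent.RR.LSpace Fermat.Agent.RR.LHypGen
open Fermat.Agent.MW.EMB.Value6 Fermat.Agent.MW.EMB.OnePoint6 Fermat.Agent.MW.EMB.Coord6
open Fermat.Agent.MW.EMB.Tangent6 Fermat.Agent.MW.EMB.Proj6 Fermat.Agent.MW.EMB.Lead6
open Fermat.Agent.MW.EMB.Form6
open Fermat.Agent.MW.POS.Jet9
open Fermat.Agent.MW.CHOW.ChowAlg8 Fermat.Agent.MW.CHOW.ChowPF8 Fermat.Agent.MW.CHOW.ChowPoly8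
open Fermat.Agent.MW.CHOW.ChowCert8 Fermat.Agent.MW.CHOW.Null8

/-! ### The two polynomial identities -/

section Poly

variable {K F : Type*} [Field K] [Field F] [Algebra K F]
variable (H : LHyp K F) (P0 : Place K F) {d : ℕ} {t0 : F} (ht0 : P0.ord t0 = 1) {n : ℕ}
  (b : Module.Basis (Fin n) K (Lm P0 d))
  {I2 I3 : Type*} [Fintype I2] [Fintype I3] [DecidableEq I2] [DecidableEq I3]
  (β : Module.Basis I2 K (Lm P0 (d + d))) (τ : Module.Basis I3 K (Lm P0 (d + (d + d))))

/-- the Chow polynomial at `c` is `ε` times the product of the linear forms of the points of the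
hyperplane section. -/
theorem chowPolyAt_eq [Infinite K] (e : I2 ⊕ Fin d ≃ I3) (sel : Fin d → I2) (c : Fin n → K)
    (pz : Fin d → Fin n → K) (eps : K)
    (heps : ∀ c' : Fin n → K, chowVal (gTab P0 b β τ) e sel c c' = eps * ∏ j, ∑ i, c' i * pz j i) :
    chowPolyAt (gTab P0 b β τ) e sel c = C eps * ∏ j, ∑ i, C (pz j i) * X i := by
  apply MvPolynomial.funext
  intro c'
  rw [eval_chowPolyAt, heps c']
  simp only [map_mul, map_prod, map_sum, eval_C, eval_X]
  congr 1
  refine Finset.prod_congr rfl fun j _ => Finset.sum_congr rfl fun i _ => ?_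
  ring

/-- the wedge vectors of the adjunction identity. -/
noncomputable def wv [DecidableEq (Place K F)] (z : Fin d → Place K F) (y : Place K F) {t : F}
    (ht : y.ord t = 1) (j : Fin d) : Fin n × Fin n → K :=
  if z j = y then
    fun a => dpt H P0 d ht0 b y ht a.1 * pt H P0 d ht0 b y a.2 -
      dpt H P0 d ht0 b y ht a.2 * pt H P0 d ht0 b y a.1
  else
    fun a => pt H P0 d ht0 b y a.1 * pt H P0 d ht0 b (z j) a.2 -
      pt H P0 d ht0 b y a.2 * pt H P0 d ht0 b (z j) a.1

/-- the Cramer quotient polynomial at `(c, pt y)`, times the leading coefficient of `l_c` at `y`,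
is `τ_r(pt y) ε` times the product of the linear forms of the wedge vectors. -/
theorem dPolyAt_eq [Infinite K] [DecidableEq (Place K F)] (e : I2 ⊕ Fin d ≃ I3)
    (sel : Fin d → I2)
    (beta2 : I2 → MvPolynomial (Fin n) K) (hb2 : ∀ q, (beta2 q).IsHomogeneous 2)
    (hb2' : ∀ q, formFn P0 d b (beta2 q) = ((β q : Lm P0 (d + d)) : F))
    (tau3 : I3 → MvPolynomial (Fin n) K) (ht3 : ∀ r, (tau3 r).IsHomogeneous 3)
    (ht3' : ∀ r, formFn P0 d b (tau3 r) = ((τ r : Lm P0 (d + (d + d))) : F))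
    {c : Fin n → K} (hc : c ≠ 0) (z : Fin d → Place K F)
    (hz : hyp H P0 d b hc = ∑ j, Finsupp.single (z j) 1) (eps : K)
    (heps : ∀ c' : Fin n → K, chowVal (gTab P0 b β τ) e sel c c' =
      eps * ∏ j, ∑ i, c' i * pt H P0 d ht0 b (z j) i)
    (y : Place K F) {t : F} (ht : y.ord t = 1) (r : I3) :
    C (lcSec H P0 d t0 y t ((lin P0 d b c : Lm P0 d) : F)) *
        dPolyAt (gTab P0 b β τ) e sel beta2 r c (pt H P0 d ht0 b y) =
      C (eval (pt H P0 d ht0 b y) (tau3 r) * eps) *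
        ∏ j, ∑ a, C (wv H P0 ht0 b z y ht j a) * X a := by
  apply MvPolynomial.funext
  intro W
  rw [map_mul, eval_C, eval_dPolyAt,
    Fermat.Agent.MW.CHOW.ChowAdj6.adj_identity H P0 ht0 b β τ e sel beta2 hb2 hb2' tau3 ht3 ht3' hc
      z hz eps heps y ht r W]
  simp only [map_mul, map_prod, map_sum, eval_C, eval_X]
  congr 1
  refine Finset.prod_congr rfl fun j _ => ?_
  unfold wv
  split_ifs
  · refine Finset.sum_congr rfl fun a _ => ?_
    ring
  · refine Finset.sum_congr rfl fun a _ => ?_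
    ring

/-- the `m`-th Taylor coefficient of a section vanishing to order exactly `m` is its leading
coefficient. -/
theorem jev_eq_lcSec (y : Place K F) {t : F} (ht : y.ord t = 1) (f : Lm P0 d) (hf : (f : F) ≠ 0)
    (m : ℕ) (hm : ordSec P0 d t0 y (f : F) = m) :
    jev H P0 d ht0 y ht m f = lcSec H P0 d t0 y t (f : F) := by
  have hLv : ∀ j < m, jev H P0 d ht0 y ht j f = 0 :=
    (le_ordSec_iff H P0 d ht0 y ht f hf m).mp (by rw [hm])
  rw [lcSec_eq_valF H P0 d t0 y t _ hm]
  exact jev_eq_valF_div H P0 d ht0 y ht f m hLv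

end Poly

/-! ### The local estimates over `Qbar` -/

section Local

open Fermat.Agent.MW.HT.Place3 (Qbar absV)
open Fermat.Agent.MW.HT.Ht3 (supN supN_nonneg le_supN supN_le supN_pos)
open Fermat.Agent.MW.HT.Lin3 (archC archC_pos)
open Fermat.Agent.MW.HT.Kron3 (gaussN gaussN_nonneg le_gaussN gaussN_le)
open Fermat.Agent.MW.HT.PolyLoc3 Fermat.Agent.MW.HT.MultiLoc3
open Fermat.Agent.MW.POS.HadLoc9 (VPl)

variable {F : Type*} [Field F] [Algebra Qbar F] {x : F}
  [HasCanonicalDivisor (K := Qbar) (F := F)]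
variable (hx : IsGen Qbar x) (P0 : Place Qbar F) {d : ℕ} {t0 : F} (ht0 : P0.ord t0 = 1) {n : ℕ}
  (b : Module.Basis (Fin n) Qbar (Lm P0 d))
  {I2 I3 : Type*} [Fintype I2] [Fintype I3] [DecidableEq I2] [DecidableEq I3]
  (β : Module.Basis I2 Qbar (Lm P0 (d + d))) (τ : Module.Basis I3 Qbar (Lm P0 (d + (d + d))))

/-- the sup norm of the single group of variables. -/
theorem xg_grp1 (v : VPl) (c : Fin n → Qbar) : xg v (grp1 n) c 0 = supN v c := by
  apply le_antisymm
  · exact supN_le v _ (supN_nonneg v c) fun i => le_supN v c i.1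
  · exact supN_le v _ (xg_nonneg v _ _ _) fun i => absV_le_xg v (grp1 n) c i

/-- the sup norms of the two groups of variables. -/
theorem xg_grp2_zero (v : VPl) (c Y : Fin n → Qbar) :
    xg v (grp2 n) (Sum.elim c Y) 0 = supN v c := by
  apply le_antisymm
  · refine supN_le v _ (supN_nonneg v c) fun i => ?_
    obtain ⟨i, hi⟩ := i
    rcases i with i | i
    · exact le_supN v c i
    · simp [grp2] at hi
  · exact supN_le v _ (xg_nonneg v _ _ _) fun i =>
      absV_le_xg v (grp2 n) (Sum.elim c Y) (Sum.inl i)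

theorem xg_grp2_one (v : VPl) (c Y : Fin n → Qbar) :
    xg v (grp2 n) (Sum.elim c Y) 1 = supN v Y := by
  apply le_antisymm
  · refine supN_le v _ (supN_nonneg v Y) fun i => ?_
    obtain ⟨i, hi⟩ := i
    rcases i with i | i
    · simp [grp2] at hi
    · exact le_supN v Y i
  · exact supN_le v _ (xg_nonneg v _ _ _) fun i =>
      absV_le_xg v (grp2 n) (Sum.elim c Y) (Sum.inr i)

/-- trivial upper bound for the Gauss norm of the Chow polynomial at `c`. -/
theorem gaussN_chowPolyAt_le (v : VPl) (e : I2 ⊕ Fin d ≃ I3) (sel : Fin d → I2)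
    (c : Fin n → Qbar) :
    gaussN v (chowPolyAt (gTab P0 b β τ) e sel c) ≤
      (⨆ j, coeffC v (famR P0 b β τ e j)) * supN v c ^ (Fintype.card I2) := by
  have hC0 : 0 ≤ ⨆ j, coeffC v (famR P0 b β τ e j) :=
    Real.iSup_nonneg fun j => coeffC_nonneg v _
  have hB : 0 ≤ (⨆ j, coeffC v (famR P0 b β τ e j)) * supN v c ^ (Fintype.card I2) :=
    mul_nonneg hC0 (pow_nonneg (supN_nonneg v c) _)
  refine gaussN_le v _ hB fun α => ?_
  rw [coeff_chowPolyAt]
  by_cases hα : α ∈ suppR P0 b β τ e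
  · have h1 := absV_eval_le_multi v (grp1 n)
      (chowCoeff_homogeneous (gTab P0 b β τ) e sel α) c
    have h2 : ∏ g, xg v (grp1 n) c g ^ (Finsupp.single (0 : Fin 1) (Fintype.card I2)) g =
        supN v c ^ (Fintype.card I2) := by
      rw [Fin.prod_univ_one, Finsupp.single_eq_same, xg_grp1]
    rw [h2] at h1
    refine h1.trans (mul_le_mul_of_nonneg_right ?_ (pow_nonneg (supN_nonneg v c) _))
    exact Finite.le_ciSup (fun j => coeffC v (famR P0 b β τ e j)) (sel, ⟨α, hα⟩)
  · have h0 : chowCoeff (gTab P0 b β τ) e sel α = 0 := by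
      rw [chowCoeff]
      by_contra hne
      apply hα
      rw [suppR, Finset.mem_biUnion]
      exact ⟨sel, Finset.mem_univ _, MvPolynomial.mem_support_iff.mpr hne⟩
    rw [h0, map_zero, map_zero]
    exact hB

/-- lower bound for the Cramer quotient polynomials at `(c, pt y)` from the certificate. -/
theorem lower_D (v : VPl) (e : I2 ⊕ Fin d ≃ I3)
    (beta2 : I2 → MvPolynomial (Fin n) Qbar) {M : Fin 2 →₀ ℕ}
    (qD : Choice (grp2 n) × (((Fin d → I2) × I3) × ↥(suppD P0 b β τ e beta2)) →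
      MvPolynomial (Fin n ⊕ Fin n) Qbar)
    (hq : ∀ a, IsWeightedHomogeneous (wt (grp2 n)) (qD a) M)
    (hid : ∀ x ∈ coneD hx P0 ht0 b, ∀ k : Choice (grp2 n),
      ∑ j, eval x (qD (k, j)) * eval x (famD P0 b β τ e beta2 j) =
        ∏ g, x (k.1 g) ^ (M g + (Finsupp.single (0 : Fin 2) (Fintype.card I2 - 1) +
          Finsupp.single 1 (Fintype.card (Fin d) + 2) : Fin 2 →₀ ℕ) g))
    (hd : 2 * (genus Qbar F : ℤ) ≤ d) {c : Fin n → Qbar} (hc : c ≠ 0) (y : Place Qbar F) :
    supN v c ^ (Fintype.card I2 - 1) * supN v (pt (lHyp_of_isGen hx) P0 d ht0 b y) ^ (d + 2) ≤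
      archC (Fintype.card (((Fin d → I2) × I3) × ↥(suppD P0 b β τ e beta2))) v *
        (⨆ a, coeffC v (qD a)) *
        ⨆ p : (Fin d → I2) × I3,
          gaussN v (dPolyAt (gTab P0 b β τ) e p.1 beta2 p.2 c
            (pt (lHyp_of_isGen hx) P0 d ht0 b y)) := by
  set Y := pt (lHyp_of_isGen hx) P0 d ht0 b y with hY
  set xx : Fin n ⊕ Fin n → Qbar := Sum.elim c Y with hxx
  have hcone : xx ∈ coneD hx P0 ht0 b := by
    refine ⟨y, 1, ?_⟩
    funext i
    simp [hxx, hY]
  have hYne : Y ≠ 0 := pt_ne_zero hx P0 ht0 b hd y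
  have hx' : ∀ g : Fin 2, ∃ i, grp2 n i = g ∧ xx i ≠ 0 := by
    intro g
    fin_cases g
    · obtain ⟨i, hi⟩ := Function.ne_iff.mp hc
      exact ⟨Sum.inl i, rfl, hi⟩
    · obtain ⟨i, hi⟩ := Function.ne_iff.mp hYne
      exact ⟨Sum.inr i, rfl, hi⟩
  have h := supN_eval_ge_multi v (grp2 n) qD hq (famD P0 b β τ e beta2) xx hx' (hid xx hcone)
  have hL : ∏ g, xg v (grp2 n) xx g ^ (Finsupp.single (0 : Fin 2) (Fintype.card I2 - 1) +
      Finsupp.single 1 (Fintype.card (Fin d) + 2) : Fin 2 →₀ ℕ) g =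
      supN v c ^ (Fintype.card I2 - 1) * supN v Y ^ (d + 2) := by
    rw [Fin.prod_univ_two, hxx, xg_grp2_zero, xg_grp2_one]
    simp
  rw [hL] at h
  refine h.trans (mul_le_mul_of_nonneg_left ?_ ?_)
  · have hS0 : 0 ≤ ⨆ p : (Fin d → I2) × I3,
        gaussN v (dPolyAt (gTab P0 b β τ) e p.1 beta2 p.2 c Y) :=
      Real.iSup_nonneg fun p => gaussN_nonneg v _
    refine supN_le v _ hS0 fun j => ?_
    have h1 : eval xx (famD P0 b β τ e beta2 j) =
        coeff j.2.1 (dPolyAt (gTab P0 b β τ) e j.1.1 beta2 j.1.2 c Y) := by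
      rw [coeff_dPolyAt]
      rfl
    rw [h1]
    refine (le_gaussN v _ _).trans ?_
    exact Finite.le_ciSup (fun p : (Fin d → I2) × I3 =>
      gaussN v (dPolyAt (gTab P0 b β τ) e p.1 beta2 p.2 c Y)) j.1
  · refine mul_nonneg ?_ (Real.iSup_nonneg fun a => coeffC_nonneg v _)
    rcases v with _ | p
    · rw [Fermat.Agent.MW.HT.Lin3.archC_none]; exact Nat.cast_nonneg _
    · rw [Fermat.Agent.MW.HT.Lin3.archC_some]; exact zero_le_one

/-- the sup norm of the minors does not depend on the order of the two vectors. -/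
theorem supN_minors_swap (v : VPl) (x y : Fin n → Qbar) :
    supN v (fun a : Fin n × Fin n => x a.1 * y a.2 - x a.2 * y a.1) =
      supN v (fun a : Fin n × Fin n => y a.1 * x a.2 - y a.2 * x a.1) := by
  have h : (fun a : Fin n × Fin n => x a.1 * y a.2 - x a.2 * y a.1) =
      (-1 : Qbar) • (fun a : Fin n × Fin n => y a.1 * x a.2 - y a.2 * x a.1) := by
    funext a
    simp only [Pi.smul_apply, smul_eq_mul]
    ring
  rw [h, Fermat.Agent.MW.HT.Ht3.supN_smul, map_neg_eq_map, map_one, one_mul]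

open Fermat.Agent.MW.HT.Factor3 (hardC easyC) in
open Fermat.Agent.MW.POS.HadLoc9 (chi kap) in
/-- **The local one-sided uniform decomposition, full enumeration form.** -/
theorem full_bound [DecidableEq (Place Qbar F)] (v : VPl) (e : I2 ⊕ Fin d ≃ I3)
    (beta2 : I2 → MvPolynomial (Fin n) Qbar) (hb2 : ∀ q, (beta2 q).IsHomogeneous 2)
    (hb2' : ∀ q, formFn P0 d b (beta2 q) = ((β q : Lm P0 (d + d)) : F))
    (tau3 : I3 → MvPolynomial (Fin n) Qbar) (ht3 : ∀ r, (tau3 r).IsHomogeneous 3)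
    (ht3' : ∀ r, formFn P0 d b (tau3 r) = ((τ r : Lm P0 (d + (d + d))) : F))
    {M : Fin 2 →₀ ℕ}
    (qD : Choice (grp2 n) × (((Fin d → I2) × I3) × ↥(suppD P0 b β τ e beta2)) →
      MvPolynomial (Fin n ⊕ Fin n) Qbar)
    (hq : ∀ a, IsWeightedHomogeneous (wt (grp2 n)) (qD a) M)
    (hid : ∀ x ∈ coneD hx P0 ht0 b, ∀ k : Choice (grp2 n),
      ∑ j, eval x (qD (k, j)) * eval x (famD P0 b β τ e beta2 j) =
        ∏ g, x (k.1 g) ^ (M g + (Finsupp.single (0 : Fin 2) (Fintype.card I2 - 1) +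
          Finsupp.single 1 (Fintype.card (Fin d) + 2) : Fin 2 →₀ ℕ) g))
    (hd : 4 * (genus Qbar F : ℤ) ≤ d) (hd0 : 0 < d)
    {c : Fin n → Qbar} (hc : c ≠ 0) (y : Place Qbar F) {t : F} (ht : y.ord t = 1)
    (z : Fin d → Place Qbar F)
    (hz : hyp (lHyp_of_isGen hx) P0 d b hc = ∑ j, Finsupp.single (z j) 1) :
    absV v (lcSec (lHyp_of_isGen hx) P0 d t0 y t ((lin P0 d b c : Lm P0 d) : F)) ≤
      (⨆ j, coeffC v (famR P0 b β τ e j)) * (⨆ r, coeffC v (tau3 r)) *
        (archC (Fintype.card (((Fin d → I2) × I3) × ↥(suppD P0 b β τ e beta2))) v *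
          ⨆ a, coeffC v (qD a)) *
        (hardC d (Fintype.card (Fin n)) v * easyC d (Fintype.card (Fin n × Fin n)) v) *
        supN v c * supN v (pt (lHyp_of_isGen hx) P0 d ht0 b y) *
        ∏ j, (if z j = y then kap (lHyp_of_isGen hx) P0 d ht0 b v y ht
          else chi (lHyp_of_isGen hx) P0 d ht0 b v (z j) y) := by
  have hg0 : (0 : ℤ) ≤ genus Qbar F := by positivity
  have hd2 : 2 * (genus Qbar F : ℤ) ≤ d := by omega
  -- the product formula for every selection
  have hPF : ∀ sel : Fin d → I2, ∃ eps : Qbar, ∀ c' : Fin n → Qbar,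
      chowVal (gTab P0 b β τ) e sel c c' =
        eps * ∏ j, ∑ i, c' i * pt (lHyp_of_isGen hx) P0 d ht0 b (z j) i := by
    intro sel
    obtain ⟨ε, -, h⟩ := chowVal_eq hx P0 ht0 b β τ hd2 hd0 e sel hc z hz
    exact ⟨ε, h⟩
  choose eps heps using hPF
  set a := lcSec (lHyp_of_isGen hx) P0 d t0 y t ((lin P0 d b c : Lm P0 d) : F) with ha
  set Y := pt (lHyp_of_isGen hx) P0 d ht0 b y with hY
  -- nonemptiness
  obtain ⟨sel0, -⟩ := exists_sel_injective hx P0 b β (by omega) hc
  have : Nonempty ((Fin d → I2) × I3) := ⟨(sel0, e (Sum.inr ⟨0, hd0⟩))⟩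
  obtain ⟨k, hk⟩ : ∃ k, Fintype.card I2 = k + 1 :=
    Nat.exists_eq_succ_of_ne_zero (Fintype.card_pos_iff.mpr ⟨sel0 ⟨0, hd0⟩⟩).ne'
  -- the maximising pair
  obtain ⟨⟨sel, r⟩, hsr⟩ := exists_eq_ciSup_of_finite
    (f := fun p : (Fin d → I2) × I3 =>
      gaussN v (dPolyAt (gTab P0 b β τ) e p.1 beta2 p.2 c Y))
  have hlow := lower_D hx P0 ht0 b β τ v e beta2 qD hq hid hd2 hc y
  rw [← hsr, hk, Nat.add_sub_cancel] at hlow
  have hfac := Fermat.Agent.MW.CHOW.LocFactor6.factor_upper v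
    (chowPolyAt (gTab P0 b β τ) e sel c)
    (dPolyAt (gTab P0 b β τ) e sel beta2 r c Y)
    (fun j => pt (lHyp_of_isGen hx) P0 d ht0 b (z j)) (wv (lHyp_of_isGen hx) P0 ht0 b z y ht)
    a (eps sel) (eval Y (tau3 r))
    (chowPolyAt_eq P0 b β τ e sel c _ (eps sel) (heps sel))
    (dPolyAt_eq (lHyp_of_isGen hx) P0 ht0 b β τ e sel beta2 hb2 hb2' tau3 ht3 ht3' hc z hz
      (eps sel) (heps sel) y ht r)
  have hR := gaussN_chowPolyAt_le P0 b β τ v e sel c
  rw [hk] at hR
  have hT : absV v (eval Y (tau3 r)) ≤ (⨆ r, coeffC v (tau3 r)) * supN v Y ^ 3 :=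
    (absV_eval_le v (ht3 r) Y).trans (mul_le_mul_of_nonneg_right
      (Finite.le_ciSup (fun r => coeffC v (tau3 r)) r) (pow_nonneg (supN_nonneg v Y) 3))
  -- names
  set A : ℝ := absV v a with hA
  set nc : ℝ := supN v c with hnc
  set nY : ℝ := supN v Y with hnY
  set Pu : ℝ := ∏ j, supN v (pt (lHyp_of_isGen hx) P0 d ht0 b (z j)) with hPu
  set Pw : ℝ := ∏ j, supN v (wv (lHyp_of_isGen hx) P0 ht0 b z y ht j) with hPw
  set GD : ℝ := gaussN v (dPolyAt (gTab P0 b β τ) e sel beta2 r c Y) with hGD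
  set GR : ℝ := gaussN v (chowPolyAt (gTab P0 b β τ) e sel c) with hGR
  set Tn : ℝ := absV v (eval Y (tau3 r)) with hTn
  set CR : ℝ := ⨆ j, coeffC v (famR P0 b β τ e j) with hCR
  set CT : ℝ := ⨆ r, coeffC v (tau3 r) with hCT
  set CD : ℝ := archC (Fintype.card (((Fin d → I2) × I3) × ↥(suppD P0 b β τ e beta2))) v *
    ⨆ a, coeffC v (qD a) with hCD
  set G : ℝ := hardC d (Fintype.card (Fin n)) v * easyC d (Fintype.card (Fin n × Fin n)) v
    with hG
  have hA0 : 0 ≤ A := (absV v).nonneg _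
  have hnc0 : 0 < nc := supN_pos v hc
  have hnY0 : 0 < nY := supN_pos v (pt_ne_zero hx P0 ht0 b hd2 y)
  have hPu0 : 0 < Pu := Finset.prod_pos fun j _ => supN_pos v (pt_ne_zero hx P0 ht0 b hd2 (z j))
  have hPw0 : 0 ≤ Pw := Finset.prod_nonneg fun j _ => supN_nonneg v _
  have hGD0 : 0 ≤ GD := gaussN_nonneg v _
  have hGR0 : 0 ≤ GR := gaussN_nonneg v _
  have hTn0 : 0 ≤ Tn := (absV v).nonneg _
  have hCR0 : 0 ≤ CR := Real.iSup_nonneg fun j => coeffC_nonneg v _
  have hCT0 : 0 ≤ CT := Real.iSup_nonneg fun j => coeffC_nonneg v _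
  have hG0 : 0 ≤ G := by
    have h1 := Fermat.Agent.MW.HT.Factor3.one_le_hardC d (Fintype.card (Fin n)) v
    have h2 := Fermat.Agent.MW.HT.Factor3.one_le_easyC d (Fintype.card (Fin n × Fin n)) v
    positivity
  have hCD0 : 0 ≤ CD := by
    refine mul_nonneg ?_ (Real.iSup_nonneg fun a => coeffC_nonneg v _)
    rcases v with _ | p
    · rw [Fermat.Agent.MW.HT.Lin3.archC_none]; exact Nat.cast_nonneg _
    · rw [Fermat.Agent.MW.HT.Lin3.archC_some]; exact zero_le_one
  -- the chain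
  have hstar : A * (nc ^ k * nY ^ (d + 2)) * Pu ≤
      CR * CT * CD * G * (nc ^ (k + 1) * nY ^ 3 * Pw) := by
    calc A * (nc ^ k * nY ^ (d + 2)) * Pu ≤ A * (CD * GD) * Pu := by gcongr
      _ = CD * (A * GD * Pu) := by ring
      _ ≤ CD * (G * (Tn * GR * Pw)) := by gcongr
      _ ≤ CD * (G * ((CT * nY ^ 3) * (CR * nc ^ (k + 1)) * Pw)) := by gcongr
      _ = _ := by ring
  -- the product of the local distances
  have hφ : ∀ j, (if z j = y then kap (lHyp_of_isGen hx) P0 d ht0 b v y ht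
      else chi (lHyp_of_isGen hx) P0 d ht0 b v (z j) y) =
      supN v (wv (lHyp_of_isGen hx) P0 ht0 b z y ht j) /
        (supN v (pt (lHyp_of_isGen hx) P0 d ht0 b (z j)) * nY) := by
    intro j
    unfold wv
    split_ifs with hj
    · rw [kap, hj, ← hY, ← hnY, pow_two]
      congr 1
      exact supN_minors_swap v _ _
    · rw [chi, ← hY, ← hnY]
      congr 1
      exact supN_minors_swap v _ _
  have hprod : ∏ j, (if z j = y then kap (lHyp_of_isGen hx) P0 d ht0 b v y ht
      else chi (lHyp_of_isGen hx) P0 d ht0 b v (z j) y) = Pw / (Pu * nY ^ d) := by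
    rw [Finset.prod_congr rfl fun j _ => hφ j, Finset.prod_div_distrib, Finset.prod_mul_distrib,
      Finset.prod_const, Finset.card_univ, Fintype.card_fin]
  rw [hprod]
  have hQ : 0 < nc ^ k * nY ^ (d + 2) * Pu := by positivity
  rw [← mul_le_mul_iff_left₀ hQ]
  calc A * (nc ^ k * nY ^ (d + 2) * Pu) = A * (nc ^ k * nY ^ (d + 2)) * Pu := by ring
    _ ≤ CR * CT * CD * G * (nc ^ (k + 1) * nY ^ 3 * Pw) := hstar
    _ = CR * CT * CD * G * nc * nY * (Pw / (Pu * nY ^ d)) * (nc ^ k * nY ^ (d + 2) * Pu) := by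
        field_simp
        ring

open Fermat.Agent.MW.POS.HadLoc9 (chi kap chi_nonneg kap_nonneg) in
/-- the chordal distance is bounded. -/
theorem chi_le (H : LHyp Qbar F) (v : VPl) (w y : Place Qbar F) :
    chi H P0 d ht0 b v w y ≤ max 1 (archC 2 v) := by
  rw [chi]
  have h := Fermat.Agent.MW.CHOW.LocFactor6.supN_minors_le v (pt H P0 d ht0 b w)
    (pt H P0 d ht0 b y)
  have hB : 0 ≤ max 1 (archC 2 v) := le_trans zero_le_one (le_max_left _ _)
  refine div_le_of_le_mul₀ (mul_nonneg (supN_nonneg v _) (supN_nonneg v _)) hB ?_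
  refine h.trans ?_
  rw [mul_assoc]
  exact mul_le_mul_of_nonneg_right (le_max_right _ _)
    (mul_nonneg (supN_nonneg v _) (supN_nonneg v _))

open Fermat.Agent.MW.POS.HadLoc9 (chi kap chi_nonneg kap_nonneg LocUD eff_apply) in
open Fermat.Agent.MW.PAIR.Pairing4 (eff) in
/-- **From the full enumeration to sub-divisors**: the shape `HadLoc9.LocUD`. -/
theorem locUD_of_full [DecidableEq (Place Qbar F)] (H : LHyp Qbar F) (C0 : VPl → ℝ)
    (hC0 : ∀ v, 0 ≤ C0 v)
    (hfull : ∀ (v : VPl) (c : Fin n → Qbar) (hc : c ≠ 0) (y : Place Qbar F) (t : F)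
      (ht : y.ord t = 1) (z : Fin d → Place Qbar F),
      hyp H P0 d b hc = ∑ j, Finsupp.single (z j) 1 →
      absV v (lcSec H P0 d t0 y t ((lin P0 d b c : Lm P0 d) : F)) ≤
        C0 v * supN v c * supN v (pt H P0 d ht0 b y) *
          ∏ j, (if z j = y then kap H P0 d ht0 b v y ht
            else chi H P0 d ht0 b v (z j) y)) :
    LocUD H P0 d ht0 b (fun v => C0 v * max 1 (archC 2 v) ^ d) := by
  intro v c hc y t ht m ι s z hne hle
  set B : ℝ := max 1 (archC 2 v) with hB
  have hB1 : 1 ≤ B := le_max_left _ _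
  have hB0 : 0 ≤ B := le_trans zero_le_one hB1
  have hnc0 := supN_nonneg v c
  have hnY0 := supN_nonneg v (pt H P0 d ht0 b y)
  have hkap0 := kap_nonneg H P0 d ht0 b v y ht
  have hPs0 : 0 ≤ ∏ j ∈ s, chi H P0 d ht0 b v (z j) y :=
    Finset.prod_nonneg fun j _ => chi_nonneg H P0 d ht0 b v _ _
  have hRHS0 : 0 ≤ C0 v * B ^ d * supN v c * supN v (pt H P0 d ht0 b y) *
      kap H P0 d ht0 b v y ht ^ m * ∏ j ∈ s, chi H P0 d ht0 b v (z j) y :=
    mul_nonneg (mul_nonneg (mul_nonneg (mul_nonneg (mul_nonneg (hC0 v) (pow_nonneg hB0 d)) hnc0)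
      hnY0) (pow_nonneg hkap0 m)) hPs0
  -- an enumeration of the hyperplane section
  obtain ⟨z', hz'⟩ := Fermat.Agent.MW.EMB.Enum6.exists_enum H d
    (hyp_nonneg H P0 d ht0 b hc) (degree_hyp H P0 d b hc)
  set m' : ℕ := (Finset.univ.filter fun j => z' j = y).card with hm'
  have hmul : hyp H P0 d b hc y = m' := by
    rw [hz', Fermat.Agent.MW.CHOW.ChowAdj6.sum_single_apply_eq_card]
  have hsy : eff s z y = 0 := by
    rw [eff_apply]
    have : (s.filter fun j => z j = y) = ∅ := by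
      rw [Finset.filter_eq_empty_iff]
      exact fun j hj => hne j hj
    rw [this]
    rfl
  have hmm' : m ≤ m' := by
    have := hle y
    rw [Finsupp.add_apply, hsy, Finsupp.single_eq_same, hmul] at this
    omega
  rcases Nat.lt_or_ge m m' with hlt | hge
  · -- the coefficient vanishes
    have h1 : ((m + 1 : ℕ) : ℤ) ≤ hyp H P0 d b hc y := by rw [hmul]; exact_mod_cast hlt
    have h2 := (le_hyp_iff H P0 d ht0 b hc y ht (m + 1)).mp h1 m (Nat.lt_succ_self m)
    rw [h2, map_zero]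
    exact hRHS0
  · have hmeq : m' = m := le_antisymm hge hmm'
    have hord : ordSec P0 d t0 y ((lin P0 d b c : Lm P0 d) : F) = m := by
      rw [← hyp_apply H P0 d ht0 b hc y, hmul, hmeq]
    have hlc : ∑ i, c i * jet H P0 d ht0 b y ht m i =
        lcSec H P0 d t0 y t ((lin P0 d b c : Lm P0 d) : F) := by
      rw [← jev_lin]
      exact jev_eq_lcSec H P0 ht0 y ht (lin P0 d b c) (lin_ne_zero P0 d b hc) m hord
    rw [hlc]
    have hf := hfull v c hc y t ht z' hz'
    -- split the product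
    have hsplit : ∏ j, (if z' j = y then kap H P0 d ht0 b v y ht
        else chi H P0 d ht0 b v (z' j) y) =
        kap H P0 d ht0 b v y ht ^ m *
          ∏ j ∈ Finset.univ.filter (fun j => ¬ z' j = y), chi H P0 d ht0 b v (z' j) y := by
      rw [Finset.prod_ite, Finset.prod_const, ← hm', hmeq]
    -- the sub-multiset
    have hle' : eff s z ≤ eff (Finset.univ.filter (fun j => ¬ z' j = y)) z' := by
      intro w
      by_cases hw : w = y
      · subst hw
        rw [hsy, eff_apply]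
        exact Int.natCast_nonneg _
      · have h1 := hle w
        rw [Finsupp.add_apply, Finsupp.single_eq_of_ne hw, add_zero, hz',
          Fermat.Agent.MW.CHOW.ChowAdj6.sum_single_apply_eq_card] at h1
        rw [eff_apply (Finset.univ.filter (fun j => ¬ z' j = y)) z' w]
        refine h1.trans (le_of_eq ?_)
        congr 1
        congr 1
        ext j
        simp only [Finset.mem_filter, Finset.mem_univ, true_and]
        constructor
        · intro h; exact ⟨fun h' => hw (h.symm.trans h'), h⟩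
        · intro h; exact h.2
    have hdrop := Fermat.Agent.MW.CHOW.LocFactor6.prod_le_of_eff_le
      (fun w => chi H P0 d ht0 b v w y) (fun w => chi_nonneg H P0 d ht0 b v w y)
      (fun w => chi_le P0 ht0 b H v w y) hB1 z z' s
      (Finset.univ.filter (fun j => ¬ z' j = y)) hle'
    have hcard : (Finset.univ.filter (fun j : Fin d => ¬ z' j = y)).card ≤ d := by
      have := Finset.card_filter_le (Finset.univ : Finset (Fin d)) (fun j => ¬ z' j = y)
      simpa using this
    have hBpow : B ^ (Finset.univ.filter (fun j : Fin d => ¬ z' j = y)).card ≤ B ^ d :=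
      pow_le_pow_right₀ hB1 hcard
    have hdrop' : ∏ j ∈ Finset.univ.filter (fun j => ¬ z' j = y), chi H P0 d ht0 b v (z' j) y ≤
        B ^ d * ∏ j ∈ s, chi H P0 d ht0 b v (z j) y :=
      hdrop.trans (mul_le_mul_of_nonneg_right hBpow hPs0)
    have hC := hC0 v
    calc absV v (lcSec H P0 d t0 y t ((lin P0 d b c : Lm P0 d) : F))
        ≤ C0 v * supN v c * supN v (pt H P0 d ht0 b y) *
          ∏ j, (if z' j = y then kap H P0 d ht0 b v y ht
            else chi H P0 d ht0 b v (z' j) y) := hf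
      _ = C0 v * supN v c * supN v (pt H P0 d ht0 b y) * (kap H P0 d ht0 b v y ht ^ m *
          ∏ j ∈ Finset.univ.filter (fun j => ¬ z' j = y), chi H P0 d ht0 b v (z' j) y) := by
          rw [hsplit]
      _ ≤ C0 v * supN v c * supN v (pt H P0 d ht0 b y) * (kap H P0 d ht0 b v y ht ^ m *
          (B ^ d * ∏ j ∈ s, chi H P0 d ht0 b v (z j) y)) := by
          gcongr
      _ = _ := by ring

/-- the normalised coefficient size of a finite family is `1` at almost all places. -/
theorem finite_max_one_iSup_ne_one {ι κ : Type*} [Finite κ] (q : κ → MvPolynomial ι Qbar) :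
    {v : VPl | max 1 (⨆ a, coeffC v (q a)) ≠ 1}.Finite := by
  by_cases h : ∃ a, q a ≠ 0
  · refine (finite_iSup_coeffC_ne_one q h).subset ?_
    intro v hv
    rw [Set.mem_ofPred_eq] at hv ⊢
    intro h1
    apply hv
    rw [h1, max_self]
  · push Not at h
    have : {v : VPl | max 1 (⨆ a, coeffC v (q a)) ≠ 1} = ∅ := by
      ext v
      simp only [Set.mem_ofPred_eq, Set.mem_empty_iff_false, iff_false, not_not]
      have h0 : ∀ a, coeffC v (q a) = 0 := fun a => by rw [h a, coeffC_zero]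
      simp only [h0, Real.iSup_const_zero]
      norm_num
    rw [this]
    exact Set.finite_empty

open Fermat.Agent.MW.HT.Factor3 (hardC easyC hardC_some easyC_some one_le_hardC one_le_easyC) in
open Fermat.Agent.MW.POS.HadLoc9 (LocUD) in
/-- **THE LOCAL ONE-SIDED UNIFORM DECOMPOSITION** for the curve embedded by `|d·P0|`. -/
theorem exists_locUD (hd : 4 * (genus Qbar F : ℤ) ≤ d) (hd0 : 0 < d) :
    ∃ Cud : VPl → ℝ, (∀ v, 1 ≤ Cud v) ∧ {v : VPl | Cud v ≠ 1}.Finite ∧
      LocUD (lHyp_of_isGen hx) P0 d ht0 b Cud := by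
  classical
  have hg0 : (0 : ℤ) ≤ genus Qbar F := by positivity
  have := Fermat.Agent.RR.RRMain.finiteDimensional_L hx (mP P0 (d + d))
  have := Fermat.Agent.RR.RRMain.finiteDimensional_L hx (mP P0 (d + (d + d)))
  have hf2 := finrank_Lm hx P0 (m := d + d) (by push_cast; omega)
  have hf3 := finrank_Lm hx P0 (m := d + (d + d)) (by push_cast; omega)
  -- bases
  set β := Module.finBasis Qbar (Lm P0 (d + d)) with hβ
  set τ := Module.finBasis Qbar (Lm P0 (d + (d + d))) with hτ
  have hcard : Module.finrank Qbar (Lm P0 (d + d)) + d =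
      Module.finrank Qbar (Lm P0 (d + (d + d))) := by
    push_cast at hf2 hf3
    omega
  set e : Fin (Module.finrank Qbar (Lm P0 (d + d))) ⊕ Fin d ≃
      Fin (Module.finrank Qbar (Lm P0 (d + (d + d)))) := finSumFinEquiv.trans (finCongr hcard)
    with he
  -- forms
  have hb : ∀ q, ∃ p : MvPolynomial (Fin n) Qbar, p.IsHomogeneous 2 ∧
      formFn P0 d b p = ((β q : Lm P0 (d + d)) : F) := fun q =>
    exists_form hx P0 hd b (e := 2) (by rw [two_mul]; exact (β q).2)
  choose beta2 hb2 hb2' using hb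
  have ht : ∀ r, ∃ p : MvPolynomial (Fin n) Qbar, p.IsHomogeneous 3 ∧
      formFn P0 d b p = ((τ r : Lm P0 (d + (d + d))) : F) := fun r =>
    exists_form hx P0 hd b (e := 3) (by
      have h3 : 3 * d = d + (d + d) := by ring
      rw [h3]; exact (τ r).2)
  choose tau3 ht3 ht3' using ht
  have hADJ : AdjId hx P0 ht0 b β τ e beta2 tau3 := by
    intro sel c hc z hz eps heps y t ht r W
    exact Fermat.Agent.MW.CHOW.ChowAdj6.adj_identity (lHyp_of_isGen hx) P0 ht0 b β τ e sel beta2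
      hb2 hb2' tau3 ht3 ht3' hc z hz eps heps y ht r W
  obtain ⟨M, qD, hq, hid⟩ := cert_D hx P0 ht0 b β τ hd hd0 e beta2 hb2 tau3 ht3 ht3' hADJ
  -- constants
  set CR : VPl → ℝ := fun v => ⨆ j, coeffC v (famR P0 b β τ e j) with hCR
  set CT : VPl → ℝ := fun v => ⨆ r, coeffC v (tau3 r) with hCT
  set CQ : VPl → ℝ := fun v => ⨆ a, coeffC v (qD a) with hCQ
  set JD : ℕ := Fintype.card (((Fin d → Fin (Module.finrank Qbar (Lm P0 (d + d)))) ×
    Fin (Module.finrank Qbar (Lm P0 (d + (d + d))))) × ↥(suppD P0 b β τ e beta2)) with hJD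
  set C0 : VPl → ℝ := fun v => max 1 (CR v) * max 1 (CT v) * (max 1 (archC JD v) * max 1 (CQ v)) *
    (hardC d (Fintype.card (Fin n)) v * easyC d (Fintype.card (Fin n × Fin n)) v) with hC0
  have hCR0 : ∀ v, 0 ≤ CR v := fun v => Real.iSup_nonneg fun j => coeffC_nonneg v _
  have hCT0 : ∀ v, 0 ≤ CT v := fun v => Real.iSup_nonneg fun j => coeffC_nonneg v _
  have hCQ0 : ∀ v, 0 ≤ CQ v := fun v => Real.iSup_nonneg fun j => coeffC_nonneg v _
  have hA0 : ∀ v, 0 ≤ archC JD v := by
    intro v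
    rcases v with _ | p
    · rw [Fermat.Agent.MW.HT.Lin3.archC_none]; exact Nat.cast_nonneg _
    · rw [Fermat.Agent.MW.HT.Lin3.archC_some]; exact zero_le_one
  have hC01 : ∀ v, 1 ≤ C0 v := by
    intro v
    have h1 : (1 : ℝ) ≤ max 1 (CR v) := le_max_left _ _
    have h2 : (1 : ℝ) ≤ max 1 (CT v) := le_max_left _ _
    have h3 : (1 : ℝ) ≤ max 1 (archC JD v) := le_max_left _ _
    have h4 : (1 : ℝ) ≤ max 1 (CQ v) := le_max_left _ _
    have h5 := one_le_hardC d (Fintype.card (Fin n)) v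
    have h6 := one_le_easyC d (Fintype.card (Fin n × Fin n)) v
    have hC0v : C0 v = max 1 (CR v) * max 1 (CT v) * (max 1 (archC JD v) * max 1 (CQ v)) *
        (hardC d (Fintype.card (Fin n)) v * easyC d (Fintype.card (Fin n × Fin n)) v) := rfl
    calc (1 : ℝ) = 1 * 1 * (1 * 1) * (1 * 1) := by norm_num
      _ ≤ C0 v := by rw [hC0v]; gcongr
  refine ⟨fun v => C0 v * max 1 (archC 2 v) ^ d, ?_, ?_, ?_⟩
  · intro v
    have h1 : (1 : ℝ) ≤ max 1 (archC 2 v) ^ d := one_le_pow₀ (le_max_left _ _)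
    calc (1 : ℝ) = 1 * 1 := by norm_num
      _ ≤ C0 v * max 1 (archC 2 v) ^ d := mul_le_mul (hC01 v) h1 zero_le_one
          (le_trans zero_le_one (hC01 v))
  · have hfin : ({none} ∪ {v : VPl | max 1 (CR v) ≠ 1} ∪ {v : VPl | max 1 (CT v) ≠ 1} ∪
        {v : VPl | max 1 (CQ v) ≠ 1} : Set VPl).Finite :=
      (((Set.finite_singleton _).union (finite_max_one_iSup_ne_one _)).union
        (finite_max_one_iSup_ne_one _)).union (finite_max_one_iSup_ne_one _)
    refine hfin.subset ?_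
    intro v hv
    by_contra hnot
    simp only [Set.mem_union, Set.mem_singleton_iff, Set.mem_ofPred_eq, not_or, not_not] at hnot
    obtain ⟨⟨⟨hv0, h1⟩, h2⟩, h3⟩ := hnot
    apply hv
    rcases v with _ | p
    · exact absurd rfl hv0
    · show C0 (some p) * max 1 (archC 2 (some p)) ^ d = 1
      rw [hC0]
      simp only [h1, h2, h3, Fermat.Agent.MW.HT.Lin3.archC_some, hardC_some, easyC_some, max_self,
        one_pow, mul_one]
  · refine locUD_of_full P0 ht0 b (lHyp_of_isGen hx) C0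
      (fun v => le_trans zero_le_one (hC01 v)) ?_
    intro v c hc y t ht z hz
    have h := full_bound hx P0 ht0 b β τ v e beta2 hb2 hb2' tau3 ht3 ht3' qD hq hid hd hd0 hc y ht
      z hz
    refine h.trans ?_
    have hP0 : 0 ≤ ∏ j, (if z j = y then
        Fermat.Agent.MW.POS.HadLoc9.kap (lHyp_of_isGen hx) P0 d ht0 b v y ht
        else Fermat.Agent.MW.POS.HadLoc9.chi (lHyp_of_isGen hx) P0 d ht0 b v (z j) y) := by
      refine Finset.prod_nonneg fun j _ => ?_
      split_ifs
      · exact Fermat.Agent.MW.POS.HadLoc9.kap_nonneg _ P0 d ht0 b v y ht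
      · exact Fermat.Agent.MW.POS.HadLoc9.chi_nonneg _ P0 d ht0 b v _ _
    have hconst : CR v * CT v * (archC JD v * CQ v) *
        (hardC d (Fintype.card (Fin n)) v * easyC d (Fintype.card (Fin n × Fin n)) v) ≤ C0 v := by
      have h1 : CR v ≤ max 1 (CR v) := le_max_right _ _
      have h2 : CT v ≤ max 1 (CT v) := le_max_right _ _
      have h3 : archC JD v ≤ max 1 (archC JD v) := le_max_right _ _
      have h4 : CQ v ≤ max 1 (CQ v) := le_max_right _ _
      have h5 := one_le_hardC d (Fintype.card (Fin n)) v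
      have h6 := one_le_easyC d (Fintype.card (Fin n × Fin n)) v
      have := hCR0 v
      have := hCT0 v
      have := hCQ0 v
      have := hA0 v
      have hC0v : C0 v = max 1 (CR v) * max 1 (CT v) * (max 1 (archC JD v) * max 1 (CQ v)) *
          (hardC d (Fintype.card (Fin n)) v * easyC d (Fintype.card (Fin n × Fin n)) v) := rfl
      rw [hC0v]
      gcongr
    exact mul_le_mul_of_nonneg_right (mul_le_mul_of_nonneg_right
      (mul_le_mul_of_nonneg_right hconst (supN_nonneg v c)) (supN_nonneg v _)) hP0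

end Local

end Fermat.Agent.MW.CHOW.ChowLoc6
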