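/-
PROGRAMME MW (S17), block CHOW+UD — helper3.  `ChowLocA3`: the SIX LOCAL BOUNDS at one place `v` for
the Chow polynomials `chowPolyAt sel c` (in `c'`), the Cramer quotients `dPolyAt sel r c (pt y)`
(in `W`) and the cubic forms `τ3 r` at `pt y`, i.e. the hypotheses `hRup hRlow hDup hDlow hTup hTlow`
of `HT.Factor3.factor_two_sided`, from the Nullstellensatz certificates of `ChowCert8` and the local
engine `HT.MultiLoc3`.  Also the certificate `cert_T` for the cubic forms on the cone.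
-/
import Mathlib
import Fermat.Agent.MW.CHOW.ChowCert8
import Fermat.Agent.MW.HT.MultiLoc3
import Fermat.Agent.MW.HT.CMax3
import Fermat.Agent.MW.HT.MvGauss3

set_option autoImplicit false
set_option linter.unusedSectionVars false

open AlgebraicCurve

namespace Fermat.Agent.MW.CHOW.ChowLocA3

open MvPolynomial
open Fermat.Agent.X0.FF Fermat.Agent.RR.LSpace Fermat.Agent.RR.LHypGen
open Fermat.Agent.MW.EMB.Value6 Fermat.Agent.MW.EMB.OnePoint6 Fermat.Agent.MW.EMB.Coord6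
open Fermat.Agent.MW.EMB.Proj6 Fermat.Agent.MW.EMB.Form6 Fermat.Agent.MW.EMB.Cone6
open Fermat.Agent.MW.CHOW.Sec8 Fermat.Agent.MW.CHOW.ChowAlg8 Fermat.Agent.MW.CHOW.ChowPF8
open Fermat.Agent.MW.CHOW.ChowPoly8 Fermat.Agent.MW.CHOW.Null8 Fermat.Agent.MW.CHOW.ChowCert8
open Fermat.Agent.MW.HT.Place3 (Qbar Place absV)
open Fermat.Agent.MW.HT.Ht3 (supN supN_nonneg le_supN supN_le supN_pos)
open Fermat.Agent.MW.HT.Lin3 (archC)
open Fermat.Agent.MW.HT.PolyLoc3 Fermat.Agent.MW.HT.MultiLoc3 Fermat.Agent.MW.HT.CMax3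
open Fermat.Agent.MW.HT.Kron3 (gaussN gaussN_le le_gaussN gaussN_nonneg)

section Pure

variable {n : ℕ}

theorem xg_grp1 (v : Place) (c : Fin n → Qbar) : xg v (grp1 n) c 0 = supN v c := by
  apply le_antisymm
  · exact supN_le v _ (supN_nonneg v c) fun i => le_supN v c i.1
  · exact supN_le v _ (xg_nonneg v _ _ _) fun i =>
      le_supN v (fun i : {i // grp1 n i = 0} => c i) ⟨i, rfl⟩

theorem xg_grp2_zero (v : Place) (c Y : Fin n → Qbar) :
    xg v (grp2 n) (Sum.elim c Y) 0 = supN v c := by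
  apply le_antisymm
  · refine supN_le v _ (supN_nonneg v c) fun i => ?_
    obtain ⟨i, hi⟩ := i
    rcases i with a | a
    · exact le_supN v c a
    · exact absurd hi (by simp [grp2])
  · exact supN_le v _ (xg_nonneg v _ _ _) fun a =>
      le_supN v (fun i : {i // grp2 n i = 0} => Sum.elim c Y i) ⟨Sum.inl a, rfl⟩

theorem xg_grp2_one (v : Place) (c Y : Fin n → Qbar) :
    xg v (grp2 n) (Sum.elim c Y) 1 = supN v Y := by
  apply le_antisymm
  · refine supN_le v _ (supN_nonneg v Y) fun i => ?_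
    obtain ⟨i, hi⟩ := i
    rcases i with a | a
    · exact absurd hi (by simp [grp2])
    · exact le_supN v Y a
  · exact supN_le v _ (xg_nonneg v _ _ _) fun a =>
      le_supN v (fun i : {i // grp2 n i = 1} => Sum.elim c Y i) ⟨Sum.inr a, rfl⟩

theorem prod_xg_grp1 (v : Place) (c : Fin n → Qbar) (k : ℕ) :
    ∏ g, xg v (grp1 n) c g ^ (Finsupp.single (0 : Fin 1) k) g = supN v c ^ k := by
  rw [Fin.prod_univ_one, Finsupp.single_eq_same, xg_grp1]

theorem prod_xg_grp2 (v : Place) (c Y : Fin n → Qbar) (k l : ℕ) :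
    ∏ g, xg v (grp2 n) (Sum.elim c Y) g ^
        (Finsupp.single (0 : Fin 2) k + Finsupp.single 1 l : Fin 2 →₀ ℕ) g =
      supN v c ^ k * supN v Y ^ l := by
  rw [Fin.prod_univ_two, xg_grp2_zero, xg_grp2_one]
  simp

/-- a homogeneous form is multi-homogeneous for the single group. -/
theorem isWH_grp1_of_isHomogeneous {p : MvPolynomial (Fin n) Qbar} {k : ℕ}
    (hp : p.IsHomogeneous k) :
    IsWeightedHomogeneous (wt (grp1 n)) p (Finsupp.single 0 k) := by
  classical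
  intro d hd
  refine Finsupp.ext fun g => ?_
  have hg : g = 0 := Subsingleton.elim _ _
  rw [hg, show wt (grp1 n) = fun i => (Finsupp.single (grp1 n i) 1 : Fin 1 →₀ ℕ) from rfl,
    weight_grp_apply, Finsupp.single_eq_same,
    hp.degree_eq_sum_deg_support (mem_support_iff.mpr hd)]
  refine Finset.sum_congr ?_ fun _ _ => rfl
  exact Finset.filter_true_of_mem fun i _ => rfl

/-- choices for one group. -/
theorem exists_c_ne_zero_grp1 {c : Fin n → Qbar} (hc : c ≠ 0) :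
    ∀ g : Fin 1, ∃ i, grp1 n i = g ∧ c i ≠ 0 := by
  intro g
  obtain ⟨i, hi⟩ := Function.ne_iff.mp hc
  exact ⟨i, Subsingleton.elim _ _, hi⟩

theorem exists_ne_zero_grp2 {c Y : Fin n → Qbar} (hc : c ≠ 0) (hY : Y ≠ 0) :
    ∀ g : Fin 2, ∃ i, grp2 n i = g ∧ Sum.elim c Y i ≠ 0 := by
  intro g
  obtain ⟨i, hi⟩ := Function.ne_iff.mp hc
  obtain ⟨j, hj⟩ := Function.ne_iff.mp hY
  fin_cases g
  · exact ⟨Sum.inl i, rfl, hi⟩
  · exact ⟨Sum.inr j, rfl, hj⟩

end Pure

section RR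

variable {F : Type*} [Field F] [Algebra Qbar F]
variable {x : F} [HasCanonicalDivisor (K := Qbar) (F := F)]
variable (hx : IsGen Qbar x) (P0 : Place Qbar F) {d : ℕ} {t0 : F} (ht0 : P0.ord t0 = 1) {n : ℕ}
  (b : Module.Basis (Fin n) Qbar (Lm P0 d))
  {I2 I3 : Type*} [Fintype I2] [Fintype I3] [DecidableEq I2] [DecidableEq I3]
  (β : Module.Basis I2 Qbar (Lm P0 (d + d))) (τ : Module.Basis I3 Qbar (Lm P0 (d + (d + d))))

/-! ### The Chow polynomials -/

/-- coefficients of `chowPolyAt` outside `suppR` vanish. -/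
theorem chowCoeff_eq_zero (e : I2 ⊕ Fin d ≃ I3) (sel : Fin d → I2) {α : Fin n →₀ ℕ}
    (hα : α ∉ suppR P0 b β τ e) : chowCoeff (gTab P0 b β τ) e sel α = 0 := by
  rw [chowCoeff, ← notMem_support_iff]
  intro h
  apply hα
  rw [suppR, Finset.mem_biUnion]
  exact ⟨sel, Finset.mem_univ _, h⟩

/-- **(hRup)** trivial upper bound for the Chow polynomial at `c`. -/
theorem gaussN_chowPolyAt_le (v : Place) (e : I2 ⊕ Fin d ≃ I3) (sel : Fin d → I2)
    (c : Fin n → Qbar) :
    gaussN v (chowPolyAt (gTab P0 b β τ) e sel c)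
      ≤ cmax v (famR P0 b β τ e) * supN v c ^ Fintype.card I2 := by
  have hnn : 0 ≤ cmax v (famR P0 b β τ e) * supN v c ^ Fintype.card I2 :=
    mul_nonneg (cmax_pos v _).le (pow_nonneg (supN_nonneg v c) _)
  refine gaussN_le v _ hnn fun α => ?_
  rw [coeff_chowPolyAt]
  by_cases hα : α ∈ suppR P0 b β τ e
  · have h1 := absV_eval_le_multi v (grp1 n)
      (chowCoeff_homogeneous (gTab P0 b β τ) e sel α) c
    rw [prod_xg_grp1] at h1
    refine h1.trans (mul_le_mul_of_nonneg_right ?_ (pow_nonneg (supN_nonneg v c) _))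
    exact coeffC_le_cmax v (famR P0 b β τ e) (sel, ⟨α, hα⟩)
  · rw [chowCoeff_eq_zero P0 b β τ e sel hα, map_zero, map_zero]
    exact hnn

include hx ht0 in
/-- **(hRlow)** the certificate lower bound for the Chow polynomials at `c`. -/
theorem exists_chowPolyAt_ge (hd : 2 * (genus Qbar F : ℤ) ≤ d) (hd0 : 0 < d)
    (e : I2 ⊕ Fin d ≃ I3) :
    ∃ C : Place → ℝ, IsLocConst C ∧ ∀ (v : Place) (c : Fin n → Qbar), c ≠ 0 →
      supN v c ^ Fintype.card I2
        ≤ C v * ⨆ sel : Fin d → I2, gaussN v (chowPolyAt (gTab P0 b β τ) e sel c) := by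
  classical
  obtain ⟨M, q, hq, hid⟩ := cert_R hx P0 ht0 b β τ hd hd0 e
  refine ⟨fun v => max 1 (archC (Fintype.card ((Fin d → I2) × ↥(suppR P0 b β τ e))) v)
      * cmax v q,
    (isLocConst_max_one_archC _).mul (isLocConst_cmax q), fun v c hc => ?_⟩
  have h1 := supN_eval_ge_multi v (grp1 n) q hq (famR P0 b β τ e) c (exists_c_ne_zero_grp1 hc)
    (fun k => hid c k)
  rw [prod_xg_grp1] at h1
  have harch : 0 ≤ archC (Fintype.card ((Fin d → I2) × ↥(suppR P0 b β τ e))) v :=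
    Fermat.Agent.MW.HT.MvGauss3.archC_nonneg _ v
  have hsup0 : 0 ≤ ⨆ sel : Fin d → I2, gaussN v (chowPolyAt (gTab P0 b β τ) e sel c) :=
    Real.iSup_nonneg fun sel => gaussN_nonneg v _
  have hq0 : 0 ≤ ⨆ a, coeffC v (q a) := Real.iSup_nonneg fun a => coeffC_nonneg v (q a)
  calc supN v c ^ Fintype.card I2
      ≤ archC (Fintype.card ((Fin d → I2) × ↥(suppR P0 b β τ e))) v * (⨆ a, coeffC v (q a))
          * supN v (fun j => eval c (famR P0 b β τ e j)) := h1
    _ ≤ max 1 (archC (Fintype.card ((Fin d → I2) × ↥(suppR P0 b β τ e))) v) * cmax v q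
          * ⨆ sel : Fin d → I2, gaussN v (chowPolyAt (gTab P0 b β τ) e sel c) := by
        refine mul_le_mul (mul_le_mul (archC_le_max_one _ v) (iSup_coeffC_le_cmax v q) hq0
          (le_trans zero_le_one (le_max_left _ _))) ?_
          (supN_nonneg v _) (mul_nonneg (le_trans zero_le_one (le_max_left _ _)) (cmax_pos v q).le)
        refine supN_le v _ hsup0 fun j => ?_
        show absV v (eval c (chowCoeff (gTab P0 b β τ) e j.1 j.2.1)) ≤ _
        rw [← coeff_chowPolyAt]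
        exact (le_gaussN v _ _).trans
          (Finite.le_ciSup (fun sel : Fin d → I2 =>
            gaussN v (chowPolyAt (gTab P0 b β τ) e sel c)) j.1)

/-! ### The Cramer quotients -/

/-- coefficients of `dPolyAt` outside `suppD` vanish. -/
theorem dCoeff_eq_zero (e : I2 ⊕ Fin d ≃ I3) (β2 : I2 → MvPolynomial (Fin n) Qbar)
    (sel : Fin d → I2) (r : I3) {γ : Fin n × Fin n →₀ ℕ} (hγ : γ ∉ suppD P0 b β τ e β2) :
    dCoeff (gTab P0 b β τ) e sel β2 r γ = 0 := by
  rw [dCoeff, ← notMem_support_iff]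
  intro h
  apply hγ
  rw [suppD, Finset.mem_biUnion]
  exact ⟨(sel, r), Finset.mem_univ _, h⟩

/-- **(hDup)** trivial upper bound for the Cramer quotients at `(c, Y)`. -/
theorem gaussN_dPolyAt_le (v : Place) (e : I2 ⊕ Fin d ≃ I3)
    (β2 : I2 → MvPolynomial (Fin n) Qbar) (hβ2 : ∀ q, (β2 q).IsHomogeneous 2)
    (sel : Fin d → I2) (r : I3) (c Y : Fin n → Qbar) :
    gaussN v (dPolyAt (gTab P0 b β τ) e sel β2 r c Y)
      ≤ cmax v (famD P0 b β τ e β2)
        * (supN v c ^ (Fintype.card I2 - 1) * supN v Y ^ (d + 2)) := by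
  have hP : 0 ≤ supN v c ^ (Fintype.card I2 - 1) * supN v Y ^ (d + 2) :=
    mul_nonneg (pow_nonneg (supN_nonneg v c) _) (pow_nonneg (supN_nonneg v Y) _)
  have hnn : 0 ≤ cmax v (famD P0 b β τ e β2)
      * (supN v c ^ (Fintype.card I2 - 1) * supN v Y ^ (d + 2)) :=
    mul_nonneg (cmax_pos v _).le hP
  refine gaussN_le v _ hnn fun γ => ?_
  rw [coeff_dPolyAt]
  by_cases hγ : γ ∈ suppD P0 b β τ e β2
  · have h1 := absV_eval_le_multi v (grp2 n)
      (dCoeff_homogeneous (gTab P0 b β τ) e sel β2 hβ2 r γ) (Sum.elim c Y)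
    rw [prod_xg_grp2, Fintype.card_fin] at h1
    refine h1.trans (mul_le_mul_of_nonneg_right ?_ hP)
    exact coeffC_le_cmax v (famD P0 b β τ e β2) ((sel, r), ⟨γ, hγ⟩)
  · rw [dCoeff_eq_zero P0 b β τ e β2 sel r hγ, map_zero, map_zero]
    exact hnn

include hx in
/-- **(hDlow)** the certificate lower bound for the Cramer quotients at `(c, pt y)`. -/
theorem exists_dPolyAt_ge [DecidableEq (Place Qbar F)] (hd : 4 * (genus Qbar F : ℤ) ≤ d)
    (hd0 : 0 < d) (e : I2 ⊕ Fin d ≃ I3) (β2 : I2 → MvPolynomial (Fin n) Qbar)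
    (hβ2 : ∀ q, (β2 q).IsHomogeneous 2)
    (τ3 : I3 → MvPolynomial (Fin n) Qbar) (hτ3 : ∀ r, (τ3 r).IsHomogeneous 3)
    (hτ3' : ∀ r, formFn P0 d b (τ3 r) = ((τ r : Lm P0 (d + (d + d))) : F))
    (hADJ : AdjId hx P0 ht0 b β τ e β2 τ3) :
    ∃ C : Place → ℝ, IsLocConst C ∧ ∀ (v : Place) (c : Fin n → Qbar), c ≠ 0 →
      ∀ y : Place Qbar F,
      supN v c ^ (Fintype.card I2 - 1)
          * supN v (pt (lHyp_of_isGen hx) P0 d ht0 b y) ^ (d + 2)
        ≤ C v * ⨆ p : (Fin d → I2) × I3,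
            gaussN v (dPolyAt (gTab P0 b β τ) e p.1 β2 p.2 c
              (pt (lHyp_of_isGen hx) P0 d ht0 b y)) := by
  classical
  obtain ⟨M, q, hq, hid⟩ := cert_D hx P0 ht0 b β τ hd hd0 e β2 hβ2 τ3 hτ3 hτ3' hADJ
  have hg0 : (0 : ℤ) ≤ genus Qbar F := by positivity
  refine ⟨fun v => max 1 (archC (Fintype.card (((Fin d → I2) × I3) × ↥(suppD P0 b β τ e β2))) v)
      * cmax v q,
    (isLocConst_max_one_archC _).mul (isLocConst_cmax q), fun v c hc y => ?_⟩
  set Y := pt (lHyp_of_isGen hx) P0 d ht0 b y with hY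
  have hY0 : Y ≠ 0 := pt_ne_zero hx P0 ht0 b (by omega) y
  have hmem : Sum.elim c Y ∈ coneD hx P0 ht0 b := by
    refine ⟨y, 1, ?_⟩
    rw [one_smul]
    rfl
  have h1 := supN_eval_ge_multi v (grp2 n) q hq (famD P0 b β τ e β2) (Sum.elim c Y)
    (exists_ne_zero_grp2 hc hY0) (fun k => hid _ hmem k)
  rw [prod_xg_grp2, Fintype.card_fin] at h1
  have harch : 0 ≤ archC (Fintype.card (((Fin d → I2) × I3) × ↥(suppD P0 b β τ e β2))) v :=
    Fermat.Agent.MW.HT.MvGauss3.archC_nonneg _ v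
  have hsup0 : 0 ≤ ⨆ p : (Fin d → I2) × I3,
      gaussN v (dPolyAt (gTab P0 b β τ) e p.1 β2 p.2 c Y) :=
    Real.iSup_nonneg fun p => gaussN_nonneg v _
  have hq0 : 0 ≤ ⨆ a, coeffC v (q a) := Real.iSup_nonneg fun a => coeffC_nonneg v (q a)
  calc supN v c ^ (Fintype.card I2 - 1) * supN v Y ^ (d + 2)
      ≤ archC (Fintype.card (((Fin d → I2) × I3) × ↥(suppD P0 b β τ e β2))) v
          * (⨆ a, coeffC v (q a))
          * supN v (fun j => eval (Sum.elim c Y) (famD P0 b β τ e β2 j)) := h1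
    _ ≤ max 1 (archC (Fintype.card (((Fin d → I2) × I3) × ↥(suppD P0 b β τ e β2))) v)
          * cmax v q
          * ⨆ p : (Fin d → I2) × I3,
              gaussN v (dPolyAt (gTab P0 b β τ) e p.1 β2 p.2 c Y) := by
        refine mul_le_mul (mul_le_mul (archC_le_max_one _ v) (iSup_coeffC_le_cmax v q) hq0
          (le_trans zero_le_one (le_max_left _ _))) ?_
          (supN_nonneg v _) (mul_nonneg (le_trans zero_le_one (le_max_left _ _)) (cmax_pos v q).le)
        refine supN_le v _ hsup0 fun j => ?_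
        show absV v (eval (Sum.elim c Y) (dCoeff (gTab P0 b β τ) e j.1.1 β2 j.1.2 j.2.1)) ≤ _
        rw [← coeff_dPolyAt]
        exact (le_gaussN v _ _).trans
          (Finite.le_ciSup (fun p : (Fin d → I2) × I3 =>
            gaussN v (dPolyAt (gTab P0 b β τ) e p.1 β2 p.2 c Y)) j.1)

/-! ### The cubic forms -/

/-- **(hTup)** trivial upper bound for the cubic forms. -/
theorem absV_tau3_le (v : Place) (τ3 : I3 → MvPolynomial (Fin n) Qbar)
    (hτ3 : ∀ r, (τ3 r).IsHomogeneous 3) (r : I3) (Y : Fin n → Qbar) :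
    absV v (eval Y (τ3 r)) ≤ cmax v τ3 * supN v Y ^ 3 :=
  (absV_eval_le v (hτ3 r) Y).trans
    (mul_le_mul_of_nonneg_right (coeffC_le_cmax v τ3 r) (pow_nonneg (supN_nonneg v Y) _))

include hx in
/-- **Certificate for the cubic forms** `τ3` on the cone. -/
theorem cert_T (hd : 4 * (genus Qbar F : ℤ) ≤ d) (τ3 : I3 → MvPolynomial (Fin n) Qbar)
    (hτ3 : ∀ r, (τ3 r).IsHomogeneous 3)
    (hτ3' : ∀ r, formFn P0 d b (τ3 r) = ((τ r : Lm P0 (d + (d + d))) : F)) :
    ∃ (M : Fin 1 →₀ ℕ) (q : Choice (grp1 n) × I3 → MvPolynomial (Fin n) Qbar),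
      (∀ a, IsWeightedHomogeneous (wt (grp1 n)) (q a) M) ∧
      ∀ Y ∈ cone (lHyp_of_isGen hx) P0 d ht0 b, ∀ k : Choice (grp1 n),
        ∑ r, eval Y (q (k, r)) * eval Y (τ3 r) =
          ∏ g, Y (k.1 g) ^ (M g + (Finsupp.single (0 : Fin 1) 3) g) := by
  have hg0 : (0 : ℤ) ≤ genus Qbar F := by positivity
  refine exists_multicert (K := Qbar) (grp1 n) (cone (lHyp_of_isGen hx) P0 d ht0 b) ?_ τ3
    (fun r => isWH_grp1_of_isHomogeneous (hτ3 r)) ?_
  · rintro Y ⟨v, μ, rfl⟩ lam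
    refine ⟨v, lam 0 * μ, ?_⟩
    funext i
    simp only [scale, grp1, Pi.smul_apply, smul_eq_mul]
    ring
  · intro Y hYZ hall
    refine ⟨0, fun i _ => ?_⟩
    rcases cone_closed hx P0 ht0 hd b Y hYZ with h0 | ⟨v, lam, hv⟩
    · rw [h0]
      rfl
    · by_cases hlam : lam = 0
      · rw [hv, hlam, zero_smul]
        rfl
      exfalso
      obtain ⟨r, hr⟩ := exists_tau_ne_zero hx P0 ht0 b τ (by omega) τ3 hτ3 hτ3' v
      apply hr
      have h1 := hall r
      have hYs : Y = scale (grp1 n) (fun _ => lam) (pt (lHyp_of_isGen hx) P0 d ht0 b v) := by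
        rw [hv]
        funext i
        simp [scale]
      rw [hYs, eval_scale (grp1 n) (isWH_grp1_of_isHomogeneous (hτ3 r))] at h1
      refine (mul_eq_zero.mp h1).resolve_left ?_
      exact Finset.prod_ne_zero_iff.mpr fun g _ => pow_ne_zero _ hlam

include hx in
/-- **(hTlow)** the certificate lower bound for the cubic forms at `pt y`. -/
theorem exists_tau3_ge (hd : 4 * (genus Qbar F : ℤ) ≤ d) (τ3 : I3 → MvPolynomial (Fin n) Qbar)
    (hτ3 : ∀ r, (τ3 r).IsHomogeneous 3)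
    (hτ3' : ∀ r, formFn P0 d b (τ3 r) = ((τ r : Lm P0 (d + (d + d))) : F)) :
    ∃ C : Place → ℝ, IsLocConst C ∧ ∀ (v : Place) (y : Place Qbar F),
      supN v (pt (lHyp_of_isGen hx) P0 d ht0 b y) ^ 3
        ≤ C v * ⨆ r, absV v (eval (pt (lHyp_of_isGen hx) P0 d ht0 b y) (τ3 r)) := by
  classical
  obtain ⟨M, q, hq, hid⟩ := cert_T hx P0 ht0 b τ hd τ3 hτ3 hτ3'
  have hg0 : (0 : ℤ) ≤ genus Qbar F := by positivity
  refine ⟨fun v => max 1 (archC (Fintype.card I3) v) * cmax v q,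
    (isLocConst_max_one_archC _).mul (isLocConst_cmax q), fun v y => ?_⟩
  set Y := pt (lHyp_of_isGen hx) P0 d ht0 b y with hY
  have hY0 : Y ≠ 0 := pt_ne_zero hx P0 ht0 b (by omega) y
  have hmem : Y ∈ cone (lHyp_of_isGen hx) P0 d ht0 b := ⟨y, 1, by rw [one_smul]⟩
  have h1 := supN_eval_ge_multi v (grp1 n) q hq τ3 Y (exists_c_ne_zero_grp1 hY0)
    (fun k => hid Y hmem k)
  rw [prod_xg_grp1] at h1
  have harch : 0 ≤ archC (Fintype.card I3) v := Fermat.Agent.MW.HT.MvGauss3.archC_nonneg _ v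
  have hq0 : 0 ≤ ⨆ a, coeffC v (q a) := Real.iSup_nonneg fun a => coeffC_nonneg v (q a)
  calc supN v Y ^ 3
      ≤ archC (Fintype.card I3) v * (⨆ a, coeffC v (q a))
          * supN v (fun r => eval Y (τ3 r)) := h1
    _ ≤ max 1 (archC (Fintype.card I3) v) * cmax v q * ⨆ r, absV v (eval Y (τ3 r)) := by
        refine mul_le_mul (mul_le_mul (archC_le_max_one _ v) (iSup_coeffC_le_cmax v q) hq0
          (le_trans zero_le_one (le_max_left _ _))) le_rfl
          (supN_nonneg v _) (mul_nonneg (le_trans zero_le_one (le_max_left _ _)) (cmax_pos v q).le)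

end RR

end Fermat.Agent.MW.CHOW.ChowLocA3
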