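/-
PROGRAMME MW (S17), block CHOW+UD — helper3.  `ChowLocB3`: **the LOCAL TWO-SIDED UNIFORM
DECOMPOSITION** `GlobHyp3.LocUD2` for the curve embedded by `|d·P0|` (`4g ≤ d`, `0 < d`), with a
constant `Cud ≥ 1` equal to `1` at almost all places: assembly of `HT.Factor3.factor_two_sided` with
the six bounds of `ChowLocA3` and the polynomial identities of `UDglob8`.
-/
import Mathlib
import Fermat.Agent.MW.CHOW.ChowLocA3
import Fermat.Agent.MW.CHOW.UDglob8
import Fermat.Agent.MW.CHOW.GlobHyp3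
import Fermat.Agent.MW.HT.Factor3

set_option autoImplicit false
set_option linter.unusedSectionVars false

open AlgebraicCurve

namespace Fermat.Agent.MW.CHOW.ChowLocB3

open MvPolynomial
open Fermat.Agent.X0.FF Fermat.Agent.RR.LSpace Fermat.Agent.RR.LHypGen
open Fermat.Agent.MW.EMB.Value6 Fermat.Agent.MW.EMB.OnePoint6 Fermat.Agent.MW.EMB.Coord6
open Fermat.Agent.MW.EMB.Tangent6
open Fermat.Agent.MW.EMB.Proj6 Fermat.Agent.MW.EMB.Form6 Fermat.Agent.MW.EMB.Cone6
open Fermat.Agent.MW.CHOW.Sec8 Fermat.Agent.MW.CHOW.ChowAlg8 Fermat.Agent.MW.CHOW.ChowPF8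
open Fermat.Agent.MW.CHOW.ChowPoly8 Fermat.Agent.MW.CHOW.Null8 Fermat.Agent.MW.CHOW.ChowCert8
open Fermat.Agent.MW.CHOW.ChowLocA3 Fermat.Agent.MW.CHOW.UDglob8 Fermat.Agent.MW.CHOW.GlobHyp3
open Fermat.Agent.MW.POS.Jet9 Fermat.Agent.MW.POS.HadLoc9
open Fermat.Agent.MW.HT.Place3 (Qbar Place absV)
open Fermat.Agent.MW.HT.Ht3 (supN supN_nonneg le_supN supN_le supN_pos)
open Fermat.Agent.MW.HT.CMax3 Fermat.Agent.MW.HT.Factor3
open Fermat.Agent.MW.HT.Kron3 (gaussN)

variable {F : Type*} [Field F] [Algebra Qbar F]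
variable {x : F} [HasCanonicalDivisor (K := Qbar) (F := F)]
variable (hx : IsGen Qbar x) (P0 : Place Qbar F) {d : ℕ} {t0 : F} (ht0 : P0.ord t0 = 1) {n : ℕ}
  (b : Module.Basis (Fin n) Qbar (Lm P0 d))
  {I2 I3 : Type*} [Fintype I2] [Fintype I3] [DecidableEq I2] [DecidableEq I3]
  (β : Module.Basis I2 Qbar (Lm P0 (d + d))) (τ : Module.Basis I3 Qbar (Lm P0 (d + (d + d))))

/-- the sup norm of the wedge vectors in helper9's conventions. -/
theorem supN_wv [DecidableEq (Place Qbar F)] (v : Place) (z : Fin d → Place Qbar F)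
    (y : Place Qbar F) {t : F} (ht : y.ord t = 1) (j : Fin d) :
    supN v (wv hx P0 ht0 b z y ht j) =
      if z j = y then supN v (wedge2 (pt (lHyp_of_isGen hx) P0 d ht0 b y)
          (dpt (lHyp_of_isGen hx) P0 d ht0 b y ht))
      else supN v (wedge2 (pt (lHyp_of_isGen hx) P0 d ht0 b (z j))
          (pt (lHyp_of_isGen hx) P0 d ht0 b y)) := by
  by_cases hj : z j = y
  · rw [if_pos hj]
    simp only [wv, if_pos hj]
    exact Fermat.Agent.MW.HT.GlobUD3.supN_wedge2_comm v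
      (pt (lHyp_of_isGen hx) P0 d ht0 b y) (dpt (lHyp_of_isGen hx) P0 d ht0 b y ht)
  · rw [if_neg hj]
    simp only [wv, if_neg hj]
    exact Fermat.Agent.MW.HT.GlobUD3.supN_wedge2_comm v
      (pt (lHyp_of_isGen hx) P0 d ht0 b (z j)) (pt (lHyp_of_isGen hx) P0 d ht0 b y)

/-- the real-number identity behind the assembly. -/
theorem bud_identity [DecidableEq (Place Qbar F)] (hd : 2 * (genus Qbar F : ℤ) ≤ d) (v : Place)
    (c : Fin n → Qbar) (y : Place Qbar F) {t : F} (ht : y.ord t = 1) (z : Fin d → Place Qbar F)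
    (k : ℕ) :
    Bud (lHyp_of_isGen hx) P0 d ht0 b v c y ht z *
        (supN v c ^ k * supN v (pt (lHyp_of_isGen hx) P0 d ht0 b y) ^ (d + 2) *
          ∏ j, supN v (pt (lHyp_of_isGen hx) P0 d ht0 b (z j))) =
      supN v (pt (lHyp_of_isGen hx) P0 d ht0 b y) ^ 3 * supN v c ^ (k + 1) *
        ∏ j, supN v (wv hx P0 ht0 b z y ht j) := by
  have hY : 0 < supN v (pt (lHyp_of_isGen hx) P0 d ht0 b y) :=
    supN_pos v (pt_ne_zero hx P0 ht0 b hd y)
  have hP : ∀ j, 0 < supN v (pt (lHyp_of_isGen hx) P0 d ht0 b (z j)) :=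
    fun j => supN_pos v (pt_ne_zero hx P0 ht0 b hd (z j))
  have hterm : ∀ j, (if z j = y then kap (lHyp_of_isGen hx) P0 d ht0 b v y ht
      else chi (lHyp_of_isGen hx) P0 d ht0 b v (z j) y) =
      supN v (wv hx P0 ht0 b z y ht j) /
        (supN v (pt (lHyp_of_isGen hx) P0 d ht0 b (z j)) *
          supN v (pt (lHyp_of_isGen hx) P0 d ht0 b y)) := by
    intro j
    rw [supN_wv]
    by_cases hj : z j = y
    · rw [if_pos hj, if_pos hj, kap, hj, sq]
    · rw [if_neg hj, if_neg hj, chi]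
  rw [Bud, Finset.prod_congr rfl fun j _ => hterm j, Finset.prod_div_distrib,
    Finset.prod_mul_distrib, Finset.prod_const, Finset.card_univ, Fintype.card_fin]
  have hPu : 0 < ∏ j, supN v (pt (lHyp_of_isGen hx) P0 d ht0 b (z j)) :=
    Finset.prod_pos fun j _ => hP j
  field_simp
  ring

include hx in
/-- **The local two-sided uniform decomposition**, for given auxiliary data. -/
theorem locUD2_aux [DecidableEq (Place Qbar F)] (hd : 4 * (genus Qbar F : ℤ) ≤ d) (hd0 : 0 < d)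
    (e : I2 ⊕ Fin d ≃ I3) (β2 : I2 → MvPolynomial (Fin n) Qbar)
    (hβ2 : ∀ q, (β2 q).IsHomogeneous 2)
    (τ3 : I3 → MvPolynomial (Fin n) Qbar) (hτ3 : ∀ r, (τ3 r).IsHomogeneous 3)
    (hτ3' : ∀ r, formFn P0 d b (τ3 r) = ((τ r : Lm P0 (d + (d + d))) : F))
    (hADJ : AdjId hx P0 ht0 b β τ e β2 τ3) :
    ∃ Cud : Place → ℝ, IsLocConst Cud ∧ LocUD2 (lHyp_of_isGen hx) P0 d ht0 b Cud := by
  classical
  have hg0 : (0 : ℤ) ≤ genus Qbar F := by positivity
  have hd2 : 2 * (genus Qbar F : ℤ) ≤ d := by omega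
  obtain ⟨CR, hCR, hRlow⟩ := exists_chowPolyAt_ge hx P0 ht0 b β τ hd2 hd0 e
  obtain ⟨CD, hCD, hDlow⟩ := exists_dPolyAt_ge hx P0 ht0 b β τ hd hd0 e β2 hβ2 τ3 hτ3 hτ3' hADJ
  obtain ⟨CT, hCT, hTlow⟩ := exists_tau3_ge hx P0 ht0 b τ hd τ3 hτ3 hτ3'
  set C1 : Place → ℝ := fun v => cmax v (famR P0 b β τ e) with hC1
  set C3 : Place → ℝ := fun v => cmax v (famD P0 b β τ e β2) with hC3
  set C5 : Place → ℝ := fun v => cmax v τ3 with hC5
  have iC1 : IsLocConst C1 := isLocConst_cmax _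
  have iC3 : IsLocConst C3 := isLocConst_cmax _
  have iC5 : IsLocConst C5 := isLocConst_cmax _
  set G : Place → ℝ := fun v => factorG d (Fintype.card (Fin n)) (Fintype.card (Fin n × Fin n)) v
    with hG
  have iG : IsLocConst G :=
    isLocConst_of_some (fun v => one_le_factorG _ _ _ v) fun p => factorG_some _ _ _ p
  set K1 : Place → ℝ := fun v => C1 v * CD v * C5 v * G v with hK1
  set K2 : Place → ℝ := fun v => CR v * C3 v * CT v * G v with hK2
  have iK1 : IsLocConst K1 := ((iC1.mul hCD).mul iC5).mul iG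
  have iK2 : IsLocConst K2 := ((hCR.mul iC3).mul hCT).mul iG
  refine ⟨fun v => max (K1 v) (K2 v), iK1.max iK2, ?_⟩
  intro v c hc y t ht z hz
  -- the data
  set Y := pt (lHyp_of_isGen hx) P0 d ht0 b y with hY
  obtain ⟨ε, -, hε⟩ := exists_eps hx P0 ht0 b β τ hd2 hd0 e hc z hz
  obtain ⟨sel0, -⟩ := exists_sel_injective hx P0 b β (by omega) hc
  obtain ⟨r0, -⟩ := exists_tau_ne_zero hx P0 ht0 b τ hd2 τ3 hτ3 hτ3' y
  have : Nonempty (Fin d → I2) := ⟨sel0⟩
  have : Nonempty I3 := ⟨r0⟩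
  obtain ⟨k, hk⟩ : ∃ k, Fintype.card I2 = k + 1 := by
    have : 0 < Fintype.card I2 := Fintype.card_pos_iff.mpr ⟨sel0 ⟨0, hd0⟩⟩
    exact ⟨Fintype.card I2 - 1, by omega⟩
  set m : ℕ := (Finset.univ.filter fun j => z j = y).card with hm
  have hmul : hyp (lHyp_of_isGen hx) P0 d b hc y = m := by rw [hz, sum_single_apply_card]
  have ha : Fermat.Agent.MW.EMB.Lead6.lcSec (lHyp_of_isGen hx) P0 d t0 y t
      ((lin P0 d b c : Lm P0 d) : F) =
      ∑ i, c i * jet (lHyp_of_isGen hx) P0 d ht0 b y ht m i :=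
    lcSec_lin_eq_sum_jet (lHyp_of_isGen hx) P0 d ht0 b hc y ht m hmul
  set a : Qbar := ∑ i, c i * jet (lHyp_of_isGen hx) P0 d ht0 b y ht m i with hadef
  have h1 := fun sel => chowPolyAt_eq P0 b β τ e sel c
    (fun j => pt (lHyp_of_isGen hx) P0 d ht0 b (z j)) (ε sel) (hε sel)
  have h2 : ∀ sel r, C a * dPolyAt (gTab P0 b β τ) e sel β2 r c Y =
      C (eval Y (τ3 r) * ε sel) * ∏ j, ∑ p, C (wv hx P0 ht0 b z y ht j p) * X p := by
    intro sel r
    have := dPolyAt_eq hx P0 ht0 b β τ e β2 τ3 hADJ sel hc z hz (ε sel) (hε sel) y ht r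
    rwa [ha] at this
  have hcpos : 0 < supN v c := supN_pos v hc
  have hYpos : 0 < supN v Y := supN_pos v (pt_ne_zero hx P0 ht0 b hd2 y)
  have key := factor_two_sided v
    (fun sel => chowPolyAt (gTab P0 b β τ) e sel c)
    (fun sel r => dPolyAt (gTab P0 b β τ) e sel β2 r c Y)
    (fun j => pt (lHyp_of_isGen hx) P0 d ht0 b (z j)) (wv hx P0 ht0 b z y ht) a ε
    (fun r => eval Y (τ3 r)) h1 h2
    (Rn := supN v c ^ Fintype.card I2)
    (Dn := supN v c ^ (Fintype.card I2 - 1) * supN v Y ^ (d + 2)) (Tn := supN v Y ^ 3)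
    (pow_nonneg hcpos.le _) (mul_nonneg (pow_nonneg hcpos.le _) (pow_nonneg hYpos.le _))
    (pow_nonneg hYpos.le _)
    (C₁ := C1 v) (C₂ := CR v) (C₃ := C3 v) (C₄ := CD v) (C₅ := C5 v) (C₆ := CT v)
    (le_trans zero_le_one (iC1.1 v)) (le_trans zero_le_one (hCR.1 v))
    (le_trans zero_le_one (iC3.1 v)) (le_trans zero_le_one (hCD.1 v))
    (le_trans zero_le_one (iC5.1 v)) (le_trans zero_le_one (hCT.1 v))
    (fun sel => gaussN_chowPolyAt_le P0 b β τ v e sel c) (hRlow v c hc)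
    (fun sel r => gaussN_dPolyAt_le P0 b β τ v e β2 hβ2 sel r c Y) (hDlow v c hc y)
    (fun r => absV_tau3_le v τ3 hτ3 r Y) (hTlow v y)
  obtain ⟨hup, hlow⟩ := key
  -- rewrite with the model quantity
  have hid := bud_identity hx P0 ht0 b hd2 v c y ht z k
  have hk' : Fintype.card I2 - 1 = k := by omega
  rw [hk', hk] at hup hlow
  set Pu : ℝ := ∏ j, supN v (pt (lHyp_of_isGen hx) P0 d ht0 b (z j)) with hPu
  set Pw : ℝ := ∏ j, supN v (wv hx P0 ht0 b z y ht j) with hPw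
  set B : ℝ := Bud (lHyp_of_isGen hx) P0 d ht0 b v c y ht z with hB
  have hPupos : 0 < Pu :=
    Finset.prod_pos fun j _ => supN_pos v (pt_ne_zero hx P0 ht0 b hd2 (z j))
  have hDpos : 0 < supN v c ^ k * supN v Y ^ (d + 2) * Pu :=
    mul_pos (mul_pos (pow_pos hcpos _) (pow_pos hYpos _)) hPupos
  have hB0 : 0 ≤ B := by
    rw [hB, Bud]
    refine mul_nonneg (mul_nonneg hcpos.le hYpos.le) (Finset.prod_nonneg fun j _ => ?_)
    split_ifs
    · exact kap_nonneg _ P0 d ht0 b v y ht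
    · exact chi_nonneg _ P0 d ht0 b v _ _
  have hK1pos : 0 < K1 v := lt_of_lt_of_le zero_lt_one (iK1.1 v)
  have hK2pos : 0 < K2 v := lt_of_lt_of_le zero_lt_one (iK2.1 v)
  -- upper bound
  have hup' : absV v a ≤ K1 v * B := by
    have h : absV v a * (supN v c ^ k * supN v Y ^ (d + 2) * Pu)
        ≤ (K1 v * B) * (supN v c ^ k * supN v Y ^ (d + 2) * Pu) := by
      calc absV v a * (supN v c ^ k * supN v Y ^ (d + 2) * Pu)
          = absV v a * (supN v c ^ k * supN v Y ^ (d + 2)) * Pu := by ring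
        _ ≤ C1 v * CD v * C5 v * G v * (supN v Y ^ 3 * supN v c ^ (k + 1) * Pw) := hup
        _ = K1 v * (B * (supN v c ^ k * supN v Y ^ (d + 2) * Pu)) := by rw [hid]
        _ = _ := by ring
    exact le_of_mul_le_mul_right h hDpos
  -- lower bound
  have hlow' : B ≤ K2 v * absV v a := by
    have h : B * (supN v c ^ k * supN v Y ^ (d + 2) * Pu)
        ≤ (K2 v * absV v a) * (supN v c ^ k * supN v Y ^ (d + 2) * Pu) := by
      calc B * (supN v c ^ k * supN v Y ^ (d + 2) * Pu)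
          = supN v Y ^ 3 * supN v c ^ (k + 1) * Pw := hid
        _ ≤ CR v * C3 v * CT v * G v *
            (absV v a * (supN v c ^ k * supN v Y ^ (d + 2)) * Pu) := hlow
        _ = _ := by ring
    exact le_of_mul_le_mul_right h hDpos
  have hmaxpos : 0 < max (K1 v) (K2 v) := lt_of_lt_of_le hK1pos (le_max_left _ _)
  constructor
  · rw [inv_mul_le_iff₀ hmaxpos]
    exact hlow'.trans (mul_le_mul_of_nonneg_right (le_max_right _ _) ((absV v).nonneg a))
  · exact hup'.trans (mul_le_mul_of_nonneg_right (le_max_left _ _) hB0)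

include hx in
/-- **THE LOCAL TWO-SIDED UNIFORM DECOMPOSITION** for the curve embedded by `|d·P0|`
(`4g ≤ d`, `0 < d`): `LocUD2` holds with a constant `Cud ≥ 1` which is `1` at almost all places. -/
theorem exists_locUD2 [DecidableEq (Place Qbar F)] (hd : 4 * (genus Qbar F : ℤ) ≤ d)
    (hd0 : 0 < d) :
    ∃ Cud : Place → ℝ, (∀ v, 1 ≤ Cud v) ∧ {v : Place | Cud v ≠ 1}.Finite ∧
      LocUD2 (lHyp_of_isGen hx) P0 d ht0 b Cud := by
  classical
  have hg0 : (0 : ℤ) ≤ genus Qbar F := by positivity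
  have := Fermat.Agent.RR.RRMain.finiteDimensional_L hx (mP P0 (d + d))
  have := Fermat.Agent.RR.RRMain.finiteDimensional_L hx (mP P0 (d + (d + d)))
  have hf2 := finrank_Lm hx P0 (m := d + d) (by push_cast; omega)
  have hf3 := finrank_Lm hx P0 (m := d + (d + d)) (by push_cast; omega)
  set β := Module.finBasis Qbar (Lm P0 (d + d)) with hβ
  set τ := Module.finBasis Qbar (Lm P0 (d + (d + d))) with hτ
  have hcard : Fintype.card (Fin (Module.finrank Qbar (Lm P0 (d + d))) ⊕ Fin d) =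
      Fintype.card (Fin (Module.finrank Qbar (Lm P0 (d + (d + d))))) := by
    rw [Fintype.card_sum, Fintype.card_fin, Fintype.card_fin, Fintype.card_fin]
    push_cast at hf2 hf3
    omega
  set e := Fintype.equivOfCardEq hcard with he
  have h2 := fun q => exists_form hx P0 hd b (f := ((β q : Lm P0 (d + d)) : F)) (e := 2)
    (by rw [two_mul]; exact (β q).2)
  choose β2 hβ2 hβ2' using h2
  have h3 := fun r => exists_form hx P0 hd b (f := ((τ r : Lm P0 (d + (d + d))) : F)) (e := 3)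
    (by rw [show 3 * d = d + (d + d) by ring]; exact (τ r).2)
  choose τ3 hτ3 hτ3' using h3
  have hADJ : AdjId hx P0 ht0 b β τ e β2 τ3 := fun sel c hc z hz ε hε y t hty r W =>
    Fermat.Agent.MW.CHOW.ChowAdj6.adj_identity (lHyp_of_isGen hx) P0 ht0 b β τ e sel β2 hβ2 hβ2'
      τ3 hτ3 hτ3' hc z hz ε hε y hty r W
  obtain ⟨Cud, hC, hUD⟩ := locUD2_aux hx P0 ht0 b β τ hd hd0 e β2 hβ2 τ3 hτ3 hτ3' hADJ
  exact ⟨Cud, hC.1, hC.2, hUD⟩

end Fermat.Agent.MW.CHOW.ChowLocB3
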